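import Fermat.Agent.S13.Lp.H25_DefsC3
import Fermat.Agent.S13.W.H6_Conseq

/-!
# S13, package Lp, leaf C3 (instance `d = 1`), hedge by helper23

`stC3_of_core : StC3Core → ∀ P, StC3 P`: Claim 3 for the short model of the Frey curve from the
model-free core.  The two Galois-stable sets of roots are the `x`-coordinates of `N1 \ 0` and of
the `p`-torsion points outside `N1`.
-/

set_option autoImplicit false
set_option linter.unusedSectionVars false
set_option linter.unusedVariables false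

open Polynomial
open WeierstrassCurve WeierstrassCurve.Affine WeierstrassCurve.Affine.Point
open Fermat.Agent.S05 Fermat.Agent.S13.Asm

namespace Fermat.Agent.S13.Lp.H23

/-- The discriminant of a short curve `y² = x³ + a₂ x² + a₄ x`. -/
theorem h23_short_Δ {F : Type*} [CommRing F] (W : WeierstrassCurve F) (h₁ : W.a₁ = 0)
    (h₃ : W.a₃ = 0) (h₆ : W.a₆ = 0) : W.Δ = 16 * W.a₄ ^ 2 * (W.a₂ ^ 2 - 4 * W.a₄) := by
  simp only [WeierstrassCurve.Δ, WeierstrassCurve.b₂, WeierstrassCurve.b₄, WeierstrassCurve.b₆,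
    WeierstrassCurve.b₈, h₁, h₃, h₆]
  ring

/-- The short model of the Frey curve is nonsingular. -/
theorem h23_W1_Δ_ne_zero (P : FreyPackage) : ((W1 P)⁄Kbar).Δ ≠ 0 := by
  obtain ⟨h₁, h₃, h₆, e₂, e₄⟩ := H27.freyVC_smul_baseChange P P.p Kbar
  rw [h23_short_Δ _ h₁ h₃ h₆, e₂, e₄]
  have hbe : (H27.freyBe P P.p : Kbar) ≠ 0 := H27.freyBe_cast_ne_zero (L := Kbar) P
  have hd : (H27.freyAl P P.p : Kbar) ^ 2 - 4 * (H27.freyBe P P.p : Kbar) ≠ 0 := by
    have h := H27.not_dvd_freyAl_sq_sub P P.pp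
    have h0 : H27.freyAl P P.p ^ 2 - 4 * H27.freyBe P P.p ≠ 0 := by
      intro h0
      rw [h0] at h
      exact h (dvd_zero _)
    have := (Int.cast_ne_zero (α := Kbar)).mpr h0
    push_cast at this
    exact this
  have h16 : (16 : Kbar) ≠ 0 := by norm_num
  exact mul_ne_zero (mul_ne_zero h16 (pow_ne_zero 2 hbe)) hd

/-- The Galois action commutes with multiples. -/
theorem h23_smul_nsmul (P : FreyPackage) (σ : Gam) (n : ℕ) (Q : E1 P) :
    σ • (n • Q) = n • (σ • Q) :=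
  map_nsmul (Point.map (W' := W1 P) σ.toAlgHom) n Q

/-- **Claim 3 for the short model of the Frey curve**, from the model-free core. -/
theorem stC3_of_core (hcore : StC3Core) (P : FreyPackage) : StC3 P := by
  classical
  rintro ⟨Ψ, hdeg, hlc, hroot⟩ A hA N1 hN1t hN1s hN1ne ⟨x₀, hx₀, hx₀N⟩ hall
  have hΨ0 : Ψ ≠ 0 := by
    rintro rfl
    exact hlc (by simp)
  have hΔ := h23_W1_Δ_ne_zero P
  have hΨ'0 : Ψ.map (Int.castRingHom Kbar) ≠ 0 :=
    (Polynomial.map_ne_zero_iff (RingHom.injective_int (Int.castRingHom Kbar))).mpr hΨ0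
  have haeval : ∀ x : Kbar, aeval x Ψ = (Ψ.map (Int.castRingHom Kbar)).eval x := by
    intro x
    rw [aeval_def, eval_map, RingHom.ext_int (algebraMap ℤ Kbar) (Int.castRingHom Kbar)]
  -- membership in the root set
  have hmemroots : ∀ (ξ y : Kbar) (h : ((W1 P)⁄Kbar).Nonsingular ξ y),
      P.p • (Point.some ξ y h : E1 P) = 0 →
        ξ ∈ (Ψ.map (Int.castRingHom Kbar)).roots.toFinset := by
    intro ξ y h h0
    rw [Multiset.mem_toFinset, mem_roots hΨ'0, IsRoot.def, ← haeval]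
    exact (hroot ξ y h).mp h0
  -- the two sets of roots
  set S₁ : Finset Kbar := (Ψ.map (Int.castRingHom Kbar)).roots.toFinset.filter
    (fun ξ => ∃ y, ∃ h : ((W1 P)⁄Kbar).Nonsingular ξ y, (Point.some ξ y h : E1 P) ∈ N1) with hS₁
  set S₂ : Finset Kbar := (Ψ.map (Int.castRingHom Kbar)).roots.toFinset.filter
    (fun ξ => ∃ y, ∃ h : ((W1 P)⁄Kbar).Nonsingular ξ y,
      P.p • (Point.some ξ y h : E1 P) = 0 ∧ (Point.some ξ y h : E1 P) ∉ N1) with hS₂
  have hdvd : ∀ ξ ∈ (Ψ.map (Int.castRingHom Kbar)).roots.toFinset,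
      (X - C ξ) ^ 1 ∣ Ψ.map (Int.castRingHom Kbar) := by
    intro ξ hξ
    rw [pow_one, dvd_iff_isRoot]
    rw [Multiset.mem_toFinset, mem_roots hΨ'0] at hξ
    exact hξ
  have key : (P.p : ℤ) ^ (2 * 1) ∣ Ψ.leadingCoeff := by
    refine hcore P.p P.pp A hA Ψ hΨ0 1 ?_ S₁ S₂ ?_ ?_ ?_ ?_ ?_ ?_ ?_
    · -- all roots are non-integral
      intro x hx hxA
      obtain ⟨y, hy⟩ := Fermat.Agent.S13.W.Conseq.exists_nonsingular _ hΔ x
      have h0 : P.p • (Point.some x y hy : E1 P) = 0 := (hroot x y hy).mpr hx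
      have hk : 1 < A.valuation x := hall _ h0
      exact absurd ((A.valuation_le_one_iff x).mpr hxA) (not_le.mpr hk)
    · -- `S₁` is nonempty
      obtain ⟨⟨Q, hQ⟩, hQ0⟩ := (AddSubgroup.ne_bot_iff_exists_ne_zero).mp hN1ne
      have hQ0' : Q ≠ 0 := fun h => hQ0 (Subtype.ext h)
      rcases Q with _ | ⟨ξ, y, h⟩
      · exact absurd rfl hQ0'
      · exact ⟨ξ, Finset.mem_filter.mpr ⟨hmemroots ξ y h (hN1t _ hQ), y, h, hQ⟩⟩
    · -- `S₂` is nonempty
      rcases x₀ with _ | ⟨ξ, y, h⟩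
      · exact absurd N1.zero_mem hx₀N
      · exact ⟨ξ, Finset.mem_filter.mpr ⟨hmemroots ξ y h hx₀, y, h, hx₀, hx₀N⟩⟩
    · -- disjointness
      rw [Finset.disjoint_left]
      intro ξ h1 h2
      obtain ⟨-, y, h, hQ⟩ := Finset.mem_filter.mp h1
      obtain ⟨-, y', h', -, hQ'⟩ := Finset.mem_filter.mp h2
      rcases Y_eq_of_X_eq h'.1 h.1 rfl with e | e
      · subst e
        exact hQ' hQ
      · subst e
        have e2 : (Point.some ξ (((W1 P)⁄Kbar).toAffine.negY ξ y) h' : E1 P)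
            = - Point.some ξ y h := (Point.neg_some h).symm
        rw [e2] at hQ'
        exact hQ' (N1.neg_mem hQ)
    · -- `S₁` is Galois-stable
      intro σ ξ hξ
      obtain ⟨-, y, h, hQ⟩ := Finset.mem_filter.mp hξ
      have h1 := hN1s σ _ hQ
      rw [H13.smul_some] at h1
      exact Finset.mem_filter.mpr ⟨hmemroots _ _ _ (hN1t _ h1), σ y, _, h1⟩
    · -- `S₂` is Galois-stable
      intro σ ξ hξ
      obtain ⟨-, y, h, h0, hQ⟩ := Finset.mem_filter.mp hξ
      have h1 : P.p • (σ • (Point.some ξ y h : E1 P)) = 0 := by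
        rw [← h23_smul_nsmul, h0]
        rfl
      have h2 : σ • (Point.some ξ y h : E1 P) ∉ N1 := by
        intro hc
        have := hN1s σ⁻¹ _ hc
        rw [inv_smul_smul] at this
        exact hQ this
      rw [H13.smul_some] at h1 h2
      exact Finset.mem_filter.mpr ⟨hmemroots _ _ _ h1, σ y, _, h1, h2⟩
    · intro ξ hξ
      exact hdvd ξ (Finset.mem_filter.mp hξ).1
    · intro ξ hξ
      exact hdvd ξ (Finset.mem_filter.mp hξ).1
  rw [mul_one] at key
  exact hlc key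

end Fermat.Agent.S13.Lp.H23
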