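import Fermat.Agent.S13.Lp.H25_Defs

/-!
# S13, package Lp: the model-free core of Claim 3

`StC3Core` is independent of the model of the curve and of the shape of the polynomial delivered
by package W (Mathlib's `preΨ p` with simple roots and leading coefficient `p`: `d = 1`; or the
norm of the Wronskian with double roots and leading coefficient of `p`-adic valuation `2`:
`d = 2`).
-/

set_option autoImplicit false

open Polynomial
open Fermat.Agent.S13.Asm

namespace Fermat.Agent.S13.Lp

/-- **Core of Claim 3** (no elliptic curve in the statement). `A` a valuation subring of `Kbar`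
over `p`, `F ∈ ℤ[X]` nonzero all of whose roots in `Kbar` are non-integral at `A`; `S₁`, `S₂`
disjoint nonempty `Gam`-stable finite sets of roots of `F`, each root of multiplicity at least `d`.
Then `p ^ (2 d)` divides the leading coefficient of `F`. -/
def StC3Core : Prop :=
  ∀ (p : ℕ), p.Prime → ∀ (A : ValuationSubring Kbar), A.LiesOverPrime p →
    ∀ (F : Polynomial ℤ), F ≠ 0 → ∀ (d : ℕ),
    (∀ x : Kbar, aeval x F = 0 → x ∉ A) →
    ∀ (S₁ S₂ : Finset Kbar), S₁.Nonempty → S₂.Nonempty → Disjoint S₁ S₂ →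
    (∀ σ : Gam, ∀ x ∈ S₁, σ x ∈ S₁) → (∀ σ : Gam, ∀ x ∈ S₂, σ x ∈ S₂) →
    (∀ x ∈ S₁, (X - C x) ^ d ∣ F.map (Int.castRingHom Kbar)) →
    (∀ x ∈ S₂, (X - C x) ^ d ∣ F.map (Int.castRingHom Kbar)) →
    (p : ℤ) ^ (2 * d) ∣ F.leadingCoeff

end Fermat.Agent.S13.Lp
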