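import Mathlib
import Fermat.Agent.S13.Lp.H25_DefsC3

/-!
# S13, package Lp (helper24): the model-free core of Claim 3

`h24_stC3Core : StC3Core`.  No elliptic curve: a nonzero `F ∈ ℤ[X]` all of whose roots in `ℚ̄`
are non-integral at a valuation subring `A` over `p`, with two disjoint nonempty Galois-stable
sets of roots of multiplicity at least `d`, has leading coefficient divisible by `p ^ (2 d)`.
-/

set_option autoImplicit false
set_option linter.unusedSectionVars false
set_option linter.unusedVariables false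

open Polynomial

namespace Fermat.Agent.S13.Lp.H24

open Fermat.Agent.S05 Fermat.Agent.S13.Asm

/-- `ℚ̄ / ℚ` is Galois. -/
theorem h24_isGalois_rat : IsGalois ℚ Kbar := by
  have : Algebra.IsAlgebraic ℚ Kbar := AlgebraicClosure.isAlgebraic ℚ
  have : IsAlgClosure ℚ Kbar :=
    (inferInstance :
      @IsAlgClosure ℚ (AlgebraicClosure ℚ) _ _ (AlgebraicClosure.instAlgebra ℚ) _)
  have : Normal ℚ Kbar := IsAlgClosure.normal ℚ Kbar
  exact IsGalois.mk

/-- The product of a finite Galois-stable subset of `ℚ̄` is rational. -/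
lemma h24_prod_rational (S : Finset Kbar) (hS : ∀ σ : Gam, ∀ x ∈ S, σ x ∈ S) :
    ∃ q : ℚ, algebraMap ℚ Kbar q = ∏ x ∈ S, x := by
  have hfix : ∀ σ : Gam, σ (∏ x ∈ S, x) = ∏ x ∈ S, x := by
    intro σ
    rw [map_prod]
    exact Finset.prod_bij (fun x _ => σ x) (fun x hx => hS σ x hx)
      (fun a _ b _ h => σ.injective h)
      (fun b hb => ⟨σ.symm b, hS σ.symm b hb, by simp⟩) (fun _ _ => rfl)
  have := h24_isGalois_rat
  exact (InfiniteGalois.mem_range_algebraMap_iff_fixed _).mpr hfix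

/-- A rational number of valuation `> 1` at `A` over `p` has valuation at least `(v p)⁻¹`. -/
lemma h24_val_rat {p : ℕ} (hp : p.Prime) {A : ValuationSubring Kbar} (hA : A.LiesOverPrime p)
    (q : ℚ) (hq : 1 < A.valuation (algebraMap ℚ Kbar q)) :
    (A.valuation (p : Kbar))⁻¹ ≤ A.valuation (algebraMap ℚ Kbar q) := by
  have hden0 : ((q.den : ℤ) : Kbar) ≠ 0 := by
    exact_mod_cast q.den_ne_zero
  have hqe : algebraMap ℚ Kbar q = ((q.num : ℤ) : Kbar) / ((q.den : ℤ) : Kbar) := by
    conv_lhs => rw [← Rat.num_div_den q]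
    simp
  rw [hqe, map_div₀] at hq ⊢
  have hvd0 : A.valuation ((q.den : ℤ) : Kbar) ≠ 0 := (Valuation.ne_zero_iff _).mpr hden0
  have hvd_pos : 0 < A.valuation ((q.den : ℤ) : Kbar) := zero_lt_iff.mpr hvd0
  have hlt : A.valuation ((q.den : ℤ) : Kbar) < A.valuation ((q.num : ℤ) : Kbar) := by
    have := (one_lt_div₀ hvd_pos).mp hq
    exact this
  have hnum_le : A.valuation ((q.num : ℤ) : Kbar) ≤ 1 := H7.valuation_intCast_le_one _
  have hden_lt : A.valuation ((q.den : ℤ) : Kbar) < 1 := lt_of_lt_of_le hlt hnum_le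
  have hpd : (p : ℤ) ∣ (q.den : ℤ) := (H7.valuation_intCast_lt_one_iff hp hA _).mp hden_lt
  have hpn : ¬ (p : ℤ) ∣ q.num := by
    intro hpn
    have h1 : (p : ℤ) ∣ Int.gcd q.num (q.den : ℤ) := Int.dvd_coe_gcd hpn hpd
    have h2 : Int.gcd q.num (q.den : ℤ) = 1 := by
      have := q.reduced
      simpa [Int.gcd, Nat.Coprime] using this
    rw [h2] at h1
    have : p ∣ 1 := by exact_mod_cast h1
    exact hp.one_lt.ne' (Nat.dvd_one.mp this)
  have hnum1 : A.valuation ((q.num : ℤ) : Kbar) = 1 := H7.valuation_intCast_eq_one hp hA hpn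
  obtain ⟨m, hm⟩ := hpd
  have hden_le : A.valuation ((q.den : ℤ) : Kbar) ≤ A.valuation (p : Kbar) := by
    rw [hm]
    push_cast
    rw [map_mul]
    calc A.valuation (p : Kbar) * A.valuation (m : Kbar)
        ≤ A.valuation (p : Kbar) * 1 := by gcongr; exact H7.valuation_intCast_le_one m
      _ = A.valuation (p : Kbar) := mul_one _
  rw [hnum1, one_div]
  exact (inv_le_inv₀ (lt_of_lt_of_le hvd_pos hden_le) hvd_pos).mpr hden_le

/-- A nonempty product of elements of valuation `> 1` has valuation `> 1`. -/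
lemma h24_one_lt_val_prod {A : ValuationSubring Kbar} (S : Finset Kbar) (hne : S.Nonempty)
    (hS : ∀ x ∈ S, 1 < A.valuation x) : 1 < A.valuation (∏ x ∈ S, x) := by
  classical
  induction S using Finset.induction_on with
  | empty => exact absurd hne (by simp)
  | insert a T ha ih =>
    rw [Finset.prod_insert ha, map_mul]
    have h1 : 1 < A.valuation a := hS a (Finset.mem_insert_self a T)
    rcases T.eq_empty_or_nonempty with hT | hT
    · subst hT
      simpa using h1
    · have h2 : 1 < A.valuation (∏ x ∈ T, x) :=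
        ih hT (fun x hx => hS x (Finset.mem_insert_of_mem hx))
      calc (1 : A.ValueGroup) = 1 * 1 := (one_mul 1).symm
        _ < A.valuation a * A.valuation (∏ x ∈ T, x) :=
          mul_lt_mul'' h1 h2 zero_le_one zero_le_one

/-- The valuation of a product over a multiset. -/
lemma h24_val_multiset_prod {A : ValuationSubring Kbar} (M : Multiset Kbar) :
    A.valuation M.prod = (M.map A.valuation).prod :=
  map_multiset_prod A.valuation M

/-- **Core of Claim 3.** -/
theorem h24_stC3Core : StC3Core := by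
  classical
  intro p hp A hA F hF d hroot S₁ S₂ hne₁ hne₂ hdisj hσ₁ hσ₂ hd₁ hd₂
  rcases Nat.eq_zero_or_pos d with hd0 | hdpos
  · subst hd0
    simp
  set v := A.valuation with hv
  set Fk : Kbar[X] := F.map (Int.castRingHom Kbar) with hFk
  have hinj : Function.Injective (Int.castRingHom Kbar) := Int.cast_injective
  have hFk0 : Fk ≠ 0 := (Polynomial.map_ne_zero_iff hinj).mpr hF
  have hlc : Fk.leadingCoeff = ((F.leadingCoeff : ℤ) : Kbar) := by
    rw [hFk, leadingCoeff_map_of_injective hinj]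
    rfl
  have hsplit : Fk.Splits := IsAlgClosed.splits Fk
  -- roots are non-integral
  have hrootv : ∀ x ∈ Fk.roots, 1 < v x := by
    intro x hx
    have hx0 : Fk.eval x = 0 := (mem_roots hFk0).mp hx
    have : aeval x F = 0 := by
      rw [aeval_def, eval₂_eq_eval_map]
      exact hx0
    have hxA := hroot x this
    rw [← ValuationSubring.valuation_le_one_iff] at hxA
    exact not_le.mp hxA
  -- elements of S_i are roots
  have hmem : ∀ x, (X - C x) ^ d ∣ Fk → x ∈ Fk.roots := by
    intro x hx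
    rw [mem_roots hFk0]
    exact dvd_iff_isRoot.mp (dvd_trans (dvd_pow_self _ hdpos.ne') hx)
  have hS₁v : ∀ x ∈ S₁, 1 < v x := fun x hx => hrootv x (hmem x (hd₁ x hx))
  have hS₂v : ∀ x ∈ S₂, 1 < v x := fun x hx => hrootv x (hmem x (hd₂ x hx))
  -- the multiset d • (S₁ + S₂) is below the multiset of roots
  have hle : d • (S₁.val + S₂.val) ≤ Fk.roots := by
    rw [Multiset.le_iff_count]
    intro x
    rw [Multiset.count_nsmul, Multiset.count_add, count_roots]
    by_cases h1 : x ∈ S₁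
    · have h2 : x ∉ S₂ := fun h2 => (Finset.disjoint_left.mp hdisj) h1 h2
      rw [Multiset.count_eq_one_of_mem S₁.nodup h1, Multiset.count_eq_zero_of_notMem h2,
        add_zero, mul_one]
      exact (le_rootMultiplicity_iff hFk0).mpr (hd₁ x h1)
    · by_cases h2 : x ∈ S₂
      · rw [Multiset.count_eq_zero_of_notMem h1, Multiset.count_eq_one_of_mem S₂.nodup h2,
          zero_add, mul_one]
        exact (le_rootMultiplicity_iff hFk0).mpr (hd₂ x h2)
      · rw [Multiset.count_eq_zero_of_notMem h1, Multiset.count_eq_zero_of_notMem h2]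
        simp
  obtain ⟨R, hR⟩ := Multiset.le_iff_exists_add.mp hle
  -- evaluation at 0
  have heval : Fk.eval 0 = Fk.leadingCoeff * (Fk.roots.map (0 - ·)).prod :=
    hsplit.eval_eq_prod_roots 0
  have hF0 : Fk.eval 0 = ((F.eval 0 : ℤ) : Kbar) := by
    rw [hFk, eval_map, eval₂_at_zero]
    simp [coeff_zero_eq_eval_zero]
  have hv0 : v (Fk.eval 0) ≤ 1 := by
    rw [hF0]
    exact H7.valuation_intCast_le_one _
  have hvprod : v ((Fk.roots.map (0 - ·)).prod) = (Fk.roots.map v).prod := by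
    rw [hv, map_multiset_prod, Multiset.map_map]
    congr 1
    apply Multiset.map_congr rfl
    intro x _
    simp [Valuation.map_neg]
  -- the two rational products
  set r₁ : Kbar := ∏ x ∈ S₁, x with hr₁
  set r₂ : Kbar := ∏ x ∈ S₂, x with hr₂
  have hvr₁ : (v (p : Kbar))⁻¹ ≤ v r₁ := by
    obtain ⟨q, hq⟩ := h24_prod_rational S₁ hσ₁
    have h1 : 1 < v r₁ := h24_one_lt_val_prod S₁ hne₁ hS₁v
    rw [hr₁, ← hq] at h1 ⊢
    exact h24_val_rat hp hA q h1
  have hvr₂ : (v (p : Kbar))⁻¹ ≤ v r₂ := by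
    obtain ⟨q, hq⟩ := h24_prod_rational S₂ hσ₂
    have h1 : 1 < v r₂ := h24_one_lt_val_prod S₂ hne₂ hS₂v
    rw [hr₂, ← hq] at h1 ⊢
    exact h24_val_rat hp hA q h1
  -- product over the roots
  have hprodM : ((d • (S₁.val + S₂.val)).map v).prod = (v r₁ * v r₂) ^ d := by
    rw [Multiset.map_nsmul, Multiset.prod_nsmul, Multiset.map_add, Multiset.prod_add]
    congr 1
    rw [hr₁, hr₂, map_prod, map_prod]
    rfl
  have hRge : 1 ≤ (R.map v).prod := by
    apply Multiset.one_le_prod
    intro a ha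
    rw [Multiset.mem_map] at ha
    obtain ⟨x, hx, rfl⟩ := ha
    have : x ∈ Fk.roots := by
      rw [hR]
      exact Multiset.mem_add.mpr (Or.inr hx)
    exact (hrootv x this).le
  have hprod_ge : (v r₁ * v r₂) ^ d ≤ (Fk.roots.map v).prod := by
    rw [hR, Multiset.map_add, Multiset.prod_add, hprodM]
    calc (v r₁ * v r₂) ^ d = (v r₁ * v r₂) ^ d * 1 := (mul_one _).symm
      _ ≤ (v r₁ * v r₂) ^ d * (R.map v).prod := by gcongr
  have hvp0 : v (p : Kbar) ≠ 0 := by
    rw [hv, Valuation.ne_zero_iff]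
    exact_mod_cast hp.ne_zero
  have hvp_pos : 0 < v (p : Kbar) := zero_lt_iff.mpr hvp0
  have hvp_lt : v (p : Kbar) < 1 := H7.valuation_natCast_lt_one hA
  -- main inequality
  have hmain : v ((F.leadingCoeff : ℤ) : Kbar) ≤ v (p : Kbar) ^ (2 * d) := by
    have h1 : v ((F.leadingCoeff : ℤ) : Kbar) * (Fk.roots.map v).prod ≤ 1 := by
      rw [← hlc, ← hvprod, ← map_mul, ← heval]
      exact hv0
    have h2 : ((v (p : Kbar))⁻¹ * (v (p : Kbar))⁻¹) ^ d ≤ (Fk.roots.map v).prod := by
      refine le_trans ?_ hprod_ge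
      gcongr
    have h3 : v ((F.leadingCoeff : ℤ) : Kbar) * ((v (p : Kbar))⁻¹ * (v (p : Kbar))⁻¹) ^ d
        ≤ 1 := by
      refine le_trans ?_ h1
      gcongr
    have h4 : ((v (p : Kbar))⁻¹ * (v (p : Kbar))⁻¹) ^ d = (v (p : Kbar) ^ (2 * d))⁻¹ := by
      rw [pow_mul, pow_two, ← inv_pow, mul_inv]
    rw [h4] at h3
    have h5 : 0 < v (p : Kbar) ^ (2 * d) := pow_pos hvp_pos _
    exact (mul_inv_le_iff₀ h5).mp h3 |>.trans (by rw [one_mul])
  -- conclusion
  have hlc0 : F.leadingCoeff ≠ 0 := leadingCoeff_ne_zero.mpr hF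
  obtain ⟨k, m, hkm, hm, hvk⟩ := H7.valuation_intCast_eq_pow (L := Kbar) hp hA hlc0
  have hk : 2 * d ≤ k := by
    by_contra hcon
    push Not at hcon
    have : v (p : Kbar) ^ (2 * d) < v (p : Kbar) ^ k :=
      pow_lt_pow_right_of_lt_one₀ hvp_pos hvp_lt hcon
    rw [← hvk] at this
    exact absurd hmain (not_le.mpr this)
  rw [hkm]
  exact Dvd.dvd.mul_right (pow_dvd_pow _ hk) m

end Fermat.Agent.S13.Lp.H24
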