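import Mathlib
import Fermat.Agent.S05.H13_Inertia
import Fermat.Agent.S05.H12_Kernel

/-!
# S13, package Lp, leaf Lp1 (core): `σ P - P` lies in the kernel of reduction

Let `K` be a field with a valuation `v` (residue characteristic `≠ 2`),
`W : y² = x³ + a₂ x² + a₄ x` a Weierstrass curve over `K` with `v a₂ ≤ 1`, `v a₄ ≤ 1`, and `σ` a
field endomorphism of `K` preserving `v` and acting trivially on the residue field.  For a point
`P` of odd order `p` we show that `σ P - P` lies in the kernel of reduction (the points with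
`1 < v x`, and the origin), provided that the curve has good reduction, or multiplicative
reduction with node at `(0, 0)` and the `p`-torsion points near the node have `x`-coordinate of
the same valuation as some `σ`-fixed element.

This is the inertia argument of S05 (`H13_Inertia`) without its last step: here `p` may be the
residue characteristic, so the kernel of reduction may contain `p`-torsion.
-/

set_option autoImplicit false
set_option linter.unusedSectionVars false
set_option linter.unusedVariables false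

open WeierstrassCurve WeierstrassCurve.Affine

namespace Fermat.Agent.S13.Lp

open Fermat.Agent.S05

section Kernel

variable {K : Type*} [Field K] [DecidableEq K] {Γ : Type*} [LinearOrderedCommGroupWithZero Γ]
  (v : Valuation K Γ) {W : Affine K}

/-- The kernel of reduction is stable under negation (short form). -/
theorem inKer_neg (h₁ : W.a₁ = 0) (h₃ : W.a₃ = 0) {P : W.Point} (hP : H12.InKer v P) :
    H12.InKer v (-P) := by
  rcases hP with rfl | ⟨x, y, h, rfl, hx⟩
  · rw [neg_zero]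
    exact H12.inKer_zero v
  · rw [Point.neg_some]
    exact (H12.inKer_some v _).mpr hx

/-- The `z`-coordinate of a point of the kernel of reduction is small. -/
theorem val_zc_lt_one (h₁ : W.a₁ = 0) (h₃ : W.a₃ = 0) (h2 : v W.a₂ ≤ 1) (h4 : v W.a₄ ≤ 1)
    (h6 : v W.a₆ ≤ 1) {P : W.Point} (hP : H12.InKer v P) : v (H12.zc P) < 1 := by
  rcases hP with rfl | ⟨x, y, h, rfl, hx⟩
  · simp
  · rw [H12.zc_some]
    exact (H12.ker_basic v h2 h4 h6 (H12.short_equation h₁ h₃ h.1) hx).2.2.1

/-- The kernel of reduction is stable under addition (short form). -/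
theorem inKer_add' (h₁ : W.a₁ = 0) (h₃ : W.a₃ = 0) (h2 : v W.a₂ ≤ 1) (h4 : v W.a₄ ≤ 1)
    (h6 : v W.a₆ ≤ 1) {P Q : W.Point} (hP : H12.InKer v P) (hQ : H12.InKer v Q) :
    H12.InKer v (P + Q) := by
  have hzP := val_zc_lt_one v h₁ h₃ h2 h4 h6 hP
  have hzQ := val_zc_lt_one v h₁ h₃ h2 h4 h6 hQ
  exact (H12.inKer_add v h₁ h₃ h2 h4 h6 (ρ := max (v (H12.zc P)) (v (H12.zc Q)))
    (max_lt hzP hzQ) hP hQ (le_max_left _ _) (le_max_right _ _)).1

/-- The kernel of reduction is stable under subtraction (short form). -/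
theorem inKer_sub (h₁ : W.a₁ = 0) (h₃ : W.a₃ = 0) (h2 : v W.a₂ ≤ 1) (h4 : v W.a₄ ≤ 1)
    (h6 : v W.a₆ ≤ 1) {P Q : W.Point} (hP : H12.InKer v P) (hQ : H12.InKer v Q) :
    H12.InKer v (P - Q) := by
  rw [sub_eq_add_neg]
  exact inKer_add' v h₁ h₃ h2 h4 h6 hP (inKer_neg v h₁ h₃ hQ)

/-- The kernel of reduction is stable under multiples (short form). -/
theorem inKer_nsmul' (h₁ : W.a₁ = 0) (h₃ : W.a₃ = 0) (h2 : v W.a₂ ≤ 1) (h4 : v W.a₄ ≤ 1)
    (h6 : v W.a₆ ≤ 1) {P : W.Point} (hP : H12.InKer v P) (n : ℕ) : H12.InKer v (n • P) :=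
  (H12.inKer_nsmul v h₁ h₃ h2 h4 h6 (val_zc_lt_one v h₁ h₃ h2 h4 h6 hP) hP le_rfl n).1

/-- A point of odd order whose double lies in the kernel of reduction lies in the kernel of
reduction. -/
theorem inKer_of_two_nsmul (h₁ : W.a₁ = 0) (h₃ : W.a₃ = 0) (h2 : v W.a₂ ≤ 1) (h4 : v W.a₄ ≤ 1)
    (h6 : v W.a₆ ≤ 1) {p : ℕ} (hp : Odd p) {P : W.Point} (hP : p • P = 0)
    (h2P : H12.InKer v (P + P)) : H12.InKer v P := by
  obtain ⟨k, hk⟩ := hp
  have e : (k + 1) • (P + P) = P := by
    have : (k + 1) • (P + P) = (2 * k + 1) • P + P := by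
      rw [← two_nsmul, ← mul_nsmul, ← succ_nsmul]
      congr 1
    rw [this, ← hk, hP, zero_add]
  rw [← e]
  exact inKer_nsmul' v h₁ h₃ h2 h4 h6 h2P (k + 1)

end Kernel

section Core

variable {K : Type*} [Field K] [DecidableEq K] {Γ : Type*} [LinearOrderedCommGroupWithZero Γ]
  (v : Valuation K Γ) {W : Affine K}

/-- The data of an "inertia-like" endomorphism `σ` of a valued field and a short form curve with
integral coefficients (residue characteristic `≠ 2`). -/
structure PData (W : Affine K) (σ : K →+* K) : Prop where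
  a₁ : W.a₁ = 0
  a₃ : W.a₃ = 0
  a₆ : W.a₆ = 0
  val_a₂ : v W.a₂ ≤ 1
  val_a₄ : v W.a₄ ≤ 1
  val_two : v 2 = 1
  /-- `σ` preserves the valuation -/
  val_map : ∀ a, v (σ a) = v a
  /-- `σ` acts trivially on the residue field -/
  val_sub : ∀ a, v a ≤ 1 → v (σ a - a) < 1

variable {v} {σ : K →+* K}

theorem PData.val_a₆ (D : PData v W σ) : v W.a₆ ≤ 1 := by
  rw [D.a₆, map_zero]
  exact zero_le_one

theorem PData.two_ne_zero (D : PData v W σ) : (2 : K) ≠ 0 := by
  intro h
  have := D.val_two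
  rw [h, map_zero] at this
  exact zero_ne_one this

theorem PData.val_y (D : PData v W σ) {x y : K} (h : W.Nonsingular x y) (hx : v x ≤ 1) :
    v y ≤ 1 := by
  have heq := H13.short_equation D.a₁ D.a₃ D.a₆ h
  apply H13.val_le_one_of_sq
  rw [heq]
  refine H13.val_add_le v (H13.val_add_le v (H13.val_pow_le_one v hx 3) ?_) ?_
  · exact H13.val_mul_le_one v D.val_a₂ (H13.val_pow_le_one v hx 2)
  · exact H13.val_mul_le_one v D.val_a₄ hx

/-- **The core step.** If `x` is integral and `σ x - x`, `σ y - y` have smaller valuation than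
`y`, then `σ P - P` lies in the kernel of reduction. -/
theorem PData.sub_inKer_of_lt (D : PData v W σ) {x y : K} (h : W.Nonsingular x y)
    (h' : W.Nonsingular (σ x) (σ y)) (hxA : v x ≤ 1) (hy0 : y ≠ 0)
    (hx : v (σ x - x) < v y) (hy : v (σ y - y) < v y) :
    H12.InKer v (Point.some (σ x) (σ y) h' - Point.some x y h) := by
  have h2y : v (2 * y) = v y := H13.val_two_mul v D.val_two
  have hsum : v (σ y + y) = v y := by
    have e : σ y + y = 2 * y + (σ y - y) := by ring
    rw [e, ← h2y]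
    exact Valuation.map_add_eq_of_lt_left v (by rw [h2y]; exact hy)
  have hvy0 : v y ≠ 0 := by
    rw [ne_eq, map_eq_zero]
    exact hy0
  by_cases hxx : σ x = x
  · -- then `σ y = y` and the difference is zero
    have heq := H13.short_equation D.a₁ D.a₃ D.a₆ h
    have heq' := H13.short_equation D.a₁ D.a₃ D.a₆ h'
    rw [hxx] at heq'
    have hsq : (σ y - y) * (σ y + y) = 0 := by linear_combination heq' - heq
    have hyy : σ y = y := by
      rcases mul_eq_zero.mp hsq with h0 | h0
      · exact sub_eq_zero.mp h0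
      · rw [h0, map_zero] at hsum
        exact absurd hsum.symm hvy0
    have : Point.some (σ x) (σ y) h' = Point.some x y h := by
      simp only [hxx, hyy]
    rw [this, sub_self]
    exact H12.inKer_zero v
  · obtain ⟨x₃, y₃, h₃, hsub, hid⟩ := H13.short_sub D.a₁ D.a₃ h' h hxx
    rw [hsub]
    refine (H12.inKer_some v h₃).mpr ?_
    by_contra hcon
    push Not at hcon
    have hσxA : v (σ x) ≤ 1 := by rw [D.val_map]; exact hxA
    have h1 : v (x₃ + W.a₂ + σ x + x) ≤ 1 :=
      H13.val_add_le v (H13.val_add_le v (H13.val_add_le v hcon D.val_a₂) hσxA) hxA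
    have h2 : v ((σ y + y) ^ 2) ≤ v ((σ x - x) ^ 2) := by
      rw [← hid, map_mul]
      exact mul_le_of_le_one_right' h1
    rw [map_pow, map_pow, hsum] at h2
    have h3 : v (σ x - x) ^ 2 < v y ^ 2 := pow_lt_pow_left₀ hx zero_le (by norm_num)
    exact absurd h2 (not_le.mpr h3)

/-- If `y` is a unit (and `x` is integral), then `σ P - P` lies in the kernel of reduction. -/
theorem PData.sub_inKer_of_val_y (D : PData v W σ) {x y : K} (h : W.Nonsingular x y)
    (h' : W.Nonsingular (σ x) (σ y)) (hxA : v x ≤ 1) (hy : v y = 1) :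
    H12.InKer v (Point.some (σ x) (σ y) h' - Point.some x y h) := by
  have hy0 : y ≠ 0 := by
    rintro rfl
    rw [map_zero] at hy
    exact zero_ne_one hy
  refine D.sub_inKer_of_lt h h' hxA hy0 ?_ ?_
  · rw [hy]
    exact D.val_sub x hxA
  · rw [hy]
    exact D.val_sub y hy.le

/-- For an integral point of odd order `p`: `y ≠ 0` and `(x² - a₄)² / y²` is integral (the
`x`-coordinate of the double is integral). -/
theorem PData.val_sq_le (D : PData v W σ) {p : ℕ} (hp : Odd p) {x y : K}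
    (h : W.Nonsingular x y) (hP : p • Point.some x y h = 0) (hxA : v x ≤ 1) :
    y ≠ 0 ∧ v ((x ^ 2 - W.a₄) ^ 2) ≤ v (y ^ 2) := by
  have hnotker : ¬ H12.InKer v (Point.some x y h) := by
    rw [H12.inKer_some]
    exact not_lt.mpr hxA
  have hy0 : y ≠ 0 := by
    rintro rfl
    apply hnotker
    apply inKer_of_two_nsmul v D.a₁ D.a₃ D.val_a₂ D.val_a₄ D.val_a₆ hp hP
    rw [H13.short_add_self_of_y_eq_zero D.a₁ D.a₃ h]
    exact H12.inKer_zero v
  refine ⟨hy0, ?_⟩
  obtain ⟨x₂, y₂, h₂, hadd, hid⟩ := H13.short_double D.a₁ D.a₃ D.a₆ h hy0 D.two_ne_zero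
  have hx₂ : v x₂ ≤ 1 := by
    by_contra hcon
    push Not at hcon
    apply hnotker
    apply inKer_of_two_nsmul v D.a₁ D.a₃ D.val_a₂ D.val_a₄ D.val_a₆ hp hP
    rw [hadd]
    exact (H12.inKer_some v h₂).mpr hcon
  rw [← hid, map_mul, map_mul]
  have h4 : v (4 : K) = 1 := by
    have : (4 : K) = 2 * 2 := by norm_num
    rw [this, map_mul, D.val_two, one_mul]
  rw [h4, one_mul]
  exact mul_le_of_le_one_right' hx₂

/-- **Good reduction**: for an integral point `P` of odd order, `σ P - P` lies in the kernel of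
reduction. -/
theorem PData.sub_inKer_of_good (D : PData v W σ) (hbe : v W.a₄ = 1)
    (hdisc : v (W.a₂ ^ 2 - 4 * W.a₄) = 1) {p : ℕ} (hp : Odd p) {x y : K}
    (h : W.Nonsingular x y) (h' : W.Nonsingular (σ x) (σ y))
    (hP : p • Point.some x y h = 0) (hx : v x ≤ 1) :
    H12.InKer v (Point.some (σ x) (σ y) h' - Point.some x y h) := by
  refine D.sub_inKer_of_val_y h h' hx ?_
  have hy := D.val_y h hx
  obtain ⟨-, hsq⟩ := D.val_sq_le hp h hP hx
  rcases lt_or_eq_of_le hy with hlt | heq1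
  swap
  · exact heq1
  exfalso
  have heq := H13.short_equation D.a₁ D.a₃ D.a₆ h
  have hy2 : v (y ^ 2) < 1 := by
    rw [map_pow]
    exact pow_lt_one₀ zero_le hlt (by norm_num)
  have h1 : v (x ^ 2 - W.a₄) < 1 :=
    H13.val_lt_one_of_sq v (lt_of_le_of_lt hsq hy2)
  have hx1 : v x = 1 := by
    apply H13.val_eq_one_of_sq
    have e : x ^ 2 = W.a₄ + (x ^ 2 - W.a₄) := by ring
    rw [e]
    exact H13.val_add_eq_one v hbe h1
  have h2 : v (x ^ 2 + W.a₂ * x + W.a₄) < 1 := by
    have e : y ^ 2 = x * (x ^ 2 + W.a₂ * x + W.a₄) := by rw [heq]; ring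
    rw [e, map_mul, hx1, one_mul] at hy2
    exact hy2
  have h3 : v (W.a₂ * x + 2 * W.a₄) < 1 := by
    have e : W.a₂ * x + 2 * W.a₄ = (x ^ 2 + W.a₂ * x + W.a₄) - (x ^ 2 - W.a₄) := by ring
    rw [e]
    exact H13.val_sub_lt v h2 h1
  have h4 : v (W.a₂ * x - 2 * W.a₄) ≤ 1 := by
    refine H13.val_sub_le v (H13.val_mul_le_one v D.val_a₂ hx) ?_
    rw [map_mul, D.val_two, one_mul]
    exact D.val_a₄
  have h5 : v (W.a₄ * (W.a₂ ^ 2 - 4 * W.a₄)) < 1 := by
    have e : W.a₄ * (W.a₂ ^ 2 - 4 * W.a₄) =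
        (W.a₂ * x + 2 * W.a₄) * (W.a₂ * x - 2 * W.a₄) - W.a₂ ^ 2 * (x ^ 2 - W.a₄) := by ring
    rw [e]
    exact H13.val_sub_lt v (H13.val_mul_lt_one_left v h3 h4)
      (H13.val_mul_lt_one_right v (H13.val_pow_le_one v D.val_a₂ 2) h1)
  rw [map_mul, hbe, hdisc, one_mul] at h5
  exact lt_irrefl _ h5

/-- **Multiplicative reduction with node at `(0, 0)`**: for an integral point `P` of odd order,
`σ P - P` lies in the kernel of reduction, provided that near the node `v a₄ < v x` and
`v x = v c` for some `σ`-fixed `c`. -/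
theorem PData.sub_inKer_of_mult (D : PData v W σ) (hal : v W.a₂ = 1) (hbe : v W.a₄ < 1)
    {p : ℕ} (hp : Odd p) {x y : K} (h : W.Nonsingular x y) (h' : W.Nonsingular (σ x) (σ y))
    (hP : p • Point.some x y h = 0) (hx : v x ≤ 1)
    (hnode : v x < 1 → x ≠ 0 → v W.a₄ < v x ∧ ∃ c : K, σ c = c ∧ v c = v x) :
    H12.InKer v (Point.some (σ x) (σ y) h' - Point.some x y h) := by
  have hy := D.val_y h hx
  obtain ⟨hy0, hsq⟩ := D.val_sq_le hp h hP hx
  have heq := H13.short_equation D.a₁ D.a₃ D.a₆ h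
  rcases lt_or_eq_of_le hx with hxlt | hx1
  swap
  · -- `x` is a unit
    refine D.sub_inKer_of_val_y h h' hx ?_
    rcases lt_or_eq_of_le hy with hlt | heq1
    swap
    · exact heq1
    exfalso
    have hy2 : v (y ^ 2) < 1 := by
      rw [map_pow]
      exact pow_lt_one₀ zero_le hlt (by norm_num)
    have h1 : v (x ^ 2 - W.a₄) < 1 :=
      H13.val_lt_one_of_sq v (lt_of_le_of_lt hsq hy2)
    have h2 : v (x ^ 2) < 1 := by
      have e : x ^ 2 = (x ^ 2 - W.a₄) + W.a₄ := by ring
      rw [e]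
      exact H13.val_add_lt v h1 hbe
    rw [map_pow, hx1, one_pow] at h2
    exact lt_irrefl _ h2
  -- near the node
  have hx0 : x ≠ 0 := by
    rintro rfl
    have : y ^ 2 = 0 := by rw [heq]; ring
    exact hy0 (pow_eq_zero_iff (by norm_num) |>.mp this)
  obtain ⟨hlt, c, hσc, hc⟩ := hnode hxlt hx0
  have hvx0 : v x ≠ 0 := by rw [ne_eq, map_eq_zero]; exact hx0
  have hc0 : c ≠ 0 := by
    rw [← map_ne_zero v, hc]
    exact hvx0
  set t := y / x with ht
  have hyt : y = x * t := by rw [ht]; field_simp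
  have ht2 : t ^ 2 = W.a₂ + (x + W.a₄ / x) := by
    rw [ht, div_pow, heq]
    field_simp
    ring
  have hbx : v (W.a₄ / x) < 1 := by
    rw [map_div₀]
    exact (div_lt_one₀ (zero_lt_iff.mpr hvx0)).mpr hlt
  have hvt : v t = 1 := by
    apply H13.val_eq_one_of_sq
    rw [ht2]
    exact H13.val_add_eq_one v hal (H13.val_add_lt v hxlt hbx)
  have hvy : v y = v x := by rw [hyt, map_mul, hvt, mul_one]
  have hσx : v (σ x - x) < v x := by
    have hw : v (x / c) = 1 := by
      rw [map_div₀, hc]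
      exact div_self hvx0
    have h1 := D.val_sub (x / c) hw.le
    have e : σ (x / c) - x / c = (σ x - x) / c := by
      rw [map_div₀, hσc]
      ring
    rw [e, map_div₀, hc] at h1
    exact (div_lt_one₀ (zero_lt_iff.mpr hvx0)).mp h1
  have hσt : v (σ t - t) < 1 := D.val_sub t hvt.le
  have hσt' : v (σ t) ≤ 1 := by
    have e : σ t = (σ t - t) + t := by ring
    rw [e]
    exact H13.val_add_le v hσt.le hvt.le
  have hσy : v (σ y - y) < v x := by
    have e : σ y - y = (σ x - x) * σ t + x * (σ t - t) := by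
      rw [hyt, map_mul]
      ring
    rw [e]
    refine H13.val_add_lt v ?_ ?_
    · rw [map_mul]
      exact lt_of_le_of_lt (mul_le_of_le_one_right' hσt') hσx
    · rw [map_mul]
      exact mul_lt_of_lt_one_right (zero_lt_iff.mpr hvx0) hσt
  exact D.sub_inKer_of_lt h h' hx hy0 (hvy ▸ hσx) (hvy ▸ hσy)

/-- A point of the kernel of reduction: `σ P - P` lies in the kernel of reduction. -/
theorem PData.sub_inKer_of_inKer (D : PData v W σ) {x y : K} (h : W.Nonsingular x y)
    (h' : W.Nonsingular (σ x) (σ y)) (hx : 1 < v x) :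
    H12.InKer v (Point.some (σ x) (σ y) h' - Point.some x y h) := by
  refine inKer_sub v D.a₁ D.a₃ D.val_a₂ D.val_a₄ D.val_a₆ ?_ ?_
  · refine (H12.inKer_some v h').mpr ?_
    rw [D.val_map]
    exact hx
  · exact (H12.inKer_some v h).mpr hx

/-- **Good reduction**: for every point `P` of odd order, `σ P - P` lies in the kernel of
reduction. -/
theorem PData.sub_inKer_good (D : PData v W σ) (hbe : v W.a₄ = 1)
    (hdisc : v (W.a₂ ^ 2 - 4 * W.a₄) = 1) {p : ℕ} (hp : Odd p) {x y : K}
    (h : W.Nonsingular x y) (h' : W.Nonsingular (σ x) (σ y))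
    (hP : p • Point.some x y h = 0) :
    H12.InKer v (Point.some (σ x) (σ y) h' - Point.some x y h) := by
  rcases le_or_gt (v x) 1 with hx | hx
  · exact D.sub_inKer_of_good hbe hdisc hp h h' hP hx
  · exact D.sub_inKer_of_inKer h h' hx

/-- **Multiplicative reduction with node at `(0, 0)`**: for every point `P` of odd order,
`σ P - P` lies in the kernel of reduction. -/
theorem PData.sub_inKer_mult (D : PData v W σ) (hal : v W.a₂ = 1) (hbe : v W.a₄ < 1)
    {p : ℕ} (hp : Odd p) {x y : K} (h : W.Nonsingular x y) (h' : W.Nonsingular (σ x) (σ y))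
    (hP : p • Point.some x y h = 0)
    (hnode : v x < 1 → x ≠ 0 → v W.a₄ < v x ∧ ∃ c : K, σ c = c ∧ v c = v x) :
    H12.InKer v (Point.some (σ x) (σ y) h' - Point.some x y h) := by
  rcases le_or_gt (v x) 1 with hx | hx
  · exact D.sub_inKer_of_mult hal hbe hp h h' hP hx hnode
  · exact D.sub_inKer_of_inKer h h' hx

end Core

section Galois

open WeierstrassCurve.Affine.Point

variable {R : Type*} {S : Type*} {K : Type*} [CommRing R] [CommRing S] [Field K]
  [DecidableEq K] {W' : Affine R} [Algebra R S] [Algebra R K] [Algebra S K]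
  [IsScalarTower R S K]

/-- The hypotheses of the inertia argument for the base change to `K` of a short form curve
over `R`, a valuation subring `A` of `K` and an automorphism `σ` of `K` preserving the valuation
and acting trivially on the residue field. -/
theorem pData_of_inertia (A : ValuationSubring K) (σ : K ≃ₐ[S] K)
    (h₁ : (W'⁄K).a₁ = 0) (h₃ : (W'⁄K).a₃ = 0) (h₆ : (W'⁄K).a₆ = 0)
    (hal : (W'⁄K).a₂ ∈ A) (hbe : (W'⁄K).a₄ ∈ A) (h2 : A.valuation 2 = 1)
    (hσv : ∀ a, A.valuation (σ a) = A.valuation a)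
    (hσ : ∀ a ∈ A, σ a - a ∈ A.nonunits) :
    PData A.valuation (W'⁄K) (σ : K →+* K) where
  a₁ := h₁
  a₃ := h₃
  a₆ := h₆
  val_a₂ := (A.valuation_le_one_iff _).mpr hal
  val_a₄ := (A.valuation_le_one_iff _).mpr hbe
  val_two := h2
  val_map := hσv
  val_sub := fun a ha =>
    (ValuationSubring.mem_nonunits_iff (A := A)).mp (hσ a ((A.valuation_le_one_iff _).mp ha))

/-- **Lp1, good reduction.**  For a point `P` of odd order `p` on a short form curve with good
reduction, and `σ` in inertia, `σ • P - P` lies in the kernel of reduction. -/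
theorem smul_sub_inKer_of_good (A : ValuationSubring K) (σ : K ≃ₐ[S] K)
    (h₁ : (W'⁄K).a₁ = 0) (h₃ : (W'⁄K).a₃ = 0) (h₆ : (W'⁄K).a₆ = 0)
    (hal : (W'⁄K).a₂ ∈ A) (h2 : A.valuation 2 = 1)
    (hσv : ∀ a, A.valuation (σ a) = A.valuation a)
    (hσ : ∀ a ∈ A, σ a - a ∈ A.nonunits) {p : ℕ} (hp : Odd p)
    (hbe : A.valuation (W'⁄K).a₄ = 1)
    (hdisc : A.valuation ((W'⁄K).a₂ ^ 2 - 4 * (W'⁄K).a₄) = 1)
    (P : (W'⁄K).Point) (hP : p • P = 0) : H12.InKer A.valuation (σ • P - P) := by
  have D := pData_of_inertia A σ h₁ h₃ h₆ hal ((A.valuation_le_one_iff _).mp hbe.le) h2 hσv hσ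
  rcases P with _ | ⟨x, y, h⟩
  · have : σ • (Point.zero : (W'⁄K).Point) - Point.zero = 0 := sub_self _
    rw [this]
    exact H12.inKer_zero _
  · rw [H13.smul_some]
    exact D.sub_inKer_good hbe hdisc hp h _ hP

/-- **Lp1, multiplicative reduction with node at `(0, 0)`.**  For a point `P` of odd order `p`
and `σ` in inertia, `σ • P - P` lies in the kernel of reduction, assuming that `p`-torsion
points near the node have `x`-coordinate `x` with `v a₄ < v x` and `v x = v c` for some
`σ`-fixed `c`. -/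
theorem smul_sub_inKer_of_mult (A : ValuationSubring K) (σ : K ≃ₐ[S] K)
    (h₁ : (W'⁄K).a₁ = 0) (h₃ : (W'⁄K).a₃ = 0) (h₆ : (W'⁄K).a₆ = 0)
    (h2 : A.valuation 2 = 1)
    (hσv : ∀ a, A.valuation (σ a) = A.valuation a)
    (hσ : ∀ a ∈ A, σ a - a ∈ A.nonunits) {p : ℕ} (hp : Odd p)
    (hal : A.valuation (W'⁄K).a₂ = 1)
    (hbe : A.valuation (W'⁄K).a₄ < 1)
    (hnode : ∀ (x y : K) (h : (W'⁄K).Nonsingular x y),
      p • (Point.some x y h : (W'⁄K).Point) = 0 → A.valuation x < 1 → x ≠ 0 →
        A.valuation (W'⁄K).a₄ < A.valuation x ∧ ∃ c : K, σ c = c ∧ A.valuation c = A.valuation x)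
    (P : (W'⁄K).Point) (hP : p • P = 0) : H12.InKer A.valuation (σ • P - P) := by
  have D := pData_of_inertia A σ h₁ h₃ h₆ ((A.valuation_le_one_iff _).mp hal.le)
    ((A.valuation_le_one_iff _).mp hbe.le) h2 hσv hσ
  rcases P with _ | ⟨x, y, h⟩
  · have : σ • (Point.zero : (W'⁄K).Point) - Point.zero = 0 := sub_self _
    rw [this]
    exact H12.inKer_zero _
  · rw [H13.smul_some]
    exact D.sub_inKer_mult hal hbe hp h _ hP (hnode x y h hP)

end Galois

end Fermat.Agent.S13.Lp
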