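import Mathlib
import Fermat.Agent.S13.Asm.H11_Interfaces
import Fermat.Agent.S05.H7_Kernel
import Fermat.Agent.S05.H7_Inertia
import Fermat.Agent.S05.H13_Inertia
import Fermat.Agent.S05.H22_VarChange
import Fermat.Agent.S05.H27_FreyArith
import Fermat.Agent.S05.W3_Main

/-!
# S13, package Lp (the prime `p`): definitions and the leaf statements

Everything at `p` is done in the SHORT MODEL `W1 P = H27.freyVC P P.p • P.freyCurve`
(`y² = x³ + al x² + be x`, `al = H27.freyAl P P.p`, `be = H27.freyBe P P.p` integers; the landed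
S05 model with `q := p`), over `Kbar = AlgebraicClosure ℚ`.  The kernel of reduction at a
valuation subring `A` over `p` is `H7K.InKer A.valuation` (the origin and the points with
`1 < v x`), a subgroup by `H7K.inKer_add`.

The leaves are stated as `Prop`s so that every seat proves exactly the same statement.
-/

set_option autoImplicit false

open WeierstrassCurve WeierstrassCurve.Affine WeierstrassCurve.Affine.Point
open Fermat.Agent.S05 Fermat.Agent.S13.Asm

namespace Fermat.Agent.S13.Lp

/-- The short model of the Frey curve adapted to the prime `p` (over `ℚ`). -/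
noncomputable abbrev W1 (P : FreyPackage) : WeierstrassCurve ℚ := H27.freyVC P P.p • P.freyCurve

/-- The `Kbar`-points of the short model. -/
abbrev E1 (P : FreyPackage) : Type := ((W1 P)⁄Kbar).Point

/-- **Interface Lp ← W** (division-polynomial / Wronskian package): a polynomial over `ℤ` of
degree `(p² - 1)/2` whose leading coefficient is not divisible by `p²` and whose roots in `Kbar`
are exactly the `x`-coordinates of the nonzero `p`-torsion points of the short model. -/
def PsiData (P : FreyPackage) : Prop :=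
  ∃ Ψ : Polynomial ℤ, Ψ.natDegree = (P.p ^ 2 - 1) / 2 ∧ ¬ ((P.p : ℤ) ^ 2 ∣ Ψ.leadingCoeff) ∧
    ∀ (x y : Kbar) (h : ((W1 P)⁄Kbar).Nonsingular x y),
      (P.p • (Point.some x y h : E1 P) = 0 ↔ Polynomial.aeval x Ψ = 0)

/-- **Leaf Lp1**: for `σ` in the inertia group of `A` over `p` and `R` a `p`-torsion point of the
short model, `σ R - R` lies in the kernel of reduction. -/
def StLp1 (P : FreyPackage) : Prop :=
  ∀ A : ValuationSubring Kbar, A.LiesOverPrime P.p →
    ∀ σ ∈ A.inertiaSubgroupIn ℚ, ∀ R : E1 P, P.p • R = 0 →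
      H7K.InKer A.valuation (σ • R - R)

/-- **Leaf C3** (Claim 3): in the presence of a Galois-stable proper nonzero subgroup `N1` of the
`p`-torsion, not all of the `p`-torsion lies in the kernel of reduction at `A`. -/
def StC3 (P : FreyPackage) : Prop :=
  PsiData P → ∀ A : ValuationSubring Kbar, A.LiesOverPrime P.p →
    ∀ N1 : AddSubgroup (E1 P), (∀ x ∈ N1, P.p • x = 0) →
      (∀ σ : Gam, ∀ x ∈ N1, σ • x ∈ N1) → N1 ≠ ⊥ → (∃ x : E1 P, P.p • x = 0 ∧ x ∉ N1) →
      ¬ (∀ R : E1 P, P.p • R = 0 → H7K.InKer A.valuation R)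

/-- **Leaf T** (trichotomy): the dichotomy at `A`, in the short model. -/
def StShort (P : FreyPackage) : Prop :=
  PsiData P → ∀ A : ValuationSubring Kbar, A.LiesOverPrime P.p →
    ∀ N1 : AddSubgroup (E1 P), (∀ x ∈ N1, P.p • x = 0) →
      (∀ σ : Gam, ∀ x ∈ N1, σ • x ∈ N1) → N1 ≠ ⊥ → (∃ x : E1 P, P.p • x = 0 ∧ x ∉ N1) →
      (∀ σ ∈ A.inertiaSubgroupIn ℚ, ∀ x ∈ N1, σ • x = x) ∨
      (∀ σ ∈ A.inertiaSubgroupIn ℚ, ∀ x : E1 P, P.p • x = 0 → σ • x - x ∈ N1)

/-- **Deliverable of Lp** (per valuation subring; this is what the assembly consumes together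
with the one-valuation-subring-per-prime form of (G)). -/
def StLpAt (P : FreyPackage) : Prop :=
  PsiData P → ∀ N : Submodule (ZMod P.p) (V P), IsGaloisStable ℚ N → N ≠ ⊥ → N ≠ ⊤ →
    ∀ A : ValuationSubring Kbar, A.LiesOverPrime P.p →
      (∀ σ ∈ A.inertiaSubgroupIn ℚ, ∀ x ∈ N, σ • x = x) ∨
      (∀ σ ∈ A.inertiaSubgroupIn ℚ, ∀ x : V P, σ • x - x ∈ N)

/-- **Leaf Lp1-U** (generic; no torsion hypothesis): an integral point with NONSINGULAR reduction
(`y` a unit, or `x² - a₄` a unit) moves inside its residue class under a residually trivial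
automorphism `σ`: `(σx, σy) - (x, y)` is in the kernel of reduction. -/
def StLp1U : Prop :=
  ∀ (K : Type) [Field K] [DecidableEq K] (A : ValuationSubring K) (W : Affine K)
    (_ : Vieta.IsShort W) (_ : W.a₂ ∈ A) (_ : W.a₄ ∈ A) (_ : A.valuation (2 : K) = 1)
    (σ : K →+* K) (_ : ∀ a ∈ A, σ a - a ∈ A.nonunits)
    (x y : K) (h : W.Nonsingular x y) (h' : W.Nonsingular (σ x) (σ y)) (_ : x ∈ A)
    (_ : A.valuation y = 1 ∨ A.valuation (x ^ 2 - W.a₄) = 1),
    H7K.InKer A.valuation (Point.some (σ x) (σ y) h' - Point.some x y h)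

/-- **Leaf Lp1-N** (generic): a point near the node (`v a₄ < v x < 1`) with `y / x` a unit and
`v x = v c` for a `σ`-fixed `c`: `(σx, σy) - (x, y)` is in the kernel of reduction. -/
def StLp1N : Prop :=
  ∀ (K : Type) [Field K] [DecidableEq K] (A : ValuationSubring K) (W : Affine K)
    (_ : Vieta.IsShort W) (_ : A.valuation W.a₂ = 1) (_ : A.valuation W.a₄ < 1)
    (_ : A.valuation (2 : K) = 1)
    (σ : K →+* K) (_ : ∀ a ∈ A, σ a - a ∈ A.nonunits)
    (x y : K) (h : W.Nonsingular x y) (h' : W.Nonsingular (σ x) (σ y))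
    (_ : A.valuation W.a₄ < A.valuation x) (_ : A.valuation x < 1)
    (_ : ∃ c : K, σ c = c ∧ A.valuation c = A.valuation x),
    H7K.InKer A.valuation (Point.some (σ x) (σ y) h' - Point.some x y h)

end Fermat.Agent.S13.Lp
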