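import Mathlib
import Fermat.Agent.S13.Lp.H25_Defs
import Fermat.Agent.S13.Lp.H24_Lp1Core

/-!
# S13, package Lp, leaf Lp1 (helper24, direct route)

For `σ` in the inertia group of a valuation subring `A` of `ℚ̄` over `p` and `R` a `p`-torsion
point of the short model `W1 P` of the Frey curve, `σ R - R` lies in the kernel of reduction.

This is proved directly from `H24_Lp1Core` (the inertia argument of S05 without its last step),
the Frey arithmetic of S05 at `q = p`, and the node analysis `W3.torsion_near_node_val`.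
-/

set_option autoImplicit false
set_option linter.unusedSectionVars false
set_option linter.unusedVariables false

open WeierstrassCurve WeierstrassCurve.Affine WeierstrassCurve.Affine.Point

namespace Fermat.Agent.S13.Lp.H24

open Fermat.Agent.S05 Fermat.Agent.S13.Asm

/-- The two descriptions of the kernel of reduction agree. -/
theorem inKer_h7k_iff {K : Type*} [Field K] [DecidableEq K] {Γ : Type*}
    [LinearOrderedCommGroupWithZero Γ] (v : Valuation K Γ) {W : Affine K} (P : W.Point) :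
    H7K.InKer v P ↔ H12.InKer v P := by
  rcases P with _ | ⟨x, y, h⟩
  · exact ⟨fun _ => H12.inKer_zero v, fun _ => trivial⟩
  · exact (H12.inKer_some v h).symm

/-- **Leaf Lp1** (direct route). -/
theorem stLp1 (P : FreyPackage) : StLp1 P := by
  intro A hA σ hσ R hR
  rw [inKer_h7k_iff]
  have hpp : P.p.Prime := P.pp
  have hp2 : P.p ≠ 2 := by have := P.hp5; omega
  have hodd : Odd P.p := hpp.odd_of_ne_two hp2
  obtain ⟨h₁, h₃, h₆, h₂, h₄⟩ := H27.freyVC_smul_baseChange P P.p Kbar
  have h2 : A.valuation (2 : Kbar) = 1 := H27.valuation_two_eq_one A hpp hA hp2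
  have hal : ((H27.freyVC P P.p • P.freyCurve)⁄Kbar).a₂ ∈ A := by
    rw [h₂]; exact H27.freyAl_mem A P
  have hbe : ((H27.freyVC P P.p • P.freyCurve)⁄Kbar).a₄ ∈ A := by
    rw [h₄]; exact H27.freyBe_mem A P
  have hdisc : A.valuation (((H27.freyVC P P.p • P.freyCurve)⁄Kbar).a₂ ^ 2
      - 4 * ((H27.freyVC P P.p • P.freyCurve)⁄Kbar).a₄) = 1 := by
    rw [h₂, h₄]; exact H27.valuation_disc_eq_one A P hpp hA
  have hσ' : ∀ a ∈ A, σ a - a ∈ A.nonunits := fun a ha => H7.apply_sub_mem_nonunits hσ ha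
  have : Algebra.IsAlgebraic ℚ Kbar := AlgebraicClosure.isAlgebraic ℚ
  have hσv : ∀ a, A.valuation (σ a) = A.valuation a := fun a =>
    H7.valuation_apply_eq (H7.mem_decomposition hσ) a
  by_cases hdvd : (P.p : ℤ) ∣ P.a * P.b * P.c
  · -- multiplicative reduction
    have hal1 : A.valuation ((H27.freyVC P P.p • P.freyCurve)⁄Kbar).a₂ = 1 := by
      rw [h₂]; exact H27.valuation_freyAl_eq_one_of_mult A P hpp hA hdvd
    obtain ⟨hbe1', t, ht, hvt'⟩ := H27.valuation_freyBe_of_mult (L := Kbar) A P hpp hA hdvd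
    have hbe1 : A.valuation ((H27.freyVC P P.p • P.freyCurve)⁄Kbar).a₄ < 1 := by
      rw [h₄]; exact hbe1'
    have hvt : A.valuation ((H27.freyVC P P.p • P.freyCurve)⁄Kbar).a₄
        = A.valuation (t : Kbar) ^ P.p := by
      rw [h₄]; exact hvt'
    obtain ⟨ρ, hρ⟩ := H27.exists_sq_eq_a₂ P (K := Kbar) P.p
    have hD : W3.NodeData A ((H27.freyVC P P.p • P.freyCurve)⁄Kbar) ρ :=
      ⟨⟨h₁, h₃, h₆⟩, h2, hal1, hρ, hbe1, H27.freyShort_baseChange_a₄_ne_zero P P.p⟩
    refine smul_sub_inKer_of_mult A σ h₁ h₃ h₆ h2 hσv hσ' hodd hal1 hbe1 ?_ R hR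
    intro x y h h0 hx hx0
    obtain ⟨hM, k, hk⟩ := W3.torsion_near_node_val hD hodd h h0 hx hvt
    refine ⟨hM, (t : Kbar) ^ (2 * k), ?_, hk.symm⟩
    rw [map_zpow₀, map_intCast]
  · -- good reduction
    have hgood : A.valuation ((H27.freyVC P P.p • P.freyCurve)⁄Kbar).a₄ = 1 := by
      rw [h₄]; exact H27.valuation_freyBe_eq_one_of_good A P hpp hA hdvd
    exact smul_sub_inKer_of_good A σ h₁ h₃ h₆ hal h2 hσv hσ' hodd hgood hdisc R hR

end Fermat.Agent.S13.Lp.H24
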