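import Mathlib
import Fermat.Agent.S13.Lp.H25_Defs

/-!
# S13, package Lp, leaf X (helper24): transport from the short model to the Frey model

The dichotomy at a valuation subring `A` over `p`, proved in the short model
`W1 P = H27.freyVC P P.p • P.freyCurve`, is transported to the `p`-torsion `V P` of the Frey
curve along the Galois-equivariant isomorphism `H22.vcEquivBC`.
-/

set_option autoImplicit false
set_option linter.unusedSectionVars false
set_option linter.unusedVariables false

open WeierstrassCurve WeierstrassCurve.Affine WeierstrassCurve.Affine.Point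

namespace Fermat.Agent.S13.Lp.H24

open Fermat.Agent.S05 Fermat.Agent.S13.Asm

/-- The Galois-equivariant isomorphism from the points of the short model to the points of the
Frey curve. -/
noncomputable def h24_phi (P : FreyPackage) : E1 P ≃+ (P.freyCurve⁄Kbar).Point :=
  H22.vcEquivBC (H27.freyVC P P.p) rfl Kbar

lemma h24_phi_smul (P : FreyPackage) (σ : Gam) (x : E1 P) :
    h24_phi P (σ • x) = σ • h24_phi P x :=
  H22.vcEquivBC_smul (H27.freyVC P P.p) rfl σ x

lemma h24_phi_nsmul_eq_zero (P : FreyPackage) (x : E1 P) :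
    P.p • x = 0 ↔ h24_phi P x ∈ Submodule.torsionBy ℤ (P.freyCurve⁄Kbar).Point P.p := by
  rw [Submodule.mem_torsionBy_iff, natCast_zsmul, ← map_nsmul]
  exact (map_eq_zero_iff _ (h24_phi P).injective).symm

/-- The preimage in the short model of a submodule of the `p`-torsion of the Frey curve. -/
noncomputable def h24_pre (P : FreyPackage) (N : Submodule (ZMod P.p) (V P)) :
    AddSubgroup (E1 P) :=
  (N.toAddSubgroup.map
    (Submodule.torsionBy ℤ (P.freyCurve⁄Kbar).Point P.p).subtype.toAddMonoidHom).comap
    (h24_phi P).toAddMonoidHom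

lemma h24_mem_pre (P : FreyPackage) (N : Submodule (ZMod P.p) (V P)) (x : E1 P) :
    x ∈ h24_pre P N ↔ ∃ v ∈ N, (v : (P.freyCurve⁄Kbar).Point) = h24_phi P x := by
  unfold h24_pre
  rw [AddSubgroup.mem_comap, AddSubgroup.mem_map]
  rfl

lemma h24_symm_mem_pre (P : FreyPackage) (N : Submodule (ZMod P.p) (V P)) (v : V P) :
    (h24_phi P).symm (v : (P.freyCurve⁄Kbar).Point) ∈ h24_pre P N ↔ v ∈ N := by
  rw [h24_mem_pre]
  constructor
  · rintro ⟨w, hw, hwv⟩
    rw [AddEquiv.apply_symm_apply] at hwv
    have : w = v := Subtype.ext hwv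
    rwa [← this]
  · intro hv
    exact ⟨v, hv, by rw [AddEquiv.apply_symm_apply]⟩

/-- **Leaf X**: transport of the dichotomy from the short model to the Frey model. -/
theorem h24_stLpAt_of_stShort (P : FreyPackage) (h : StShort P) : StLpAt P := by
  intro hΨ N hN hbot htop A hA
  have key := h hΨ A hA (h24_pre P N) ?_ ?_ ?_ ?_
  · rcases key with h1 | h2
    · left
      intro σ hσ v hv
      have hx := h1 σ hσ _ ((h24_symm_mem_pre P N v).mpr hv)
      have h3 := congrArg (h24_phi P) hx
      rw [h24_phi_smul, AddEquiv.apply_symm_apply] at h3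
      exact Subtype.ext h3
    · right
      intro σ hσ v
      have hv0 : P.p • (h24_phi P).symm (v : (P.freyCurve⁄Kbar).Point) = 0 := by
        rw [h24_phi_nsmul_eq_zero, AddEquiv.apply_symm_apply]
        exact v.2
      have hx := h2 σ hσ _ hv0
      rw [h24_mem_pre] at hx
      obtain ⟨w, hw, hwv⟩ := hx
      rw [map_sub, h24_phi_smul, AddEquiv.apply_symm_apply] at hwv
      have : w = σ • v - v := Subtype.ext hwv
      rwa [← this]
  · -- contained in the p-torsion
    intro x hx
    rw [h24_mem_pre] at hx
    obtain ⟨v, hv, hvx⟩ := hx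
    rw [h24_phi_nsmul_eq_zero, ← hvx]
    exact v.2
  · -- Galois stable
    intro σ x hx
    rw [h24_mem_pre] at hx ⊢
    obtain ⟨v, hv, hvx⟩ := hx
    refine ⟨σ • v, hN σ v hv, ?_⟩
    rw [h24_phi_smul, ← hvx]
    rfl
  · -- nonzero
    intro hN1
    apply hbot
    rw [Submodule.eq_bot_iff]
    intro v hv
    have hx := (h24_symm_mem_pre P N v).mpr hv
    rw [hN1, AddSubgroup.mem_bot] at hx
    have h3 := congrArg (h24_phi P) hx
    rw [AddEquiv.apply_symm_apply, _root_.map_zero] at h3
    exact Subtype.ext h3
  · -- proper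
    have : ∃ v : V P, v ∉ N := by
      by_contra hcon
      exact htop (Submodule.eq_top_iff'.mpr fun v => by
        by_contra hv
        exact hcon ⟨v, hv⟩)
    obtain ⟨v, hv⟩ := this
    refine ⟨(h24_phi P).symm (v : (P.freyCurve⁄Kbar).Point), ?_, ?_⟩
    · rw [h24_phi_nsmul_eq_zero, AddEquiv.apply_symm_apply]
      exact v.2
    · rw [h24_symm_mem_pre]
      exact hv

end Fermat.Agent.S13.Lp.H24
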