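import Fermat.Agent.S13.Lp.H25_Trich

/-!
# S13, package Lp: `PsiData` bounds the `p`-torsion of the short model

`card_le_of_psiData`: the `p`-torsion of the short model is finite with at most `p²` elements
(the map `(x, y) ↦ x` from the nonzero `p`-torsion points to the roots of `Ψ` has fibres with at
most two elements).  Together with `Trich.stShort_of_card` this gives `stShort`.
-/

set_option autoImplicit false

open WeierstrassCurve WeierstrassCurve.Affine WeierstrassCurve.Affine.Point Polynomial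
open Fermat.Agent.S05 Fermat.Agent.S13.Asm

namespace Fermat.Agent.S13.Lp.Card

open Fermat.Agent.S13.Lp

section Generic

variable {K : Type*} [Field K] [DecidableEq K] {W : Affine K}

/-- The coordinates of a point, `none` for the origin. -/
def coords : W.Point → Option (K × K)
  | .zero => none
  | .some x y _ => some (x, y)

theorem coords_injective : Function.Injective (coords (W := W)) := by
  rintro (_ | ⟨x, y, h⟩) (_ | ⟨x', y', h'⟩) e
  · rfl
  · simp [coords] at e
  · simp [coords] at e
  · simp only [coords, Option.some.injEq, Prod.mk.injEq] at e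
    obtain ⟨rfl, rfl⟩ := e
    rfl

/-- The finite set of pairs `(x, y)` with `Ψ(x) = 0` and `y² = x³ + a₂ x² + a₄ x`. -/
noncomputable def pairSet (W : Affine K) (Ψ : K[X]) : Finset (K × K) :=
  Ψ.roots.toFinset.biUnion fun x =>
    ((X ^ 2 - C (x ^ 3 + W.a₂ * x ^ 2 + W.a₄ * x) : K[X]).roots.toFinset).image fun y => (x, y)

theorem card_pairSet_le (W : Affine K) (Ψ : K[X]) :
    (pairSet W Ψ).card ≤ 2 * Ψ.natDegree := by
  unfold pairSet
  refine Finset.card_biUnion_le.trans ?_
  have h1 : ∀ x ∈ Ψ.roots.toFinset,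
      (((X ^ 2 - C (x ^ 3 + W.a₂ * x ^ 2 + W.a₄ * x) : K[X]).roots.toFinset).image
        fun y => (x, y)).card ≤ 2 := by
    intro x _
    refine Finset.card_image_le.trans ?_
    refine (Multiset.toFinset_card_le _).trans ?_
    refine (Polynomial.card_roots' _).trans ?_
    exact (natDegree_X_pow_sub_C (n := 2) (r := x ^ 3 + W.a₂ * x ^ 2 + W.a₄ * x)).le
  refine (Finset.sum_le_card_nsmul _ _ 2 h1).trans ?_
  rw [smul_eq_mul, mul_comm]
  exact Nat.mul_le_mul_left 2 ((Multiset.toFinset_card_le _).trans (Polynomial.card_roots' _))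

theorem mem_pairSet (hW : Vieta.IsShort W) {Ψ : K[X]} (hΨ : Ψ ≠ 0) {x y : K}
    (h : W.Nonsingular x y) (hx : Ψ.eval x = 0) : (x, y) ∈ pairSet W Ψ := by
  unfold pairSet
  rw [Finset.mem_biUnion]
  refine ⟨x, ?_, ?_⟩
  · rw [Multiset.mem_toFinset, mem_roots hΨ]
    exact hx
  · rw [Finset.mem_image]
    refine ⟨y, ?_, rfl⟩
    rw [Multiset.mem_toFinset, mem_roots (X_pow_sub_C_ne_zero (by norm_num) _)]
    rw [IsRoot.def, eval_sub, eval_pow, eval_X, eval_C, sub_eq_zero]
    exact (hW.equation_iff x y).1 h.1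

/-- If the nonzero `n`-torsion points have `x`-coordinate a root of `Ψ ≠ 0`, the `n`-torsion is
finite with at most `2 deg Ψ + 1` elements. -/
theorem card_torsion_le (hW : Vieta.IsShort W) {Ψ : K[X]} (hΨ : Ψ ≠ 0) (n : ℕ)
    (hroot : ∀ (x y : K) (h : W.Nonsingular x y), n • Point.some x y h = 0 → Ψ.eval x = 0) :
    Finite {t : W.Point // n • t = 0} ∧
      Nat.card {t : W.Point // n • t = 0} ≤ 2 * Ψ.natDegree + 1 := by
  classical
  let S : Finset (Option (K × K)) := insert none ((pairSet W Ψ).image some)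
  let f : {t : W.Point // n • t = 0} → S := fun t => ⟨coords t.1, by
    rcases t with ⟨_ | ⟨x, y, h⟩, ht⟩
    · exact Finset.mem_insert_self _ _
    · refine Finset.mem_insert_of_mem (Finset.mem_image_of_mem _ ?_)
      exact mem_pairSet hW hΨ h (hroot x y h ht)⟩
  have hf : Function.Injective f := by
    intro s t e
    apply Subtype.ext
    apply coords_injective
    exact congrArg Subtype.val e
  have hfin : Finite {t : W.Point // n • t = 0} := Finite.of_injective f hf
  refine ⟨hfin, ?_⟩
  calc Nat.card {t : W.Point // n • t = 0} ≤ Nat.card S := Nat.card_le_card_of_injective f hf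
    _ = S.card := by rw [Nat.card_eq_fintype_card, Fintype.card_coe]
    _ ≤ ((pairSet W Ψ).image some).card + 1 := Finset.card_insert_le _ _
    _ ≤ (pairSet W Ψ).card + 1 := Nat.add_le_add_right Finset.card_image_le 1
    _ ≤ 2 * Ψ.natDegree + 1 := Nat.add_le_add_right (card_pairSet_le W Ψ) 1

end Generic

/-- `PsiData` bounds the `p`-torsion of the short model. -/
theorem card_le_of_psiData (P : FreyPackage) (hΨ : PsiData P) :
    Finite {t : E1 P // P.p • t = 0} ∧ Nat.card {t : E1 P // P.p • t = 0} ≤ P.p ^ 2 := by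
  obtain ⟨Ψ, hdeg, -, hroot⟩ := hΨ
  have hp5 := P.hp5
  have hpos : 0 < (P.p ^ 2 - 1) / 2 := by
    have : 25 ≤ P.p ^ 2 := by nlinarith
    omega
  have hΨ0 : Ψ ≠ 0 := by
    rintro rfl
    rw [natDegree_zero] at hdeg
    omega
  have hinj : Function.Injective (Int.castRingHom Kbar) := Int.cast_injective
  have hΨ' : Ψ.map (Int.castRingHom Kbar) ≠ 0 := (Polynomial.map_ne_zero_iff hinj).mpr hΨ0
  have hdeg' : (Ψ.map (Int.castRingHom Kbar)).natDegree = (P.p ^ 2 - 1) / 2 := by
    rw [natDegree_map_eq_of_injective hinj, hdeg]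
  obtain ⟨hfin, hc⟩ := card_torsion_le (Trich.isShort_W1 P) hΨ' P.p (fun x y h h0 => by
    have := (hroot x y h).1 h0
    rw [← this, aeval_def, eval₂_eq_eval_map]
    rfl)
  refine ⟨hfin, hc.trans ?_⟩
  rw [hdeg']
  have : 1 ≤ P.p ^ 2 := Nat.one_le_pow _ _ (by omega)
  omega

/-- **Leaf T**: the dichotomy at `A` in the short model. -/
theorem stShort (P : FreyPackage) (h1 : StLp1 P) (h3 : StC3 P) : StShort P :=
  Trich.stShort_of_card P h1 h3 (card_le_of_psiData P)

end Fermat.Agent.S13.Lp.Card
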