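import Mathlib
import Fermat.Agent.S13.Lp.H25_Card
import Fermat.Agent.S13.Lp.H24_Lp1
import Fermat.Agent.S13.Lp.H24_Transport
import Fermat.Agent.S13.Asm.H11_AsmV2

/-!
# S13, package Lp (helper24): the deliverable `StLpAt P` from Claim 3 alone

Wiring of the landed leaves: `Lp1` (`H24.stLp1`), the trichotomy `T` (`Card.stShort`) and the
transport `X` (`H24.h24_stLpAt_of_stShort`).  The only remaining input is Claim 3 (`StC3 P`).
-/

set_option autoImplicit false

namespace Fermat.Agent.S13.Lp.H24

open Fermat.Agent.S13.Asm

/-- The dichotomy in the short model from Claim 3. -/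
theorem h24_stShort_of_stC3 (P : FreyPackage) (h3 : StC3 P) : StShort P :=
  Card.stShort P (stLp1 P) h3

/-- The deliverable of package Lp from Claim 3. -/
theorem h24_stLpAt_of_stC3 (P : FreyPackage) (h3 : StC3 P) : StLpAt P :=
  h24_stLpAt_of_stShort P (h24_stShort_of_stC3 P h3)

/-- The deliverable of package Lp in the shape consumed by the assembly, from Claim 3 and the
interface `PsiData` of package W. -/
theorem h24_stLpA_of_stC3 (P : FreyPackage) (h3 : StC3 P) (hΨ : PsiData P) : StLpA P :=
  fun N hN hbot htop A hA => h24_stLpAt_of_stC3 P h3 hΨ N hN hbot htop A hA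

end Fermat.Agent.S13.Lp.H24
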