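import Mathlib
import Fermat.Agent.S13.Lp.H24_C3Core
import Fermat.Agent.S13.Lp.H23_C3Inst
import Fermat.Agent.S13.Lp.H24_LpWire

/-!
# S13, package Lp (helper24): Claim 3 and the deliverable of Lp from `PsiData` alone

`h24_stC3 P : StC3 P` (core `h24_stC3Core` + helper23's instance `stC3_of_core`), hence
`h24_stLpAt P : StLpAt P` and `h24_stLpA_of_psiData P : PsiData P → Asm.StLpA P`.
-/

set_option autoImplicit false

namespace Fermat.Agent.S13.Lp.H24

open Fermat.Agent.S13.Asm

/-- **Claim 3**, unconditionally. -/
theorem h24_stC3 (P : FreyPackage) : StC3 P :=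
  Fermat.Agent.S13.Lp.H23.stC3_of_core h24_stC3Core P

/-- The dichotomy in the short model (hypothesis `PsiData P` inside). -/
theorem h24_stShort (P : FreyPackage) : StShort P :=
  h24_stShort_of_stC3 P (h24_stC3 P)

/-- **Deliverable of package Lp** (hypothesis `PsiData P` inside). -/
theorem h24_stLpAt (P : FreyPackage) : StLpAt P :=
  h24_stLpAt_of_stC3 P (h24_stC3 P)

/-- **Deliverable of package Lp** in the shape consumed by the assembly, from the interface
`PsiData P` of package W. -/
theorem h24_stLpA_of_psiData (P : FreyPackage) (hΨ : PsiData P) : StLpA P :=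
  h24_stLpA_of_stC3 P (h24_stC3 P) hΨ

end Fermat.Agent.S13.Lp.H24
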