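import Fermat.Agent.S13.Lp.H25_PsiData
import Fermat.Agent.S13.Lp.H24_LpFinal

/-!
# S13, package Lp: the deliverable `Asm.StLpA P`, unconditionally

`stLpA P : Asm.StLpA P` : for every Galois-stable line `N` of `E[p]` and every valuation subring
`A` of `Kbar` over `p`, inertia at `A` acts trivially on `N` or trivially on `E[p] / N`.

Inputs: `psiData` (package W, helper1's `Wr.psi_data`), Claim 3 (`H24.h24_stC3`: core by helper24,
instance by helper23), leaf Lp1 (helper24), leaves T and X (helper25).
-/

set_option autoImplicit false

open Fermat.Agent.S13.Asm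

namespace Fermat.Agent.S13.Lp

/-- **Claim 3**, unconditionally. -/
theorem stC3 (P : FreyPackage) : StC3 P := H24.h24_stC3 P

/-- The dichotomy at every `A` over `p`, short model. -/
theorem stShort (P : FreyPackage) : StShort P :=
  Card.stShort P (H24.stLp1 P) (stC3 P)

/-- **Deliverable of package Lp** (plan v2 shape), unconditionally. -/
theorem stLpA (P : FreyPackage) : Asm.StLpA P := stLpA_of_stC3 P (stC3 P)

/-- The local variant (one valuation subring over `p`). -/
theorem stLpLocal (P : FreyPackage) : Asm.StLpLocal P := Asm.stLpLocal_of_stLpA (stLpA P)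

end Fermat.Agent.S13.Lp
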