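import Fermat.Agent.S13.Lp.H25_Transport
import Fermat.Agent.S13.Lp.H25_Card
import Fermat.Agent.S13.Lp.H24_Lp1
import Fermat.Agent.S13.Asm.H11_AsmV2

/-!
# S13, package Lp: final wiring

`stLpAt_of_stC3 : StC3 P → StLpAt P` (leaves Lp1 + T + X), and the adapter to the assembly
deliverable `Asm.StLpA P` from `PsiData P` (interface to package W) and `StC3 P` (Claim 3).
-/

set_option autoImplicit false

open Fermat.Agent.S13.Asm

namespace Fermat.Agent.S13.Lp

/-- The dichotomy at every `A` over `p` on the Frey model, from Claim 3 alone. -/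
theorem stLpAt_of_stC3 (P : FreyPackage) (h3 : StC3 P) : StLpAt P :=
  Transport.stLpAt P (Card.stShort P (H24.stLp1 P) h3)

/-- The assembly deliverable of package Lp, from the W-interface `PsiData P` and Claim 3. -/
theorem stLpA_of_psiData_of_stC3 (P : FreyPackage) (hΨ : PsiData P) (h3 : StC3 P) :
    Asm.StLpA P :=
  fun N hN h0 h1 A hA => stLpAt_of_stC3 P h3 hΨ N hN h0 h1 A hA

end Fermat.Agent.S13.Lp
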