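import Mathlib
import Fermat.Agent.S13.Lp.H25_DefsC3

/-!
# S13, package Lp: Claim 3 from its model-free core (instance `d = 1`)

`stC3_of_core : StC3Core → ∀ P, StC3 P`.  The polynomial is the `Ψ` of `PsiData P`, `S₁` is the
set of `x`-coordinates of the nonzero points of `N1`, `S₂` the set of `x`-coordinates of the
`p`-torsion points outside `N1`.
-/

set_option autoImplicit false

open WeierstrassCurve WeierstrassCurve.Affine WeierstrassCurve.Affine.Point Polynomial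
open Fermat.Agent.S05 Fermat.Agent.S13.Asm

namespace Fermat.Agent.S13.Lp.C3I

/-- The discriminant of the short model is nonzero. -/
lemma h16_W1_Δ_ne_zero (P : FreyPackage) : ((W1 P)⁄Kbar).Δ ≠ 0 := by
  obtain ⟨h₁, h₃, h₆, h₂, h₄⟩ := H27.freyVC_smul_baseChange P P.p Kbar
  have hΔ : ((W1 P)⁄Kbar).Δ = 16 * (H27.freyBe P P.p : Kbar) ^ 2 *
      (((H27.freyAl P P.p ^ 2 - 4 * H27.freyBe P P.p : ℤ) : Kbar)) := by
    rw [WeierstrassCurve.Δ, WeierstrassCurve.b₂, WeierstrassCurve.b₄, WeierstrassCurve.b₆,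
      WeierstrassCurve.b₈, h₁, h₃, h₆, h₂, h₄]
    push_cast
    ring
  rw [hΔ]
  have hbe : (H27.freyBe P P.p : Kbar) ≠ 0 := Int.cast_ne_zero.mpr (H27.freyBe_ne_zero P P.p)
  have hd : (((H27.freyAl P P.p ^ 2 - 4 * H27.freyBe P P.p : ℤ) : Kbar)) ≠ 0 := by
    apply Int.cast_ne_zero.mpr
    rw [H27.freyAl_sq_sub]
    split_ifs
    · exact pow_ne_zero _ (pow_ne_zero _ P.hb0)
    · exact pow_ne_zero _ (pow_ne_zero _ P.hc0)
  exact mul_ne_zero (mul_ne_zero (by norm_num) (pow_ne_zero _ hbe)) hd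

/-- Every `x` is the `x`-coordinate of a nonsingular point of the short model. -/
lemma h16_exists_point (P : FreyPackage) (x : Kbar) :
    ∃ y : Kbar, ((W1 P)⁄Kbar).Nonsingular x y := by
  set W := ((W1 P)⁄Kbar) with hW
  set q : Kbar[X] := X ^ 2 + C (W.a₁ * x + W.a₃) * X
      - C (x ^ 3 + W.a₂ * x ^ 2 + W.a₄ * x + W.a₆) with hq
  have hdeg : q.degree = 2 := by
    rw [hq]
    compute_degree!
  obtain ⟨y, hy⟩ := IsAlgClosed.exists_root q (by rw [hdeg]; norm_num)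
  refine ⟨y, (equation_iff_nonsingular_of_Δ_ne_zero (h16_W1_Δ_ne_zero P)).mp ?_⟩
  rw [equation_iff]
  have : y ^ 2 + (W.a₁ * x + W.a₃) * y - (x ^ 3 + W.a₂ * x ^ 2 + W.a₄ * x + W.a₆) = 0 := by
    simpa [hq, IsRoot.def] using hy
  linear_combination this

/-- Two points with the same `x`-coordinate are equal or opposite. -/
lemma h16_eq_or_eq_neg {K : Type*} [Field K] [DecidableEq K] {W : Affine K} {x y y' : K}
    (h : W.Nonsingular x y) (h' : W.Nonsingular x y') :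
    (Point.some x y' h' : W.Point) = Point.some x y h ∨
      (Point.some x y' h' : W.Point) = -Point.some x y h := by
  rcases Y_eq_of_X_eq h'.1 h.1 rfl with e | e
  · left
    subst e
    rfl
  · right
    rw [Point.neg_some]
    subst e
    rfl

/-- **Claim 3 from its core.** -/
theorem stC3_of_core (hcore : StC3Core) (P : FreyPackage) : StC3 P := by
  classical
  intro hΨ A hA N1 hN1tors hN1stab hN1bot hN1top hall
  obtain ⟨Ψ, -, hlc, hroot⟩ := hΨ
  have hΨ0 : Ψ ≠ 0 := by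
    rintro rfl
    apply hlc
    rw [leadingCoeff_zero]
    exact dvd_zero _
  have hinj : Function.Injective (Int.castRingHom Kbar) := Int.cast_injective
  have hF0 : Ψ.map (Int.castRingHom Kbar) ≠ 0 := (Polynomial.map_ne_zero_iff hinj).mpr hΨ0
  have haeval : ∀ x : Kbar, aeval x Ψ = 0 ↔ (Ψ.map (Int.castRingHom Kbar)).IsRoot x := by
    intro x
    rw [IsRoot.def, eval_map, aeval_def]
    rfl
  have hmemroots : ∀ x : Kbar, aeval x Ψ = 0 →
      x ∈ (Ψ.map (Int.castRingHom Kbar)).roots.toFinset := by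
    intro x hx
    rw [Multiset.mem_toFinset, mem_roots hF0]
    exact (haeval x).mp hx
  -- the two sets of `x`-coordinates
  set S₁ : Finset Kbar := (Ψ.map (Int.castRingHom Kbar)).roots.toFinset.filter
    (fun ξ => ∃ y, ∃ h : ((W1 P)⁄Kbar).Nonsingular ξ y, (Point.some ξ y h : E1 P) ∈ N1) with hS₁
  set S₂ : Finset Kbar := (Ψ.map (Int.castRingHom Kbar)).roots.toFinset.filter
    (fun ξ => ∃ y, ∃ h : ((W1 P)⁄Kbar).Nonsingular ξ y,
      P.p • (Point.some ξ y h : E1 P) = 0 ∧ (Point.some ξ y h : E1 P) ∉ N1) with hS₂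
  have hmem₁ : ∀ ξ, ξ ∈ S₁ ↔ ∃ y, ∃ h : ((W1 P)⁄Kbar).Nonsingular ξ y,
      (Point.some ξ y h : E1 P) ∈ N1 := by
    intro ξ
    rw [hS₁, Finset.mem_filter]
    constructor
    · exact fun h => h.2
    · rintro ⟨y, h, hm⟩
      exact ⟨hmemroots ξ ((hroot ξ y h).mp (hN1tors _ hm)), y, h, hm⟩
  have hmem₂ : ∀ ξ, ξ ∈ S₂ ↔ ∃ y, ∃ h : ((W1 P)⁄Kbar).Nonsingular ξ y,
      P.p • (Point.some ξ y h : E1 P) = 0 ∧ (Point.some ξ y h : E1 P) ∉ N1 := by
    intro ξ
    rw [hS₂, Finset.mem_filter]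
    constructor
    · exact fun h => h.2
    · rintro ⟨y, h, ht, hm⟩
      exact ⟨hmemroots ξ ((hroot ξ y h).mp ht), y, h, ht, hm⟩
  have hroot₁ : ∀ ξ ∈ S₁, (Ψ.map (Int.castRingHom Kbar)).IsRoot ξ := by
    intro ξ hξ
    rw [hS₁, Finset.mem_filter, Multiset.mem_toFinset, mem_roots hF0] at hξ
    exact hξ.1
  have hroot₂ : ∀ ξ ∈ S₂, (Ψ.map (Int.castRingHom Kbar)).IsRoot ξ := by
    intro ξ hξ
    rw [hS₂, Finset.mem_filter, Multiset.mem_toFinset, mem_roots hF0] at hξ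
    exact hξ.1
  -- all roots are non-integral
  have hnonint : ∀ x : Kbar, aeval x Ψ = 0 → x ∉ A := by
    intro x hx hxA
    obtain ⟨y, h⟩ := h16_exists_point P x
    have ht : P.p • (Point.some x y h : E1 P) = 0 := (hroot x y h).mpr hx
    have hk : H7K.InKer A.valuation (Point.some x y h : E1 P) := hall _ ht
    have hk' : 1 < A.valuation x := hk
    exact absurd ((A.valuation_le_one_iff x).mpr hxA) (not_le.mpr hk')
  -- nonemptiness
  have hne₁ : S₁.Nonempty := by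
    obtain ⟨R, hR, hR0⟩ : ∃ R ∈ N1, R ≠ 0 := by
      by_contra hcon
      apply hN1bot
      rw [eq_bot_iff]
      intro R hR
      rw [AddSubgroup.mem_bot]
      by_contra hR0
      exact hcon ⟨R, hR, hR0⟩
    rcases R with _ | ⟨ξ, y, h⟩
    · exact absurd rfl hR0
    · exact ⟨ξ, (hmem₁ ξ).mpr ⟨y, h, hR⟩⟩
  have hne₂ : S₂.Nonempty := by
    obtain ⟨R, hRt, hR⟩ := hN1top
    rcases R with _ | ⟨ξ, y, h⟩
    · exact absurd N1.zero_mem hR
    · exact ⟨ξ, (hmem₂ ξ).mpr ⟨y, h, hRt, hR⟩⟩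
  -- disjointness
  have hdisj : Disjoint S₁ S₂ := by
    rw [Finset.disjoint_left]
    intro ξ h1 h2
    obtain ⟨y, h, hm⟩ := (hmem₁ ξ).mp h1
    obtain ⟨y', h', -, hm'⟩ := (hmem₂ ξ).mp h2
    rcases h16_eq_or_eq_neg h h' with e | e
    · exact hm' (e ▸ hm)
    · exact hm' (e ▸ N1.neg_mem hm)
  -- Galois stability
  have hstab₁ : ∀ σ : Gam, ∀ x ∈ S₁, σ x ∈ S₁ := by
    intro σ ξ hξ
    obtain ⟨y, h, hm⟩ := (hmem₁ ξ).mp hξ
    have := hN1stab σ _ hm
    rw [H13.smul_some] at this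
    exact (hmem₁ _).mpr ⟨σ y, _, this⟩
  have hstab₂ : ∀ σ : Gam, ∀ x ∈ S₂, σ x ∈ S₂ := by
    intro σ ξ hξ
    obtain ⟨y, h, ht, hm⟩ := (hmem₂ ξ).mp hξ
    have ht' : P.p • (σ • (Point.some ξ y h : E1 P)) = 0 := by
      have h1 : P.p • (σ • (Point.some ξ y h : E1 P)) = σ • (P.p • (Point.some ξ y h : E1 P)) :=
        ((DistribSMul.toAddMonoidHom (E1 P) σ).map_nsmul P.p _).symm
      rw [h1, ht]
      rfl
    have hm' : σ • (Point.some ξ y h : E1 P) ∉ N1 := by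
      intro hcon
      have := hN1stab σ⁻¹ _ hcon
      rw [inv_smul_smul] at this
      exact hm this
    rw [H13.smul_some] at ht' hm'
    exact (hmem₂ _).mpr ⟨σ y, _, ht', hm'⟩
  -- divisibility
  have hdvd₁ : ∀ x ∈ S₁, (X - C x) ^ 1 ∣ Ψ.map (Int.castRingHom Kbar) := by
    intro x hx
    rw [pow_one]
    exact dvd_iff_isRoot.mpr (hroot₁ x hx)
  have hdvd₂ : ∀ x ∈ S₂, (X - C x) ^ 1 ∣ Ψ.map (Int.castRingHom Kbar) := by
    intro x hx
    rw [pow_one]
    exact dvd_iff_isRoot.mpr (hroot₂ x hx)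
  have key := hcore P.p P.pp A hA Ψ hΨ0 1 hnonint S₁ S₂ hne₁ hne₂ hdisj hstab₁ hstab₂ hdvd₁ hdvd₂
  rw [mul_one] at key
  exact hlc key

end Fermat.Agent.S13.Lp.C3I
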