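import Mathlib
import Fermat.Agent.S13.Lp.H25_Defs

/-!
# S13, package Lp, leaf [X]: transport from the short model to the Frey model

`StShort P` (the dichotomy at `p` for Galois-stable subgroups of the `p`-torsion of the short
model `W1 P`) implies `StLpAt P` (the same dichotomy for `ZMod p`-submodules of
`V P = E[p](Kbar)`, `E` the Frey curve), by transport along the Galois-equivariant isomorphism
`H22.vcEquivBC (H27.freyVC P P.p) rfl Kbar`.
-/

set_option autoImplicit false

open WeierstrassCurve WeierstrassCurve.Affine WeierstrassCurve.Affine.Point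
open Fermat.Agent.S05 Fermat.Agent.S13.Asm

namespace Fermat.Agent.S13.Lp.X

/-- The transport isomorphism from the points of the short model to the points of the Frey
curve. -/
noncomputable def h16_phi (P : FreyPackage) : E1 P ≃+ (P.freyCurve⁄Kbar).Point :=
  H22.vcEquivBC (H27.freyVC P P.p) rfl Kbar

lemma h16_phi_smul (P : FreyPackage) (σ : Gam) (x : E1 P) :
    h16_phi P (σ • x) = σ • h16_phi P x :=
  H22.vcEquivBC_smul (H27.freyVC P P.p) rfl σ x

lemma h16_phi_symm_smul (P : FreyPackage) (σ : Gam) (y : (P.freyCurve⁄Kbar).Point) :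
    (h16_phi P).symm (σ • y) = σ • (h16_phi P).symm y := by
  apply (h16_phi P).injective
  rw [h16_phi_smul, AddEquiv.apply_symm_apply, AddEquiv.apply_symm_apply]

lemma h16_mem_V_iff (P : FreyPackage) (y : (P.freyCurve⁄Kbar).Point) :
    y ∈ Submodule.torsionBy ℤ (P.freyCurve⁄Kbar).Point P.p ↔ P.p • y = 0 := by
  rw [Submodule.mem_torsionBy_iff, Nat.cast_smul_eq_nsmul]

lemma h16_phi_torsion_iff (P : FreyPackage) (x : E1 P) :
    P.p • h16_phi P x = 0 ↔ P.p • x = 0 := by
  rw [← map_nsmul, AddEquivClass.map_eq_zero_iff]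

/-- The subgroup of the points of the short model corresponding to a submodule of `V P`. -/
noncomputable def h16_N1 (P : FreyPackage) (N : Submodule (ZMod P.p) (V P)) :
    AddSubgroup (E1 P) where
  carrier := {x | ∃ y : V P, y ∈ N ∧ (y : (P.freyCurve⁄Kbar).Point) = h16_phi P x}
  zero_mem' := ⟨0, N.zero_mem, by rw [_root_.map_zero]; rfl⟩
  add_mem' := by
    rintro a b ⟨ya, hya, ha⟩ ⟨yb, hyb, hb⟩
    refine ⟨ya + yb, N.add_mem hya hyb, ?_⟩
    rw [map_add, ← ha, ← hb]
    rfl
  neg_mem' := by
    rintro a ⟨ya, hya, ha⟩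
    refine ⟨-ya, N.neg_mem hya, ?_⟩
    rw [map_neg, ← ha]
    rfl

lemma h16_mem_N1 (P : FreyPackage) (N : Submodule (ZMod P.p) (V P)) (x : E1 P) :
    x ∈ h16_N1 P N ↔ ∃ y : V P, y ∈ N ∧ (y : (P.freyCurve⁄Kbar).Point) = h16_phi P x :=
  Iff.rfl

/-- The point of the short model corresponding to an element of `V P`. -/
noncomputable def h16_back (P : FreyPackage) (y : V P) : E1 P :=
  (h16_phi P).symm (y : (P.freyCurve⁄Kbar).Point)

lemma h16_phi_back (P : FreyPackage) (y : V P) :
    h16_phi P (h16_back P y) = (y : (P.freyCurve⁄Kbar).Point) :=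
  AddEquiv.apply_symm_apply _ _

lemma h16_back_torsion (P : FreyPackage) (y : V P) : P.p • h16_back P y = 0 := by
  rw [← h16_phi_torsion_iff, h16_phi_back]
  exact (h16_mem_V_iff P _).mp y.2

lemma h16_back_mem_iff (P : FreyPackage) (N : Submodule (ZMod P.p) (V P)) (y : V P) :
    h16_back P y ∈ h16_N1 P N ↔ y ∈ N := by
  rw [h16_mem_N1]
  constructor
  · rintro ⟨y', hy', h⟩
    rw [h16_phi_back] at h
    have : y' = y := Subtype.ext h
    rwa [← this]
  · intro hy
    exact ⟨y, hy, (h16_phi_back P y).symm⟩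

lemma h16_back_smul (P : FreyPackage) (σ : Gam) (y : V P) :
    h16_back P (σ • y) = σ • h16_back P y := by
  unfold h16_back
  rw [← h16_phi_symm_smul]
  rfl

lemma h16_back_sub (P : FreyPackage) (y z : V P) :
    h16_back P (y - z) = h16_back P y - h16_back P z := by
  unfold h16_back
  rw [← map_sub]
  rfl

lemma h16_back_injective (P : FreyPackage) : Function.Injective (h16_back P) := by
  intro y z h
  apply Subtype.ext
  have := congrArg (h16_phi P) h
  rwa [h16_phi_back, h16_phi_back] at this

/-- **Leaf [X]** of package Lp: the dichotomy at `p` in the short model implies the dichotomy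
at `p` for the Frey curve. -/
theorem stLpAt (P : FreyPackage) (h : StShort P) : StLpAt P := by
  intro hΨ N hN hbot htop A hA
  have hN1tors : ∀ x ∈ h16_N1 P N, P.p • x = 0 := by
    rintro x ⟨y, -, hy⟩
    rw [← h16_phi_torsion_iff, ← hy]
    exact (h16_mem_V_iff P _).mp y.2
  have hN1stab : ∀ σ : Gam, ∀ x ∈ h16_N1 P N, σ • x ∈ h16_N1 P N := by
    rintro σ x ⟨y, hyN, hy⟩
    refine ⟨σ • y, hN σ y hyN, ?_⟩
    rw [h16_phi_smul, ← hy]
    rfl
  have hN1bot : h16_N1 P N ≠ ⊥ := by
    intro hb
    apply hbot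
    rw [eq_bot_iff]
    intro y hy
    have h1 : h16_back P y ∈ h16_N1 P N := (h16_back_mem_iff P N y).mpr hy
    rw [hb, AddSubgroup.mem_bot] at h1
    have h2 : h16_back P y = h16_back P 0 := by
      rw [h1]
      unfold h16_back
      exact (_root_.map_zero _).symm
    rw [Submodule.mem_bot]
    exact h16_back_injective P h2
  have hN1top : ∃ x : E1 P, P.p • x = 0 ∧ x ∉ h16_N1 P N := by
    by_contra hcon
    apply htop
    rw [eq_top_iff]
    intro y _
    by_contra hy
    exact hcon ⟨h16_back P y, h16_back_torsion P y,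
      fun hmem => hy ((h16_back_mem_iff P N y).mp hmem)⟩
  rcases h hΨ A hA (h16_N1 P N) hN1tors hN1stab hN1bot hN1top with h1 | h2
  · left
    intro σ hσ y hy
    have := h1 σ hσ (h16_back P y) ((h16_back_mem_iff P N y).mpr hy)
    rw [← h16_back_smul] at this
    exact h16_back_injective P this
  · right
    intro σ hσ y
    have := h2 σ hσ (h16_back P y) (h16_back_torsion P y)
    rw [← h16_back_smul, ← h16_back_sub] at this
    exact (h16_back_mem_iff P N _).mp this

end Fermat.Agent.S13.Lp.X
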