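import Fermat.Agent.S05.H12_Kernel
import Fermat.Agent.S05.H13_Inertia

/-!
# S13, package Lp, leaf Lp1-core (helper23): inertia moves torsion points inside the kernel of
reduction

Port of `S05/H13_Inertia` to the case where the residue characteristic may divide the order of
the torsion points.  `(K, v)` a valued field, `W : y² = x³ + a₂ x² + a₄ x` a short curve with
integral coefficients and `v 2 = 1`, `σ` a ring endomorphism of `K` acting trivially on the
residue field, `T` a `σ`-stable subgroup of points without `2`-torsion such that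
`2 R ∈ KER → R ∈ KER` on `T`.  Then for `R ∈ T`:

* good reduction (`v a₄ = 1`, `v (a₂² - 4 a₄) = 1`): `σ R - R ∈ KER`;
* multiplicative reduction with node at `(0, 0)` (`v a₂ = 1`, `v a₄ < 1`), assuming the node
  statement of S05 for the points of `T`: `σ R - R ∈ KER`.

Here `KER = H12.InKer v` is the kernel of reduction (`0` and the points with `1 < v x`).
-/

set_option autoImplicit false
set_option linter.unusedSectionVars false
set_option linter.unusedVariables false

namespace Fermat.Agent.S13.Lp.IK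

open WeierstrassCurve WeierstrassCurve.Affine
open Fermat.Agent.S05

/-! ### The kernel of reduction is a subgroup -/

section Ker

variable {K : Type*} [Field K] [DecidableEq K] {Γ : Type*} [LinearOrderedCommGroupWithZero Γ]
  (v : Valuation K Γ) {W : Affine K}

/-- The `z`-coordinate of a point of the kernel of reduction is small. -/
theorem val_zc_lt_one (h1 : W.a₁ = 0) (h3 : W.a₃ = 0) (h2 : v W.a₂ ≤ 1) (h4 : v W.a₄ ≤ 1)
    (h6 : v W.a₆ ≤ 1) {P : W.Point} (hP : H12.InKer v P) : v (H12.zc P) < 1 := by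
  rcases hP with rfl | ⟨x, y, h, rfl, hx⟩
  · simp
  · rw [H12.zc_some]
    exact (H12.ker_basic v h2 h4 h6 (H12.short_equation h1 h3 h.1) hx).2.2.1

/-- The kernel of reduction is stable under addition. -/
theorem inKer_add (h1 : W.a₁ = 0) (h3 : W.a₃ = 0) (h2 : v W.a₂ ≤ 1) (h4 : v W.a₄ ≤ 1)
    (h6 : v W.a₆ ≤ 1) {P₁ P₂ : W.Point} (hP₁ : H12.InKer v P₁) (hP₂ : H12.InKer v P₂) :
    H12.InKer v (P₁ + P₂) := by
  have hz₁ := val_zc_lt_one v h1 h3 h2 h4 h6 hP₁
  have hz₂ := val_zc_lt_one v h1 h3 h2 h4 h6 hP₂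
  exact (H12.inKer_add v h1 h3 h2 h4 h6 (ρ := max (v (H12.zc P₁)) (v (H12.zc P₂)))
    (max_lt hz₁ hz₂) hP₁ hP₂ (le_max_left _ _) (le_max_right _ _)).1

/-- The kernel of reduction is stable under negation. -/
theorem inKer_neg {P : W.Point} (hP : H12.InKer v P) : H12.InKer v (-P) := by
  rcases hP with rfl | ⟨x, y, h, rfl, hx⟩
  · rw [neg_zero]
    exact H12.inKer_zero v
  · rw [Point.neg_some]
    exact (H12.inKer_some v _).mpr hx

/-- The kernel of reduction is stable under subtraction. -/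
theorem inKer_sub (h1 : W.a₁ = 0) (h3 : W.a₃ = 0) (h2 : v W.a₂ ≤ 1) (h4 : v W.a₄ ≤ 1)
    (h6 : v W.a₆ ≤ 1) {P₁ P₂ : W.Point} (hP₁ : H12.InKer v P₁) (hP₂ : H12.InKer v P₂) :
    H12.InKer v (P₁ - P₂) := by
  rw [sub_eq_add_neg]
  exact inKer_add v h1 h3 h2 h4 h6 hP₁ (inKer_neg v hP₂)

/-- The kernel of reduction is stable under multiples. -/
theorem inKer_nsmul (h1 : W.a₁ = 0) (h3 : W.a₃ = 0) (h2 : v W.a₂ ≤ 1) (h4 : v W.a₄ ≤ 1)
    (h6 : v W.a₆ ≤ 1) {P : W.Point} (hP : H12.InKer v P) (n : ℕ) :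
    H12.InKer v (n • P) := by
  induction n with
  | zero =>
    rw [zero_smul]
    exact H12.inKer_zero v
  | succ k ih =>
    rw [succ_nsmul]
    exact inKer_add v h1 h3 h2 h4 h6 ih hP

/-- The kernel of reduction as a subgroup. -/
def kerSubgroup (h1 : W.a₁ = 0) (h3 : W.a₃ = 0) (h2 : v W.a₂ ≤ 1) (h4 : v W.a₄ ≤ 1)
    (h6 : v W.a₆ ≤ 1) : AddSubgroup W.Point where
  carrier := {P | H12.InKer v P}
  zero_mem' := H12.inKer_zero v
  add_mem' := fun hP hQ => inKer_add v h1 h3 h2 h4 h6 hP hQ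
  neg_mem' := fun hP => inKer_neg v hP

theorem mem_kerSubgroup (h1 : W.a₁ = 0) (h3 : W.a₃ = 0) (h2 : v W.a₂ ≤ 1) (h4 : v W.a₄ ≤ 1)
    (h6 : v W.a₆ ≤ 1) {P : W.Point} :
    P ∈ kerSubgroup v h1 h3 h2 h4 h6 ↔ H12.InKer v P := Iff.rfl

/-- On odd torsion, `2 R ∈ KER` implies `R ∈ KER`. -/
theorem inKer_of_inKer_two_nsmul (h1 : W.a₁ = 0) (h3 : W.a₃ = 0) (h2 : v W.a₂ ≤ 1)
    (h4 : v W.a₄ ≤ 1) (h6 : v W.a₆ ≤ 1) {p : ℕ} (hp : Odd p) {R : W.Point} (hR : p • R = 0)
    (h : H12.InKer v (R + R)) : H12.InKer v R := by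
  obtain ⟨k, hk⟩ := hp
  have e : (k + 1) • (R + R) = R := by
    rw [← two_smul ℕ R, ← mul_smul]
    have e2 : (k + 1) * 2 = p + 1 := by omega
    rw [e2, add_smul, hR, zero_add, one_smul]
  rw [← e]
  exact inKer_nsmul v h1 h3 h2 h4 h6 h (k + 1)

end Ker

/-! ### The inertia argument -/

section Core

variable {K : Type*} [Field K] [DecidableEq K] {Γ : Type*} [LinearOrderedCommGroupWithZero Γ]
  (v : Valuation K Γ) {W : Affine K}

/-- The data of an "inertia-like" endomorphism of a valued field acting on a subgroup `T` of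
points of the short form curve `W`; the points of `T` are allowed to lie in the kernel of
reduction. -/
structure InertiaDataP (W : Affine K) (σ : K →+* K) (T : AddSubgroup W.Point) : Prop where
  a₁ : W.a₁ = 0
  a₃ : W.a₃ = 0
  a₆ : W.a₆ = 0
  val_a₂ : v W.a₂ ≤ 1
  val_a₄ : v W.a₄ ≤ 1
  val_two : v 2 = 1
  /-- `σ` acts trivially on the residue field -/
  val_sub : ∀ a, v a ≤ 1 → v (σ a - a) < 1
  /-- `T` is stable under `σ` -/
  stable : ∀ (x y : K) (h : W.Nonsingular x y), Point.some x y h ∈ T →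
    ∃ h' : W.Nonsingular (σ x) (σ y), Point.some (σ x) (σ y) h' ∈ T
  /-- `T` has no `2`-torsion -/
  no_two : ∀ R ∈ T, R + R = 0 → R = 0
  /-- on `T`, the double of a point outside the kernel of reduction is outside the kernel -/
  two_ker : ∀ R ∈ T, H12.InKer v (R + R) → H12.InKer v R

variable {v} {σ : K →+* K} {T : AddSubgroup W.Point}

theorem InertiaDataP.val_a₆ (D : InertiaDataP v W σ T) : v W.a₆ ≤ 1 := by
  rw [D.a₆, map_zero]
  exact zero_le_one

theorem InertiaDataP.val_y (D : InertiaDataP v W σ T) {x y : K} {h : W.Nonsingular x y}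
    (hx : v x ≤ 1) : v y ≤ 1 := by
  have heq := H13.short_equation D.a₁ D.a₃ D.a₆ h
  apply H13.val_le_one_of_sq
  rw [heq]
  refine H13.val_add_le v (H13.val_add_le v (H13.val_pow_le_one v hx 3) ?_) ?_
  · exact H13.val_mul_le_one v D.val_a₂ (H13.val_pow_le_one v hx 2)
  · exact H13.val_mul_le_one v D.val_a₄ hx

theorem InertiaDataP.y_ne_zero (D : InertiaDataP v W σ T) {x y : K} {h : W.Nonsingular x y}
    (hR : Point.some x y h ∈ T) : y ≠ 0 := by
  rintro rfl
  exact Point.some_ne_zero h (D.no_two _ hR (H13.short_add_self_of_y_eq_zero D.a₁ D.a₃ h))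

theorem InertiaDataP.two_ne_zero (D : InertiaDataP v W σ T) : (2 : K) ≠ 0 := by
  intro h
  have := D.val_two
  rw [h, map_zero] at this
  exact zero_ne_one this

/-- `σ` does not increase the valuation of integral elements. -/
theorem InertiaDataP.val_apply_le (D : InertiaDataP v W σ T) {a : K} (ha : v a ≤ 1) :
    v (σ a) ≤ 1 := by
  have e : σ a = (σ a - a) + a := by ring
  rw [e]
  exact H13.val_add_le v (D.val_sub a ha).le ha

/-- `σ` preserves the maximal ideal. -/
theorem InertiaDataP.val_apply_lt (D : InertiaDataP v W σ T) {a : K} (ha : v a < 1) :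
    v (σ a) < 1 := by
  have e : σ a = (σ a - a) + a := by ring
  rw [e]
  exact H13.val_add_lt v (D.val_sub a ha.le) ha

/-- `σ` preserves the complement of the valuation ring. -/
theorem InertiaDataP.one_lt_val_apply (D : InertiaDataP v W σ T) {a : K} (ha : 1 < v a) :
    1 < v (σ a) := by
  have ha0 : a ≠ 0 := by
    rintro rfl
    rw [map_zero] at ha
    exact absurd ha (not_lt.mpr zero_le_one)
  have h1 : v a⁻¹ < 1 := by
    rw [map_inv₀]
    exact inv_lt_one_of_one_lt₀ ha
  have h2 := D.val_apply_lt h1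
  rw [map_inv₀, map_inv₀] at h2
  have h3 : v (σ a) ≠ 0 := by
    rw [ne_eq, map_eq_zero]
    exact (map_ne_zero σ).mpr ha0
  by_contra hcon
  push Not at hcon
  have h4 : 1 ≤ (v (σ a))⁻¹ := (one_le_inv₀ (zero_lt_iff.mpr h3)).mpr hcon
  exact absurd h2 (not_lt.mpr h4)

/-- For an integral point of `T` the value of `(x² - a₄)²` is at most that of `y²`. -/
theorem InertiaDataP.val_sq_le (D : InertiaDataP v W σ T) {x y : K} {h : W.Nonsingular x y}
    (hR : Point.some x y h ∈ T) (hx : v x ≤ 1) : v ((x ^ 2 - W.a₄) ^ 2) ≤ v (y ^ 2) := by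
  obtain ⟨x₂, y₂, h', hadd, hid⟩ :=
    H13.short_double D.a₁ D.a₃ D.a₆ h (D.y_ne_zero hR) D.two_ne_zero
  have hx₂ : v x₂ ≤ 1 := by
    by_contra hcon
    push Not at hcon
    have hk : H12.InKer v (Point.some x y h + Point.some x y h) := by
      rw [hadd]
      exact (H12.inKer_some v h').mpr hcon
    have := (H12.inKer_some v h).mp (D.two_ker _ hR hk)
    exact absurd hx (not_le.mpr this)
  rw [← hid, map_mul, map_mul]
  have h4 : v (4 : K) = 1 := by
    have : (4 : K) = 2 * 2 := by norm_num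
    rw [this, map_mul, D.val_two, one_mul]
  rw [h4, one_mul]
  exact mul_le_of_le_one_right' hx₂

/-- **The final step.** If `σ x - x` and `σ y - y` have smaller valuation than `y`, then
`σ R - R` lies in the kernel of reduction, for an integral point `R = (x, y)` of `T`. -/
theorem InertiaDataP.inKer_of_lt (D : InertiaDataP v W σ T) {x y : K} {h : W.Nonsingular x y}
    (hR : Point.some x y h ∈ T) (hxA : v x ≤ 1) (hx : v (σ x - x) < v y)
    (hy : v (σ y - y) < v y) (h' : W.Nonsingular (σ x) (σ y)) :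
    H12.InKer v (Point.some (σ x) (σ y) h' - Point.some x y h) := by
  have h2y : v (2 * y) = v y := H13.val_two_mul v D.val_two
  have hsum : v (σ y + y) = v y := by
    have e : σ y + y = 2 * y + (σ y - y) := by ring
    rw [e, ← h2y]
    exact Valuation.map_add_eq_of_lt_left v (by rw [h2y]; exact hy)
  have hy0 : y ≠ 0 := D.y_ne_zero hR
  by_cases hxx : σ x = x
  · -- then `σ y = y` and the difference is zero
    have heq := H13.short_equation D.a₁ D.a₃ D.a₆ h
    have heq' := H13.short_equation D.a₁ D.a₃ D.a₆ h'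
    rw [hxx] at heq'
    have hsq : (σ y - y) * (σ y + y) = 0 := by linear_combination heq' - heq
    have hyy : σ y = y := by
      rcases mul_eq_zero.mp hsq with h0 | h0
      · exact sub_eq_zero.mp h0
      · rw [h0, map_zero] at hsum
        have : y = 0 := by
          rw [← map_eq_zero v]
          exact hsum.symm
        exact absurd this hy0
    have e : Point.some (σ x) (σ y) h' = Point.some x y h := by
      simp only [hxx, hyy]
    rw [e, sub_self]
    exact H12.inKer_zero v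
  · obtain ⟨x₃, y₃, h₃, hsub, hid⟩ := H13.short_sub D.a₁ D.a₃ h' h hxx
    rw [hsub, H12.inKer_some]
    by_contra hcon
    push Not at hcon
    have hσxA := D.val_apply_le hxA
    have h1 : v (x₃ + W.a₂ + σ x + x) ≤ 1 :=
      H13.val_add_le v (H13.val_add_le v (H13.val_add_le v hcon D.val_a₂) hσxA) hxA
    have h2 : v ((σ y + y) ^ 2) ≤ v ((σ x - x) ^ 2) := by
      rw [← hid, map_mul]
      exact mul_le_of_le_one_right' h1
    rw [map_pow, map_pow, hsum] at h2
    have h3 : v (σ x - x) ^ 2 < v y ^ 2 := pow_lt_pow_left₀ hx zero_le (by norm_num)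
    exact absurd h2 (not_le.mpr h3)

/-- If `y` is a unit then `σ R - R` lies in the kernel of reduction. -/
theorem InertiaDataP.inKer_of_val_y (D : InertiaDataP v W σ T) {x y : K}
    {h : W.Nonsingular x y} (hR : Point.some x y h ∈ T) (hxA : v x ≤ 1) (hy : v y = 1)
    (h' : W.Nonsingular (σ x) (σ y)) :
    H12.InKer v (Point.some (σ x) (σ y) h' - Point.some x y h) := by
  refine D.inKer_of_lt hR hxA ?_ ?_ h'
  · rw [hy]
    exact D.val_sub x hxA
  · rw [hy]
    exact D.val_sub y hy.le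

/-- Points of `T` in the kernel of reduction. -/
theorem InertiaDataP.inKer_of_inKer (D : InertiaDataP v W σ T) {x y : K}
    {h : W.Nonsingular x y} (hx : 1 < v x) (h' : W.Nonsingular (σ x) (σ y)) :
    H12.InKer v (Point.some (σ x) (σ y) h' - Point.some x y h) :=
  inKer_sub v D.a₁ D.a₃ D.val_a₂ D.val_a₄ D.val_a₆
    ((H12.inKer_some v h').mpr (D.one_lt_val_apply hx)) ((H12.inKer_some v h).mpr hx)

/-- **Good reduction.** -/
theorem InertiaDataP.inKer_of_good (D : InertiaDataP v W σ T) (hbe : v W.a₄ = 1)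
    (hdisc : v (W.a₂ ^ 2 - 4 * W.a₄) = 1) {x y : K} {h : W.Nonsingular x y}
    (hR : Point.some x y h ∈ T) (h' : W.Nonsingular (σ x) (σ y)) :
    H12.InKer v (Point.some (σ x) (σ y) h' - Point.some x y h) := by
  rcases lt_or_ge 1 (v x) with hker | hx
  · exact D.inKer_of_inKer hker h'
  refine D.inKer_of_val_y hR hx ?_ h'
  have hy := D.val_y (h := h) hx
  rcases lt_or_eq_of_le hy with hlt | heq1
  swap
  · exact heq1
  exfalso
  have heq := H13.short_equation D.a₁ D.a₃ D.a₆ h
  have hy2 : v (y ^ 2) < 1 := by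
    rw [map_pow]
    exact pow_lt_one₀ zero_le hlt (by norm_num)
  -- `x² ≡ a₄`
  have h1 : v (x ^ 2 - W.a₄) < 1 :=
    H13.val_lt_one_of_sq v (lt_of_le_of_lt (D.val_sq_le hR hx) hy2)
  -- `x` is a unit
  have hx1 : v x = 1 := by
    apply H13.val_eq_one_of_sq
    have e : x ^ 2 = W.a₄ + (x ^ 2 - W.a₄) := by ring
    rw [e]
    exact H13.val_add_eq_one v hbe h1
  -- `x² + a₂ x + a₄ ≡ 0`
  have h2 : v (x ^ 2 + W.a₂ * x + W.a₄) < 1 := by
    have e : y ^ 2 = x * (x ^ 2 + W.a₂ * x + W.a₄) := by rw [heq]; ring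
    rw [e, map_mul, hx1, one_mul] at hy2
    exact hy2
  -- `a₂ x + 2 a₄ ≡ 0`
  have h3 : v (W.a₂ * x + 2 * W.a₄) < 1 := by
    have e : W.a₂ * x + 2 * W.a₄ = (x ^ 2 + W.a₂ * x + W.a₄) - (x ^ 2 - W.a₄) := by ring
    rw [e]
    exact H13.val_sub_lt v h2 h1
  have h4 : v (W.a₂ * x - 2 * W.a₄) ≤ 1 := by
    refine H13.val_sub_le v (H13.val_mul_le_one v D.val_a₂ hx) ?_
    rw [map_mul, D.val_two, one_mul]
    exact D.val_a₄
  have h5 : v (W.a₄ * (W.a₂ ^ 2 - 4 * W.a₄)) < 1 := by
    have e : W.a₄ * (W.a₂ ^ 2 - 4 * W.a₄) =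
        (W.a₂ * x + 2 * W.a₄) * (W.a₂ * x - 2 * W.a₄) - W.a₂ ^ 2 * (x ^ 2 - W.a₄) := by ring
    rw [e]
    exact H13.val_sub_lt v (H13.val_mul_lt_one_left v h3 h4)
      (H13.val_mul_lt_one_right v (H13.val_pow_le_one v D.val_a₂ 2) h1)
  rw [map_mul, hbe, hdisc, one_mul] at h5
  exact lt_irrefl _ h5

/-- **Multiplicative reduction with node at `(0, 0)`.** -/
theorem InertiaDataP.inKer_of_mult (D : InertiaDataP v W σ T) (hal : v W.a₂ = 1)
    (hbe : v W.a₄ < 1)
    (hnode : ∀ (x y : K) (h : W.Nonsingular x y), Point.some x y h ∈ T → v x < 1 → x ≠ 0 →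
      v W.a₄ < v x ∧ ∃ c : K, σ c = c ∧ v c = v x)
    {x y : K} {h : W.Nonsingular x y}
    (hR : Point.some x y h ∈ T) (h' : W.Nonsingular (σ x) (σ y)) :
    H12.InKer v (Point.some (σ x) (σ y) h' - Point.some x y h) := by
  rcases lt_or_ge 1 (v x) with hker | hx
  · exact D.inKer_of_inKer hker h'
  have hy := D.val_y (h := h) hx
  have heq := H13.short_equation D.a₁ D.a₃ D.a₆ h
  rcases lt_or_eq_of_le hx with hxlt | hx1
  swap
  · -- `x` is a unit
    refine D.inKer_of_val_y hR hx ?_ h'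
    rcases lt_or_eq_of_le hy with hlt | heq1
    swap
    · exact heq1
    exfalso
    have hy2 : v (y ^ 2) < 1 := by
      rw [map_pow]
      exact pow_lt_one₀ zero_le hlt (by norm_num)
    have h1 : v (x ^ 2 - W.a₄) < 1 :=
      H13.val_lt_one_of_sq v (lt_of_le_of_lt (D.val_sq_le hR hx) hy2)
    have h2 : v (x ^ 2) < 1 := by
      have e : x ^ 2 = (x ^ 2 - W.a₄) + W.a₄ := by ring
      rw [e]
      exact H13.val_add_lt v h1 hbe
    rw [map_pow, hx1, one_pow] at h2
    exact lt_irrefl _ h2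
  -- near the node
  have hx0 : x ≠ 0 := by
    rintro rfl
    have : y ^ 2 = 0 := by rw [heq]; ring
    exact D.y_ne_zero hR (pow_eq_zero_iff (by norm_num) |>.mp this)
  obtain ⟨hlt, c, hσc, hc⟩ := hnode x y h hR hxlt hx0
  have hvx0 : v x ≠ 0 := by rw [ne_eq, map_eq_zero]; exact hx0
  have hc0 : c ≠ 0 := by
    rw [← map_ne_zero v, hc]
    exact hvx0
  -- `t = y / x` is a unit
  set t := y / x with ht
  have hyt : y = x * t := by rw [ht]; field_simp
  have ht2 : t ^ 2 = W.a₂ + (x + W.a₄ / x) := by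
    rw [ht, div_pow, heq]
    field_simp
    ring
  have hbx : v (W.a₄ / x) < 1 := by
    rw [map_div₀]
    exact (div_lt_one₀ (zero_lt_iff.mpr hvx0)).mpr hlt
  have hvt : v t = 1 := by
    apply H13.val_eq_one_of_sq
    rw [ht2]
    exact H13.val_add_eq_one v hal (H13.val_add_lt v hxlt hbx)
  have hvy : v y = v x := by rw [hyt, map_mul, hvt, mul_one]
  -- `σ x - x` is small
  have hσx : v (σ x - x) < v x := by
    have hw : v (x / c) = 1 := by
      rw [map_div₀, hc]
      exact div_self hvx0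
    have h1 := D.val_sub (x / c) hw.le
    have e : σ (x / c) - x / c = (σ x - x) / c := by
      rw [map_div₀, hσc]
      ring
    rw [e, map_div₀, hc] at h1
    exact (div_lt_one₀ (zero_lt_iff.mpr hvx0)).mp h1
  have hσt : v (σ t - t) < 1 := D.val_sub t hvt.le
  have hσt' : v (σ t) ≤ 1 := by
    have e : σ t = (σ t - t) + t := by ring
    rw [e]
    exact H13.val_add_le v hσt.le hvt.le
  have hσy : v (σ y - y) < v x := by
    have e : σ y - y = (σ x - x) * σ t + x * (σ t - t) := by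
      rw [hyt, map_mul]
      ring
    rw [e]
    refine H13.val_add_lt v ?_ ?_
    · rw [map_mul]
      exact lt_of_le_of_lt (mul_le_of_le_one_right' hσt') hσx
    · rw [map_mul]
      exact mul_lt_of_lt_one_right (zero_lt_iff.mpr hvx0) hσt
  exact D.inKer_of_lt hR hx (hvy ▸ hσx) (hvy ▸ hσy) h'

end Core

/-! ### The Galois wrapper -/

section Galois

open WeierstrassCurve.Affine.Point

variable {R : Type*} {S : Type*} {K : Type*} [CommRing R] [CommRing S] [Field K]
  [DecidableEq K] {W' : Affine R} [Algebra R S] [Algebra R K] [Algebra S K]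
  [IsScalarTower R S K]

/-- The hypotheses of the inertia argument, for the `p`-torsion (`p` odd) of the base change to
`K` of a short form curve over `R`, `A` a valuation subring of `K` (of ANY residue
characteristic prime to `2`) and `σ` an automorphism of `K` acting trivially on the residue
field of `A`. -/
theorem inertiaDataP_torsion (A : ValuationSubring K) (σ : K ≃ₐ[S] K)
    (h₁ : (W'⁄K).a₁ = 0) (h₃ : (W'⁄K).a₃ = 0) (h₆ : (W'⁄K).a₆ = 0)
    (hal : (W'⁄K).a₂ ∈ A) (hbe : (W'⁄K).a₄ ∈ A) (h2 : A.valuation 2 = 1)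
    (hσ : ∀ a ∈ A, σ a - a ∈ A.nonunits) {p : ℕ} (hp : Odd p) :
    InertiaDataP A.valuation (W'⁄K) (σ : K →+* K) (H13.torsionSubgroup W' K p) where
  a₁ := h₁
  a₃ := h₃
  a₆ := h₆
  val_a₂ := (A.valuation_le_one_iff _).mpr hal
  val_a₄ := (A.valuation_le_one_iff _).mpr hbe
  val_two := h2
  val_sub := fun a ha =>
    (ValuationSubring.mem_nonunits_iff (A := A)).mp (hσ a ((A.valuation_le_one_iff _).mp ha))
  stable := by
    intro x y h hR
    refine ⟨(W'.baseChange_nonsingular σ.toAlgHom.injective ..).mpr h, ?_⟩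
    rw [H13.mem_torsionSubgroup] at hR ⊢
    have h1 : σ • (p • (Point.some x y h : (W'⁄K).Point)) = 0 := by rw [hR, smul_zero]
    have h2 : σ • (p • (Point.some x y h : (W'⁄K).Point)) =
        p • (σ • (Point.some x y h : (W'⁄K).Point)) :=
      map_nsmul (Point.map (W' := W') σ.toAlgHom) p (Point.some x y h)
    rw [h2, H13.smul_some] at h1
    exact h1
  no_two := by
    intro P hP h2P
    rw [H13.mem_torsionSubgroup] at hP
    obtain ⟨k, hk⟩ := hp
    have : (2 * k + 1) • P = k • (P + P) + P := by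
      rw [add_smul, mul_smul, one_smul, two_smul, ← smul_add]
    rw [hk, this, h2P, smul_zero, zero_add] at hP
    exact hP
  two_ker := by
    intro P hP h2P
    have h6' : A.valuation (W'⁄K).a₆ ≤ 1 := by
      rw [h₆, _root_.map_zero]
      exact zero_le_one
    exact inKer_of_inKer_two_nsmul A.valuation h₁ h₃ ((A.valuation_le_one_iff _).mpr hal)
      ((A.valuation_le_one_iff _).mpr hbe) h6' hp (H13.mem_torsionSubgroup.mp hP) h2P

/-- **Inertia moves `p`-torsion points inside the kernel of reduction: good reduction.** -/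
theorem smul_sub_inKer_of_good (A : ValuationSubring K) (σ : K ≃ₐ[S] K)
    (h₁ : (W'⁄K).a₁ = 0) (h₃ : (W'⁄K).a₃ = 0) (h₆ : (W'⁄K).a₆ = 0)
    (hal : (W'⁄K).a₂ ∈ A) (h2 : A.valuation 2 = 1)
    (hσ : ∀ a ∈ A, σ a - a ∈ A.nonunits) {p : ℕ} (hp : Odd p)
    (hbe : A.valuation (W'⁄K).a₄ = 1)
    (hdisc : A.valuation ((W'⁄K).a₂ ^ 2 - 4 * (W'⁄K).a₄) = 1)
    (P : (W'⁄K).Point) (hP : p • P = 0) : H12.InKer A.valuation (σ • P - P) := by
  have D := inertiaDataP_torsion A σ h₁ h₃ h₆ hal ((A.valuation_le_one_iff _).mp hbe.le) h2 hσ hp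
  rcases P with _ | ⟨x, y, h⟩
  · have e : σ • (Point.zero : (W'⁄K).Point) = 0 := rfl
    rw [e]
    exact Or.inl (sub_self _)
  · rw [H13.smul_some]
    exact D.inKer_of_good hbe hdisc (H13.mem_torsionSubgroup.mpr hP) _

/-- **Inertia moves `p`-torsion points inside the kernel of reduction: multiplicative
reduction with node at `(0, 0)`**, assuming that `p`-torsion points near the node have
`x`-coordinate `x` with `v a₄ < v x` and `v x = v c` for some `σ`-fixed `c`. -/
theorem smul_sub_inKer_of_mult (A : ValuationSubring K) (σ : K ≃ₐ[S] K)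
    (h₁ : (W'⁄K).a₁ = 0) (h₃ : (W'⁄K).a₃ = 0) (h₆ : (W'⁄K).a₆ = 0)
    (h2 : A.valuation 2 = 1)
    (hσ : ∀ a ∈ A, σ a - a ∈ A.nonunits) {p : ℕ} (hp : Odd p)
    (hal : A.valuation (W'⁄K).a₂ = 1)
    (hbe : A.valuation (W'⁄K).a₄ < 1)
    (hnode : ∀ (x y : K) (h : (W'⁄K).Nonsingular x y),
      p • (Point.some x y h : (W'⁄K).Point) = 0 → A.valuation x < 1 → x ≠ 0 →
        A.valuation (W'⁄K).a₄ < A.valuation x ∧ ∃ c : K, σ c = c ∧ A.valuation c = A.valuation x)
    (P : (W'⁄K).Point) (hP : p • P = 0) : H12.InKer A.valuation (σ • P - P) := by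
  have D := inertiaDataP_torsion A σ h₁ h₃ h₆ ((A.valuation_le_one_iff _).mp hal.le)
    ((A.valuation_le_one_iff _).mp hbe.le) h2 hσ hp
  rcases P with _ | ⟨x, y, h⟩
  · have e : σ • (Point.zero : (W'⁄K).Point) = 0 := rfl
    rw [e]
    exact Or.inl (sub_self _)
  · rw [H13.smul_some]
    exact D.inKer_of_mult hal hbe
      (fun x y h hR => hnode x y h (H13.mem_torsionSubgroup.mp hR))
      (H13.mem_torsionSubgroup.mpr hP) _

end Galois

end Fermat.Agent.S13.Lp.IK
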