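import Fermat.Agent.S13.Lp.H25_Defs
import Fermat.Agent.S13.Lp.H23_InertiaKer

/-!
# S13, package Lp, leaf Lp1 (helper23): inertia at `p` moves the `p`-torsion of the Frey curve
inside the kernel of reduction

`stLp1 : ∀ P, Lp.StLp1 P`, from the generic core `H23_InertiaKer` (port of S05/H13 to residue
characteristic `p`), the Frey arithmetic of S05/H27 at `q = p` and the node statement
`W3.torsion_near_node_val` of S05 (which has no hypothesis on the residue characteristic).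
-/

set_option autoImplicit false

open WeierstrassCurve WeierstrassCurve.Affine WeierstrassCurve.Affine.Point
open Fermat.Agent.S05 Fermat.Agent.S13.Asm

namespace Fermat.Agent.S13.Lp.IK

/-- The two definitions of the kernel of reduction (S05/H7K and S05/H12) agree. -/
theorem inKer_h7_iff_h12 {F : Type*} [Field F] [DecidableEq F] {Γ₀ : Type*}
    [LinearOrderedCommGroupWithZero Γ₀] (v : Valuation F Γ₀) {W : Affine F} (P : W.Point) :
    H7K.InKer v P ↔ H12.InKer v P := by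
  rcases P with _ | ⟨x, y, h⟩
  · exact ⟨fun _ => H12.inKer_zero v, fun _ => trivial⟩
  · exact (H12.inKer_some v h).symm

/-- **Leaf Lp1.** -/
theorem stLp1 (P : FreyPackage) : Lp.StLp1 P := by
  intro A hA σ hσ R hR
  have hq := P.pp
  have hq2 : P.p ≠ 2 := by have := P.hp5; omega
  have h2 := H27.valuation_two_eq_one A hq hA hq2
  obtain ⟨h₁, h₃, h₆, e₂, e₄⟩ := H27.freyVC_smul_baseChange P P.p (AlgebraicClosure ℚ)
  have hσ' : ∀ a ∈ A, σ a - a ∈ A.nonunits := fun a ha => H7.apply_sub_mem_nonunits hσ ha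
  have hodd : Odd P.p := P.pp.odd_of_ne_two hq2
  have hal : ((H27.freyVC P P.p • P.freyCurve)⁄(AlgebraicClosure ℚ)).a₂ ∈ A := by
    rw [e₂]
    exact H27.freyAl_mem A P
  have hdisc : A.valuation (((H27.freyVC P P.p • P.freyCurve)⁄(AlgebraicClosure ℚ)).a₂ ^ 2
      - 4 * ((H27.freyVC P P.p • P.freyCurve)⁄(AlgebraicClosure ℚ)).a₄) = 1 := by
    rw [e₂, e₄]
    exact H27.valuation_disc_eq_one A P hq hA
  rw [inKer_h7_iff_h12]
  by_cases h : (P.p : ℤ) ∣ P.a * P.b * P.c
  · -- multiplicative reduction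
    have hal1 := H27.valuation_freyAl_eq_one_of_mult A P hq hA h
    obtain ⟨hbe1, t, ht, hvt⟩ := H27.valuation_freyBe_of_mult A P hq hA h
    rw [← e₂] at hal1
    rw [← e₄] at hbe1 hvt
    obtain ⟨ρ, hρ⟩ := H27.exists_sq_eq_a₂ P (K := AlgebraicClosure ℚ) P.p
    have hD : W3.NodeData A ((H27.freyVC P P.p • P.freyCurve)⁄(AlgebraicClosure ℚ)) ρ :=
      ⟨⟨h₁, h₃, h₆⟩, h2, hal1, hρ, hbe1, H27.freyShort_baseChange_a₄_ne_zero P P.p⟩
    refine smul_sub_inKer_of_mult A σ h₁ h₃ h₆ h2 hσ' hodd hal1 hbe1 ?_ R hR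
    intro x y h h0 hx hx0
    obtain ⟨hM, k, hk⟩ := W3.torsion_near_node_val hD hodd h h0 hx hvt
    refine ⟨hM, (t : AlgebraicClosure ℚ) ^ (2 * k), ?_, hk.symm⟩
    rw [map_zpow₀, map_intCast]
  · -- good reduction
    have hgood := H27.valuation_freyBe_eq_one_of_good A P hq hA h
    rw [← e₄] at hgood
    exact smul_sub_inKer_of_good A σ h₁ h₃ h₆ hal h2 hσ' hodd hgood hdisc R hR

end Fermat.Agent.S13.Lp.IK
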