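import Fermat.Agent.S13.Lp.H25_Defs

/-!
# S13, package Lp: adapter from the end statement of package W to `PsiData P`

Package W proves the root criterion for the `p`-torsion of EVERY integral short curve
(`a₁ = a₃ = 0`) with a polynomial `Ψ ∈ ℤ[X]` of degree `(p² - 1)/2` whose leading coefficient is
divisible by `p` exactly once.  Here this is specialised to the integral short model
`W0 P = ⟨0, freyAl, 0, freyBe, 0⟩` of the Frey curve at `p`, whose base change to `Kbar` is
`(W1 P)⁄Kbar`.
-/

set_option autoImplicit false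

open WeierstrassCurve WeierstrassCurve.Affine WeierstrassCurve.Affine.Point
open Fermat.Agent.S05 Fermat.Agent.S13.Asm

namespace Fermat.Agent.S13.Lp.Psi

open Fermat.Agent.S13.Lp

/-- The integral short model of the Frey curve at `p`. -/
noncomputable def W0 (P : FreyPackage) : WeierstrassCurve ℤ :=
  ⟨0, H27.freyAl P P.p, 0, H27.freyBe P P.p, 0⟩

theorem W0_a₁ (P : FreyPackage) : (W0 P).a₁ = 0 := rfl

theorem W0_a₃ (P : FreyPackage) : (W0 P).a₃ = 0 := rfl

theorem W0_a₆ (P : FreyPackage) : (W0 P).a₆ = 0 := rfl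

theorem W0_a₂ (P : FreyPackage) : (W0 P).a₂ = H27.freyAl P P.p := rfl

theorem W0_a₄ (P : FreyPackage) : (W0 P).a₄ = H27.freyBe P P.p := rfl

/-- The base change of the integral short model to any `ℚ`-algebra `K` that is a field is the
base change of the short model `W1 P`. -/
theorem W0_map (P : FreyPackage) (K : Type*) [Field K] [Algebra ℚ K] :
    (W0 P).map (Int.castRingHom K) = (W1 P)⁄K := by
  obtain ⟨h1, h3, h6, h2, h4⟩ := H27.freyVC_smul_baseChange P P.p K
  ext
  · rw [h1]; simp [W0]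
  · rw [h2]; simp [W0]
  · rw [h3]; simp [W0]
  · rw [h4]; simp [W0]
  · rw [h6]; simp [W0]

/-- The base change of the integral short model to `ℚ` is the short model `W1 P`. -/
theorem W0_map_rat (P : FreyPackage) : (W0 P).map (Int.castRingHom ℚ) = W1 P := by
  ext
  · rw [show (W1 P).a₁ = 0 from H27.freyShort_a₁ P P.p]; simp [W0]
  · rw [show (W1 P).a₂ = _ from H27.freyShort_a₂ P P.p]; simp [W0]
  · rw [show (W1 P).a₃ = 0 from H27.freyShort_a₃ P P.p]; simp [W0]
  · rw [show (W1 P).a₄ = _ from H27.freyShort_a₄ P P.p]; simp [W0]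
  · rw [show (W1 P).a₆ = 0 from H27.freyShort_a₆ P P.p]; simp [W0]

/-- Transport of the torsion condition along an equality of curves. -/
theorem nsmul_some_congr {K : Type*} [Field K] [DecidableEq K] {W W' : WeierstrassCurve K}
    (e : W = W') (n : ℕ) {x y : K} (h : W.toAffine.Nonsingular x y)
    (h' : W'.toAffine.Nonsingular x y) :
    n • (Point.some x y h : W.toAffine.Point) = 0 ↔
      n • (Point.some x y h' : W'.toAffine.Point) = 0 := by
  subst e
  rfl

/-- **The end statement of package W** for integral short curves (universe `0` instance). -/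
def StPsiGen : Prop :=
  ∀ (W : WeierstrassCurve ℤ), W.a₁ = 0 → W.a₃ = 0 → ∀ p : ℕ, p.Prime → 2 < p →
    ∃ Ψ : Polynomial ℤ, Ψ.natDegree = (p ^ 2 - 1) / 2 ∧ (p : ℤ) ∣ Ψ.leadingCoeff ∧
      ¬ ((p : ℤ) ^ 2 ∣ Ψ.leadingCoeff) ∧
      ∀ (K : Type) [Field K] [CharZero K] [DecidableEq K] (x y : K)
        (h : (W.map (Int.castRingHom K)).toAffine.Nonsingular x y),
        (p • (Point.some x y h : (W.map (Int.castRingHom K)).toAffine.Point) = 0 ↔
          (Ψ.map (Int.castRingHom K)).eval x = 0)

/-- `PsiData P` from the root criterion on the integral short model over `Kbar`. -/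
theorem psiData_of_kbar (P : FreyPackage)
    (hW : ∃ Ψ : Polynomial ℤ, Ψ.natDegree = (P.p ^ 2 - 1) / 2 ∧
      ¬ ((P.p : ℤ) ^ 2 ∣ Ψ.leadingCoeff) ∧
      ∀ (x y : Kbar) (h : ((W0 P).map (Int.castRingHom Kbar)).toAffine.Nonsingular x y),
        (P.p • (Point.some x y h : ((W0 P).map (Int.castRingHom Kbar)).toAffine.Point) = 0 ↔
          (Ψ.map (Int.castRingHom Kbar)).eval x = 0)) :
    PsiData P := by
  obtain ⟨Ψ, hdeg, hlc, hroot⟩ := hW
  refine ⟨Ψ, hdeg, hlc, fun x y h => ?_⟩
  have e := W0_map P Kbar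
  have h' : ((W0 P).map (Int.castRingHom Kbar)).toAffine.Nonsingular x y := by
    rw [e]; exact h
  rw [← nsmul_some_congr e P.p h' h, hroot x y h', Polynomial.eval_map]
  rfl

/-- `PsiData P` from the end statement of package W. -/
theorem psiData_of_stPsiGen (hW : StPsiGen) (P : FreyPackage) : PsiData P := by
  have hp2 : 2 < P.p := lt_of_lt_of_le (by norm_num) P.hp5
  obtain ⟨Ψ, hdeg, -, hlc, hroot⟩ := hW (W0 P) (W0_a₁ P) (W0_a₃ P) P.p P.pp hp2
  exact psiData_of_kbar P ⟨Ψ, hdeg, hlc, fun x y h => hroot Kbar x y h⟩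

end Fermat.Agent.S13.Lp.Psi
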