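import Fermat.Agent.S13.Lp.H25_Final
import Fermat.Agent.S13.Lp.H25_PsiAdapter
import Fermat.Agent.S13.Lp.H24_C3Core
import Fermat.Agent.S13.Lp.H23_C3Inst
import Fermat.Agent.S13.W.H1_PsiData

/-!
# S13, package Lp: the deliverable, hypothesis-free (assembly by helper23)

`stLpA P : Asm.StLpA P`: for every valuation subring `A` of `Kbar` over `p` and every
Galois-stable line `N` of `E[p]`, the inertia group of `A` acts trivially on `N` or on
`E[p] / N`.  Inputs: `Wr.psi_data` (package W, helper1), `Lp.Psi.psiData_of_stPsiGen`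
(helper25), `H24.h24_stC3Core` (helper24), `H23.stC3_of_core` (helper23),
`Lp.stLpA_of_psiData_of_stC3` (helper25; uses Lp1, T, X).
-/

set_option autoImplicit false

namespace Fermat.Agent.S13.Lp.H23

open Fermat.Agent.S13.Asm

/-- The interface of package W, hypothesis-free. -/
theorem h23_psiData (P : FreyPackage) : PsiData P :=
  Psi.psiData_of_stPsiGen
    (fun W h1 h3 p hp hp2 => Fermat.Agent.S13.Wr.psi_data W h1 h3 p hp hp2) P

/-- Claim 3, hypothesis-free. -/
theorem h23_stC3 (P : FreyPackage) : StC3 P :=
  stC3_of_core H24.h24_stC3Core P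

/-- **Deliverable of package Lp**, hypothesis-free. -/
theorem h23_stLpA (P : FreyPackage) : StLpA P :=
  stLpA_of_psiData_of_stC3 P (h23_psiData P) (h23_stC3 P)

end Fermat.Agent.S13.Lp.H23
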