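import Mathlib
import Fermat.Agent.S13.Lp.H25_Defs

/-!
# S13, package Lp, leaf Lp1-U (helper24)

An integral point with nonsingular reduction (`y` a unit, or `x² - a₄` a unit) of a short form
curve `y² = x³ + a₂ x² + a₄ x` with integral coefficients (residue characteristic `≠ 2`) moves
inside its residue class under a residually trivial endomorphism `σ` of the field:
`(σ x, σ y) - (x, y)` lies in the kernel of reduction.  No torsion hypothesis.
-/

set_option autoImplicit false
set_option linter.unusedSectionVars false
set_option linter.unusedVariables false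

open WeierstrassCurve WeierstrassCurve.Affine

namespace Fermat.Agent.S13.Lp.H24

open Fermat.Agent.S05

section Aux

variable {K : Type*} [Field K] {Γ : Type*} [LinearOrderedCommGroupWithZero Γ] (v : Valuation K Γ)

/-- `v (a + b) = 1` if `v a = 1` and `v b < 1`. -/
theorem val_add_eq_one' {a b : K} (ha : v a = 1) (hb : v b < 1) : v (a + b) = 1 := by
  rw [← ha]
  exact Valuation.map_add_eq_of_lt_left v (by rw [ha]; exact hb)

/-- In a product `a * b = c * g` with `v g = 1`, `c ≠ 0` and `v b < 1`: `v c < v a`. -/
theorem val_lt_of_mul_eq {a b c g : K} (h : a * b = c * g) (hg : v g = 1) (hc : c ≠ 0)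
    (hb : v b < 1) : v c < v a := by
  have hvc : v c ≠ 0 := (Valuation.ne_zero_iff v).mpr hc
  have e : v a * v b = v c := by
    rw [← map_mul, h, map_mul, hg, mul_one]
  by_contra hcon
  push Not at hcon
  have h1 : v a * v b ≤ v c * v b := mul_le_mul_left hcon (v b)
  have h2 : v c * v b < v c * 1 :=
    mul_lt_mul_of_pos_left hb (zero_lt_iff.mpr hvc)
  rw [e] at h1
  rw [mul_one] at h2
  exact absurd (lt_of_le_of_lt h1 h2) (lt_irrefl _)

end Aux

/-- **Leaf Lp1-U.** -/
theorem stLp1U : StLp1U := by
  intro K _ _ A W hW ha2 ha4 h2 σ hσ x y h h' hx hns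
  set v := A.valuation with hv
  have hva2 : v W.a₂ ≤ 1 := (A.valuation_le_one_iff _).mpr ha2
  have hva4 : v W.a₄ ≤ 1 := (A.valuation_le_one_iff _).mpr ha4
  have hvx : v x ≤ 1 := (A.valuation_le_one_iff _).mpr hx
  have hsub : ∀ a, v a ≤ 1 → v (σ a - a) < 1 := fun a ha =>
    (ValuationSubring.mem_nonunits_iff (A := A)).mp (hσ a ((A.valuation_le_one_iff _).mp ha))
  have h2ne : (2 : K) ≠ 0 := by
    intro h0
    rw [h0, map_zero] at h2
    exact zero_ne_one h2
  have hv4 : v (4 : K) = 1 := by
    have : (4 : K) = 2 * 2 := by norm_num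
    rw [this, map_mul, h2, one_mul]
  have heq : y ^ 2 = x ^ 3 + W.a₂ * x ^ 2 + W.a₄ * x := (hW.equation_iff x y).mp h.1
  have heq' : σ y ^ 2 = σ x ^ 3 + W.a₂ * σ x ^ 2 + W.a₄ * σ x := (hW.equation_iff _ _).mp h'.1
  have hvy : v y ≤ 1 := by
    apply H13.val_le_one_of_sq
    rw [heq]
    refine H13.val_add_le v (H13.val_add_le v (H13.val_pow_le_one v hvx 3) ?_) ?_
    · exact H13.val_mul_le_one v hva2 (H13.val_pow_le_one v hvx 2)
    · exact H13.val_mul_le_one v hva4 hvx
  have hσx : v (σ x - x) < 1 := hsub x hvx
  have hσy : v (σ y - y) < 1 := hsub y hvy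
  have hσxA : v (σ x) ≤ 1 := by
    have e : σ x = (σ x - x) + x := by ring
    rw [e]
    exact H13.val_add_le v hσx.le hvx
  -- if `y` is a unit then so is `σ y + y`
  have hsum_unit : v y = 1 → v (σ y + y) = 1 := by
    intro hy1
    have e : σ y + y = 2 * y + (σ y - y) := by ring
    rw [e]
    apply val_add_eq_one' v _ hσy
    rw [map_mul, h2, one_mul, hy1]
  -- the key factorisation
  have hfac : (σ y + y) * (σ y - y) =
      (σ x - x) * (σ x ^ 2 + σ x * x + x ^ 2 + W.a₂ * (σ x + x) + W.a₄) := by
    linear_combination heq' - heq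
  -- if `y` is not a unit, the second factor is a unit
  have hg_unit : v y < 1 →
      v (σ x ^ 2 + σ x * x + x ^ 2 + W.a₂ * (σ x + x) + W.a₄) = 1 := by
    intro hylt
    have hns' : v (x ^ 2 - W.a₄) = 1 := by
      rcases hns with h1 | h1
      · exact absurd h1 hylt.ne
      · exact h1
    have hy2 : v (y ^ 2) < 1 := by
      rw [map_pow]
      exact pow_lt_one₀ zero_le hylt (by norm_num)
    -- `3 x² + 2 a₂ x + a₄` is a unit
    have hder : v (3 * x ^ 2 + 2 * W.a₂ * x + W.a₄) = 1 := by
      rcases lt_or_eq_of_le hvx with hxlt | hx1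
      · -- `v x < 1`: then `a₄` is a unit
        have hx2 : v (x ^ 2) < 1 := by
          rw [map_pow]
          exact pow_lt_one₀ zero_le hxlt (by norm_num)
        have e : 3 * x ^ 2 + 2 * W.a₂ * x + W.a₄
            = -(x ^ 2 - W.a₄) + (4 * x ^ 2 + 2 * W.a₂ * x) := by ring
        rw [e]
        apply val_add_eq_one' v (by rw [Valuation.map_neg]; exact hns')
        refine H13.val_add_lt v ?_ ?_
        · rw [map_mul, hv4, one_mul]
          exact hx2
        · rw [map_mul, map_mul, h2, one_mul]
          exact H13.val_mul_lt_one_right v hva2 hxlt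
      · -- `v x = 1`: then `x² + a₂ x + a₄` is small
        have h3 : v (x ^ 2 + W.a₂ * x + W.a₄) < 1 := by
          have e : y ^ 2 = x * (x ^ 2 + W.a₂ * x + W.a₄) := by rw [heq]; ring
          rw [e, map_mul, hx1, one_mul] at hy2
          exact hy2
        have e : 3 * x ^ 2 + 2 * W.a₂ * x + W.a₄
            = (x ^ 2 - W.a₄) + 2 * (x ^ 2 + W.a₂ * x + W.a₄) := by ring
        rw [e]
        apply val_add_eq_one' v hns'
        rw [map_mul, h2, one_mul]
        exact h3
    have e : σ x ^ 2 + σ x * x + x ^ 2 + W.a₂ * (σ x + x) + W.a₄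
        = (3 * x ^ 2 + 2 * W.a₂ * x + W.a₄) + (σ x - x) * (σ x + 2 * x + W.a₂) := by ring
    rw [e]
    apply val_add_eq_one' v hder
    refine H13.val_mul_lt_one_left v hσx ?_
    refine H13.val_add_le v (H13.val_add_le v hσxA ?_) hva2
    rw [map_mul, h2, one_mul]
    exact hvx
  by_cases hxx : σ x = x
  · -- same abscissa
    have hsq : (σ y - y) * (σ y + y) = 0 := by
      rw [hxx] at heq'
      linear_combination heq' - heq
    rcases mul_eq_zero.mp hsq with h0 | h0
    · -- the same point
      have hyy : σ y = y := sub_eq_zero.mp h0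
      have : Point.some (σ x) (σ y) h' = Point.some x y h := by
        simp only [hxx, hyy]
      rw [this, sub_self]
      exact trivial
    · -- opposite points
      have hyy : σ y = -y := by linear_combination h0
      by_cases hy0 : y = 0
      · have hyy' : σ y = y := by rw [hyy, hy0, neg_zero]
        have : Point.some (σ x) (σ y) h' = Point.some x y h := by
          simp only [hxx, hyy']
        rw [this, sub_self]
        exact trivial
      · have hneg : Point.some (σ x) (σ y) h' = -(Point.some x y h) := by
          rw [hW.neg_some h]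
          simp only [hxx, hyy]
        obtain ⟨x₂, y₂, h₂, hadd, hid⟩ := H13.short_double hW.a₁ hW.a₃ hW.a₆ h hy0 h2ne
        have hdiff : Point.some (σ x) (σ y) h' - Point.some x y h
            = -(Point.some x₂ y₂ h₂) := by
          rw [hneg, ← hadd]
          abel
        rw [hdiff, hW.neg_some h₂]
        show 1 < v x₂
        -- `y` is not a unit
        have hylt : v y < 1 := by
          have e : 2 * y = -(σ y - y) := by rw [hyy]; ring
          have : v (2 * y) < 1 := by rw [e, Valuation.map_neg]; exact hσy
          rwa [map_mul, h2, one_mul] at this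
        have hns' : v (x ^ 2 - W.a₄) = 1 := by
          rcases hns with h1 | h1
          · exact absurd h1 hylt.ne
          · exact h1
        have hvy0 : v y ≠ 0 := (Valuation.ne_zero_iff v).mpr hy0
        have e1 : v y ^ 2 * v x₂ = 1 := by
          have := congrArg v hid
          rw [map_mul, map_mul, hv4, one_mul, map_pow, map_pow, hns', one_pow] at this
          exact this
        by_contra hcon
        push Not at hcon
        have hy2 : v y ^ 2 < 1 := pow_lt_one₀ zero_le hylt (by norm_num)
        have : v y ^ 2 * v x₂ < 1 :=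
          lt_of_le_of_lt (mul_le_of_le_one_right' hcon) hy2
        rw [e1] at this
        exact lt_irrefl _ this
  · -- different abscissas
    obtain ⟨x₃, y₃, h₃, hsub3, hid⟩ := H13.short_sub hW.a₁ hW.a₃ h' h hxx
    rw [hsub3]
    show 1 < v x₃
    by_contra hcon
    push Not at hcon
    have h1 : v (x₃ + W.a₂ + σ x + x) ≤ 1 :=
      H13.val_add_le v (H13.val_add_le v (H13.val_add_le v hcon hva2) hσxA) hvx
    have h2' : v ((σ y + y) ^ 2) ≤ v ((σ x - x) ^ 2) := by
      rw [← hid, map_mul]
      exact mul_le_of_le_one_right' h1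
    rw [map_pow, map_pow] at h2'
    have hle : v (σ y + y) ≤ v (σ x - x) := by
      by_contra hc
      push Not at hc
      exact absurd h2' (not_le.mpr (pow_lt_pow_left₀ hc zero_le (by norm_num)))
    have hxne : σ x - x ≠ 0 := sub_ne_zero.mpr hxx
    rcases lt_or_eq_of_le hvy with hylt | hy1
    · have hlt := val_lt_of_mul_eq v hfac (hg_unit hylt) hxne hσy
      exact absurd hle (not_le.mpr hlt)
    · rw [hsum_unit hy1] at hle
      exact absurd hσx (not_lt.mpr hle)

end Fermat.Agent.S13.Lp.H24
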