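import Fermat.Agent.S13.Lp.H25_PsiAdapter
import Fermat.Agent.S13.Lp.H25_Final
import Fermat.Agent.S13.W.H1_PsiData

/-!
# S13, package Lp: `PsiData P` (from package W) and the deliverable `Asm.StLpA P` from Claim 3
-/

set_option autoImplicit false

open Fermat.Agent.S13.Asm

namespace Fermat.Agent.S13.Lp

/-- The interface Lp ← W holds: the root criterion for the `p`-torsion of the short model. -/
theorem psiData (P : FreyPackage) : PsiData P :=
  Psi.psiData_of_stPsiGen (fun W h1 h3 p hp hp2 => Wr.psi_data W h1 h3 p hp hp2) P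

/-- The assembly deliverable of package Lp, from Claim 3 alone. -/
theorem stLpA_of_stC3 (P : FreyPackage) (h3 : StC3 P) : Asm.StLpA P :=
  stLpA_of_psiData_of_stC3 P (psiData P) h3

/-- `#E[p] ≤ p²` and finiteness are consequences of `PsiData P`; here: the unconditional form of
Claim 3 that remains to be proved, with the hypothesis `PsiData P` discharged. -/
theorem stC3_iff (P : FreyPackage) :
    StC3 P ↔ ∀ A : ValuationSubring Kbar, A.LiesOverPrime P.p →
      ∀ N1 : AddSubgroup (E1 P), (∀ x ∈ N1, P.p • x = 0) →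
        (∀ σ : Gam, ∀ x ∈ N1, σ • x ∈ N1) → N1 ≠ ⊥ → (∃ x : E1 P, P.p • x = 0 ∧ x ∉ N1) →
        ¬ (∀ R : E1 P, P.p • R = 0 → Fermat.Agent.S05.H7K.InKer A.valuation R) :=
  ⟨fun h => h (psiData P), fun h _ => h⟩

end Fermat.Agent.S13.Lp
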