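import Fermat.Agent.S13.Lp.H25_Defs

/-!
# S13, package Lp, leaf X: transport of the dichotomy from the short model to the Frey model

`Transport.stLpAt : StShort P → StLpAt P`, along the `Gam`-equivariant isomorphism
`H22.vcEquivBC (H27.freyVC P P.p) rfl Kbar : E1 P ≃+ (P.freyCurve⁄Kbar).Point`.
-/

set_option autoImplicit false

open WeierstrassCurve WeierstrassCurve.Affine WeierstrassCurve.Affine.Point
open Fermat.Agent.S05 Fermat.Agent.S13.Asm

namespace Fermat.Agent.S13.Lp.Transport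

open Fermat.Agent.S13.Lp

/-- The isomorphism from the short model at `p` to the Frey model. -/
noncomputable def phi (P : FreyPackage) : E1 P ≃+ (P.freyCurve⁄Kbar).Point :=
  H22.vcEquivBC (H27.freyVC P P.p) (W₀ := P.freyCurve) (W₁ := W1 P) rfl Kbar

theorem phi_smul (P : FreyPackage) (σ : Gam) (x : E1 P) : phi P (σ • x) = σ • phi P x :=
  H22.vcEquivBC_smul (H27.freyVC P P.p) (W₀ := P.freyCurve) (W₁ := W1 P) rfl σ x

theorem mem_V_iff (P : FreyPackage) (y : (P.freyCurve⁄Kbar).Point) :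
    y ∈ Submodule.torsionBy ℤ (P.freyCurve⁄Kbar).Point P.p ↔ P.p • y = 0 := by
  rw [Submodule.mem_torsionBy_iff]
  exact ⟨fun h => by exact_mod_cast h, fun h => by exact_mod_cast h⟩

theorem nsmul_phi_iff (P : FreyPackage) (x : E1 P) : P.p • phi P x = 0 ↔ P.p • x = 0 := by
  rw [← map_nsmul, map_eq_zero_iff _ (phi P).injective]

/-- The subgroup of the short model corresponding to `N`. -/
noncomputable def N1 (P : FreyPackage) (N : Submodule (ZMod P.p) (V P)) : AddSubgroup (E1 P) where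
  carrier := {x | ∃ n : V P, n ∈ N ∧ (n : (P.freyCurve⁄Kbar).Point) = phi P x}
  zero_mem' := ⟨0, N.zero_mem, by rw [_root_.map_zero]; rfl⟩
  add_mem' := by
    rintro x y ⟨n, hn, hx⟩ ⟨m, hm, hy⟩
    refine ⟨n + m, N.add_mem hn hm, ?_⟩
    rw [map_add, ← hx, ← hy]
    rfl
  neg_mem' := by
    rintro x ⟨n, hn, hx⟩
    refine ⟨-n, N.neg_mem hn, ?_⟩
    rw [map_neg, ← hx]
    rfl

theorem mem_N1 (P : FreyPackage) (N : Submodule (ZMod P.p) (V P)) (x : E1 P) :
    x ∈ N1 P N ↔ ∃ n : V P, n ∈ N ∧ (n : (P.freyCurve⁄Kbar).Point) = phi P x := Iff.rfl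

/-- The point of the short model corresponding to an element of `V P`. -/
noncomputable def pre (P : FreyPackage) (v : V P) : E1 P := (phi P).symm (v : (P.freyCurve⁄Kbar).Point)

theorem phi_pre (P : FreyPackage) (v : V P) : phi P (pre P v) = (v : (P.freyCurve⁄Kbar).Point) :=
  (phi P).apply_symm_apply _

theorem nsmul_pre (P : FreyPackage) (v : V P) : P.p • pre P v = 0 := by
  rw [← nsmul_phi_iff, phi_pre]
  exact (mem_V_iff P _).1 v.2

theorem pre_mem_N1_iff (P : FreyPackage) (N : Submodule (ZMod P.p) (V P)) (v : V P) :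
    pre P v ∈ N1 P N ↔ v ∈ N := by
  rw [mem_N1]
  constructor
  · rintro ⟨n, hn, e⟩
    rw [phi_pre] at e
    have : n = v := Subtype.ext e
    rwa [← this]
  · intro hv
    exact ⟨v, hv, (phi_pre P v).symm⟩

/-- **Leaf X**: the dichotomy at `A` on the Frey model, from the short model. -/
theorem stLpAt (P : FreyPackage) (h : StShort P) : StLpAt P := by
  intro hΨ N hN h0 h1 A hA
  have hst : ∀ σ : Gam, ∀ x ∈ N1 P N, σ • x ∈ N1 P N := by
    rintro σ x ⟨n, hn, e⟩
    refine ⟨σ • n, hN σ n hn, ?_⟩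
    rw [phi_smul, ← e]
    rfl
  have htors : ∀ x ∈ N1 P N, P.p • x = 0 := by
    rintro x ⟨n, -, e⟩
    rw [← nsmul_phi_iff, ← e]
    exact (mem_V_iff P _).1 n.2
  have hne : N1 P N ≠ ⊥ := by
    intro hbot
    apply h0
    rw [eq_bot_iff]
    intro n hn
    have h1 : pre P n ∈ N1 P N := (pre_mem_N1_iff P N n).2 hn
    rw [hbot, AddSubgroup.mem_bot] at h1
    have h2 : (n : (P.freyCurve⁄Kbar).Point) = 0 := by
      rw [← phi_pre, h1, _root_.map_zero]
    rw [Submodule.mem_bot]
    exact Subtype.ext h2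
  have hnt : ∃ x : E1 P, P.p • x = 0 ∧ x ∉ N1 P N := by
    have : ∃ v : V P, v ∉ N := by
      by_contra hall
      exact h1 (eq_top_iff.mpr fun v _ => by_contra fun hv => hall ⟨v, hv⟩)
    obtain ⟨v, hv⟩ := this
    exact ⟨pre P v, nsmul_pre P v, fun hmem => hv ((pre_mem_N1_iff P N v).1 hmem)⟩
  rcases h hΨ A hA (N1 P N) htors hst hne hnt with hl | hr
  · left
    intro σ hσ n hn
    have := hl σ hσ (pre P n) ((pre_mem_N1_iff P N n).2 hn)
    apply Subtype.ext
    have e : phi P (σ • pre P n) = phi P (pre P n) := by rw [this]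
    rw [phi_smul, phi_pre] at e
    exact e
  · right
    intro σ hσ v
    obtain ⟨n, hn, e⟩ := hr σ hσ (pre P v) (nsmul_pre P v)
    rw [map_sub, phi_smul, phi_pre] at e
    have : n = σ • v - v := Subtype.ext e
    rwa [← this]

end Fermat.Agent.S13.Lp.Transport
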