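import Fermat.Agent.S13.Lp.H25_Defs

/-!
# S13, package Lp, leaf T: the trichotomy on `E[p] ∩ KER`

* `Trich.inKer_add`, `inKer_neg`, `inKer_nsmul`, `inKer_zsmul`: the kernel of reduction of a
  short model is a subgroup (wrappers around `H7K.inKer_add`);
* `Trich.trich`: abstract trichotomy in an abelian group whose `p`-torsion has at most `p²`
  elements;
* `Trich.stShort_of_card`: the dichotomy at `A` in the short model, from `StLp1`, `StC3` and the
  bound `#E[p] ≤ p²`.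
-/

set_option autoImplicit false

open WeierstrassCurve WeierstrassCurve.Affine WeierstrassCurve.Affine.Point
open Fermat.Agent.S05 Fermat.Agent.S13.Asm

namespace Fermat.Agent.S13.Lp.Trich

/-! ### The kernel of reduction is a subgroup -/

section Ker

variable {F : Type*} [Field F] [DecidableEq F] {Γ₀ : Type*} [LinearOrderedCommGroupWithZero Γ₀]
  {v : Valuation F Γ₀} {W : Affine F}

theorem zc_lt_one (hW : Vieta.IsShort W) (hα : v W.a₂ ≤ 1) (hβ : v W.a₄ ≤ 1) {P : W.Point}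
    (hP : H7K.InKer v P) : v (H7K.zc P) < 1 := by
  rcases P with _ | ⟨x, y, h⟩
  · change v (0 : F) < 1
    rw [_root_.map_zero]
    exact zero_lt_one
  · have k : H7K.KerPt v W.a₂ W.a₄ x y := ⟨(hW.equation_iff x y).1 h.1, hP⟩
    exact k.v_z_lt_one hα hβ

theorem inKer_add (hW : Vieta.IsShort W) (hα : v W.a₂ ≤ 1) (hβ : v W.a₄ ≤ 1)
    (h2 : v (2 : F) = 1) {P₁ P₂ : W.Point} (h₁ : H7K.InKer v P₁) (h₂ : H7K.InKer v P₂) :
    H7K.InKer v (P₁ + P₂) := by
  have z₁ := zc_lt_one hW hα hβ h₁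
  have z₂ := zc_lt_one hW hα hβ h₂
  exact (H7K.inKer_add hW hα hβ h2 (ρ := max (v (H7K.zc P₁)) (v (H7K.zc P₂)))
    (max_lt z₁ z₂) h₁ h₂ (le_max_left _ _) (le_max_right _ _)).1

theorem inKer_neg (hW : Vieta.IsShort W) {P : W.Point} (h : H7K.InKer v P) :
    H7K.InKer v (-P) := by
  rcases P with _ | ⟨x, y, hxy⟩
  · exact h
  · rw [hW.neg_some hxy]
    exact h

theorem inKer_zero : H7K.InKer v (0 : W.Point) := trivial

theorem inKer_nsmul (hW : Vieta.IsShort W) (hα : v W.a₂ ≤ 1) (hβ : v W.a₄ ≤ 1)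
    (h2 : v (2 : F) = 1) {P : W.Point} (h : H7K.InKer v P) (n : ℕ) :
    H7K.InKer v (n • P) := by
  induction n with
  | zero => rw [zero_smul]; exact inKer_zero
  | succ n ih => rw [succ_nsmul]; exact inKer_add hW hα hβ h2 ih h

/-- The kernel of reduction, as a subgroup. -/
def kerSubgroup (hW : Vieta.IsShort W) (hα : v W.a₂ ≤ 1) (hβ : v W.a₄ ≤ 1)
    (h2 : v (2 : F) = 1) : AddSubgroup W.Point where
  carrier := {P | H7K.InKer v P}
  zero_mem' := inKer_zero (v := v) (W := W)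
  add_mem' := fun h₁ h₂ => inKer_add hW hα hβ h2 h₁ h₂
  neg_mem' := fun h => inKer_neg hW h

theorem mem_kerSubgroup (hW : Vieta.IsShort W) (hα : v W.a₂ ≤ 1) (hβ : v W.a₄ ≤ 1)
    (h2 : v (2 : F) = 1) {P : W.Point} :
    P ∈ kerSubgroup hW hα hβ h2 ↔ H7K.InKer v P := ⟨fun h => h, fun h => h⟩

end Ker

/-! ### The abstract trichotomy -/

section Abstract

variable {G : Type*} [AddCommGroup G] {p : ℕ}

theorem mem_of_zsmul_mem (hp : p.Prime) (H : AddSubgroup G) {z : G} (hz : p • z = 0) {m : ℤ}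
    (hm : ¬ (p : ℤ) ∣ m) (h : m • z ∈ H) : z ∈ H := by
  have hcop : IsCoprime m (p : ℤ) := by
    rw [isCoprime_comm]
    exact (Nat.prime_iff_prime_int.mp hp).coprime_iff_not_dvd.mpr hm
  obtain ⟨a, b, hab⟩ := hcop
  have hz' : (p : ℤ) • z = 0 := by rw [natCast_zsmul]; exact hz
  have e : z = a • (m • z) := by
    calc z = (1 : ℤ) • z := (one_zsmul z).symm
      _ = (a * m + b * p) • z := by rw [hab]
      _ = a • (m • z) + b • ((p : ℤ) • z) := by rw [add_zsmul, mul_zsmul, mul_zsmul]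
      _ = a • (m • z) := by rw [hz', zsmul_zero, add_zero]
  rw [e]
  exact H.zsmul_mem h a

theorem not_dvd_sub_of_fin_ne {k l : Fin p} (h : k ≠ l) :
    ¬ (p : ℤ) ∣ ((k : ℕ) : ℤ) - ((l : ℕ) : ℤ) := by
  intro hd
  have hk := k.2
  have hl := l.2
  have h0 : ((k : ℕ) : ℤ) - ((l : ℕ) : ℤ) = 0 := by
    apply Int.eq_zero_of_abs_lt_dvd hd
    rw [abs_lt]
    constructor <;> omega
  apply h
  apply Fin.ext
  omega

/-- In an abelian group whose `p`-torsion has at most `p²` elements, two `p`-torsion elements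
`x ≠ 0`, `z` with `z` outside a subgroup `N1 ∋ x` generate the `p`-torsion. -/
theorem exists_eq_add (hp : p.Prime) (hfin : Finite {t : G // p • t = 0})
    (hcard : Nat.card {t : G // p • t = 0} ≤ p ^ 2) (N1 : AddSubgroup G) {x z : G}
    (hx : p • x = 0) (hxN : x ∈ N1) (hx0 : x ≠ 0) (hz : p • z = 0) (hzN : z ∉ N1) (t : G)
    (ht : p • t = 0) : ∃ k l : ℕ, t = k • x + l • z := by
  classical
  haveI : NeZero p := ⟨hp.ne_zero⟩
  let f : Fin p × Fin p → {t : G // p • t = 0} := fun kl =>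
    ⟨(kl.1 : ℕ) • x + (kl.2 : ℕ) • z, by
      rw [smul_add, smul_comm, hx, smul_zero, smul_comm, hz, smul_zero, add_zero]⟩
  have hinj : Function.Injective f := by
    rintro ⟨k, l⟩ ⟨k', l'⟩ h
    have h' : (k : ℕ) • x + (l : ℕ) • z = (k' : ℕ) • x + (l' : ℕ) • z := congrArg Subtype.val h
    have e1 : (((l : ℕ) : ℤ) - ((l' : ℕ) : ℤ)) • z = (((k' : ℕ) : ℤ) - ((k : ℕ) : ℤ)) • x := by
      rw [sub_smul, sub_smul, natCast_zsmul, natCast_zsmul, natCast_zsmul, natCast_zsmul,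
        sub_eq_sub_iff_add_eq_add]
      rw [add_comm ((l : ℕ) • z)]
      exact h'
    have hl : l = l' := by
      by_contra hne
      apply hzN
      refine mem_of_zsmul_mem hp N1 hz (not_dvd_sub_of_fin_ne hne) ?_
      rw [e1]
      exact N1.zsmul_mem hxN _
    subst hl
    have hk : k = k' := by
      by_contra hne
      apply hx0
      have : x ∈ (⊥ : AddSubgroup G) := by
        refine mem_of_zsmul_mem hp ⊥ hx (not_dvd_sub_of_fin_ne (Ne.symm hne)) ?_
        rw [← e1, sub_self, zero_zsmul]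
        exact AddSubgroup.zero_mem _
      exact (AddSubgroup.mem_bot).mp this
    subst hk
    rfl
  have hbij : Function.Bijective f := by
    refine hinj.bijective_of_nat_card_le ?_
    rw [Nat.card_prod, Nat.card_fin]
    calc Nat.card {t : G // p • t = 0} ≤ p ^ 2 := hcard
      _ = p * p := sq p
  obtain ⟨⟨k, l⟩, hkl⟩ := hbij.2 ⟨t, ht⟩
  exact ⟨k, l, (congrArg Subtype.val hkl).symm⟩

/-- **Abstract trichotomy.** -/
theorem trich (hp : p.Prime) (hfin : Finite {t : G // p • t = 0})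
    (hcard : Nat.card {t : G // p • t = 0} ≤ p ^ 2) (KER N1 : AddSubgroup G)
    (hN : ∀ x ∈ N1, p • x = 0)
    (hC3 : ¬ ∀ R : G, p • R = 0 → R ∈ KER) :
    (∀ x ∈ N1, x ∈ KER → x = 0) ∨ (∀ t : G, p • t = 0 → t ∈ KER → t ∈ N1) := by
  by_cases hA : ∃ x ∈ N1, x ≠ 0 ∧ x ∈ KER
  · obtain ⟨x, hxN, hxne, hxK⟩ := hA
    right
    intro z hz hzK
    by_contra hzN
    apply hC3
    intro R hR
    obtain ⟨k, l, rfl⟩ := exists_eq_add hp hfin hcard N1 (hN x hxN) hxN hxne hz hzN R hR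
    exact KER.add_mem (KER.nsmul_mem hxK k) (KER.nsmul_mem hzK l)
  · left
    intro x hxN hxK
    by_contra hne
    exact hA ⟨x, hxN, hne, hxK⟩

end Abstract

end Fermat.Agent.S13.Lp.Trich

namespace Fermat.Agent.S13.Lp.Trich

open Fermat.Agent.S13.Lp

/-- The short model at `p` is short. -/
theorem isShort_W1 (P : FreyPackage) : Vieta.IsShort ((W1 P)⁄Kbar) := by
  obtain ⟨h₁, h₃, h₆, -, -⟩ := H27.freyVC_smul_baseChange P P.p Kbar
  exact ⟨h₁, h₃, h₆⟩

theorem val_a₂_W1 (P : FreyPackage) (A : ValuationSubring Kbar) :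
    A.valuation ((W1 P)⁄Kbar).a₂ ≤ 1 := by
  obtain ⟨-, -, -, h2, -⟩ := H27.freyVC_smul_baseChange P P.p Kbar
  rw [h2]
  exact H27.valuation_freyAl_le_one A P

theorem val_a₄_W1 (P : FreyPackage) (A : ValuationSubring Kbar) :
    A.valuation ((W1 P)⁄Kbar).a₄ ≤ 1 := by
  obtain ⟨-, -, -, -, h4⟩ := H27.freyVC_smul_baseChange P P.p Kbar
  rw [h4]
  exact H27.valuation_freyBe_le_one A P

theorem val_two_W1 (P : FreyPackage) (A : ValuationSubring Kbar) (hA : A.LiesOverPrime P.p) :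
    A.valuation (2 : Kbar) = 1 :=
  H27.valuation_two_eq_one A P.pp hA (by have := P.hp5; omega)

/-- The kernel of reduction at `A` of the short model, as a subgroup of `E1 P`. -/
noncomputable def ker (P : FreyPackage) (A : ValuationSubring Kbar)
    (hA : A.LiesOverPrime P.p) : AddSubgroup (E1 P) :=
  kerSubgroup (isShort_W1 P) (val_a₂_W1 P A) (val_a₄_W1 P A) (val_two_W1 P A hA)

theorem mem_ker (P : FreyPackage) (A : ValuationSubring Kbar) (hA : A.LiesOverPrime P.p)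
    {R : E1 P} : R ∈ ker P A hA ↔ H7K.InKer A.valuation R := ⟨fun h => h, fun h => h⟩

theorem nsmul_smul_sub (P : FreyPackage) (σ : Gam) (x : E1 P) (hx : P.p • x = 0) :
    P.p • (σ • x - x) = 0 := by
  have h1 : P.p • (σ • x) = σ • (P.p • x) :=
    ((DistribMulAction.toAddMonoidHom (E1 P) σ).map_nsmul P.p x).symm
  have h0 : σ • (0 : E1 P) = 0 := rfl
  rw [nsmul_sub, h1, hx, h0, sub_zero]

/-- **Leaf T**, given the bound `#E[p] ≤ p²` (a consequence of `PsiData`). -/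
theorem stShort_of_card (P : FreyPackage) (h1 : StLp1 P) (h3 : StC3 P)
    (hcard : PsiData P → Finite {t : E1 P // P.p • t = 0} ∧
      Nat.card {t : E1 P // P.p • t = 0} ≤ P.p ^ 2) : StShort P := by
  intro hΨ A hA N1 hN hst h0 hx0
  obtain ⟨hfin, hc⟩ := hcard hΨ
  have hC3 : ¬ ∀ R : E1 P, P.p • R = 0 → R ∈ ker P A hA := h3 hΨ A hA N1 hN hst h0 hx0
  rcases trich P.pp hfin hc (ker P A hA) N1 hN hC3 with hl | hr
  · left
    intro σ hσ x hx
    have hk : σ • x - x ∈ ker P A hA := h1 A hA σ hσ x (hN x hx)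
    have := hl _ (N1.sub_mem (hst σ x hx) hx) hk
    exact sub_eq_zero.mp this
  · right
    intro σ hσ x hx
    exact hr _ (nsmul_smul_sub P σ x hx) (h1 A hA σ hσ x hx)

end Fermat.Agent.S13.Lp.Trich
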