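import Mathlib
import Fermat.Prelude.Def_FLTPrelim_GaloisRep
import Fermat.Prelude.Def_FLTPrelim_Ramification

/-!
# S13, package Lp : Claim 3 (helper28)

`E[p]` cannot lie entirely in the kernel of reduction at `p` when there is a Galois-stable
line.  Pure algebra: if `F ∈ ℤ[X]` is nonzero, all its roots in `Qbar` are non-integral at a
valuation subring `A` over `p`, and the roots can be split into two nonempty Galois-stable
classes, then `p ^ 2 ∣ leadingCoeff F`.
-/

set_option autoImplicit false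

open Polynomial

namespace Fermat.Agent.S13.Lp.Claim3

section Val

variable {K : Type*} [Field K] (A : ValuationSubring K) {p : ℕ}

lemma h28_val_int_le_one (n : ℤ) : A.valuation (n : K) ≤ 1 :=
  (A.valuation_le_one_iff _).mpr (intCast_mem A n)

lemma h28_val_p_lt_one (hA : A.LiesOverPrime p) : A.valuation (p : K) < 1 :=
  (ValuationSubring.mem_nonunits_iff (A := A)).mp hA

/-- An integer prime to `p` is a unit of `A`. -/
lemma h28_val_int_eq_one (hp : p.Prime) (hA : A.LiesOverPrime p) (n : ℤ)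
    (hn : ¬ (p : ℤ) ∣ n) : A.valuation (n : K) = 1 := by
  have hcop : IsCoprime (p : ℤ) n :=
    (Nat.prime_iff_prime_int.mp hp).coprime_iff_not_dvd.mpr hn
  obtain ⟨u, w, huw⟩ := hcop
  have h1 : (w : K) * (n : K) = 1 - (u : K) * (p : K) := by
    have := congrArg (fun z : ℤ => (z : K)) huw
    push_cast at this
    linear_combination this
  have hvp : A.valuation ((u : K) * (p : K)) < 1 := by
    rw [map_mul]
    calc A.valuation (u : K) * A.valuation (p : K)
        ≤ 1 * A.valuation (p : K) := by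
          gcongr
          exact h28_val_int_le_one A u
      _ = A.valuation (p : K) := one_mul _
      _ < 1 := h28_val_p_lt_one A hA
  have h2 : A.valuation ((w : K) * (n : K)) = 1 := by
    rw [h1]
    exact Valuation.map_one_sub_of_lt _ hvp
  rw [map_mul] at h2
  have hw := h28_val_int_le_one A w
  have hn' := h28_val_int_le_one A n
  refine le_antisymm hn' ?_
  calc (1 : _) = A.valuation (w : K) * A.valuation (n : K) := h2.symm
    _ ≤ 1 * A.valuation (n : K) := by gcongr
    _ = A.valuation (n : K) := one_mul _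

/-- A rational number in the maximal ideal of `A` is divisible by `p` in `A`. -/
lemma h28_val_rat_le [CharZero K] (hp : p.Prime) (hA : A.LiesOverPrime p) (q : ℚ)
    (hq : A.valuation (q : K) < 1) : A.valuation (q : K) ≤ A.valuation (p : K) := by
  have hd0 : (q.den : K) ≠ 0 := by exact_mod_cast q.den_ne_zero
  have hcast : (q : K) = (q.num : K) / (q.den : K) := Rat.cast_def q
  have hvd0 : A.valuation (q.den : K) ≠ 0 := (Valuation.ne_zero_iff _).mpr hd0
  have hvd1 : A.valuation (q.den : K) ≤ 1 := by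
    have := h28_val_int_le_one A (q.den : ℤ)
    simpa only [Int.cast_natCast] using this
  by_cases hn : (p : ℤ) ∣ q.num
  · -- then `p ∤ den`
    have hden : ¬ (p : ℤ) ∣ (q.den : ℤ) := by
      intro hd
      have h1 : p ∣ q.num.natAbs := Int.natCast_dvd.mp hn
      have h2 : p ∣ q.den := by exact_mod_cast hd
      have h3 : p ∣ Nat.gcd q.num.natAbs q.den := Nat.dvd_gcd h1 h2
      rw [q.reduced] at h3
      exact hp.one_lt.ne' (Nat.dvd_one.mp h3)
    have hvd : A.valuation (q.den : K) = 1 := by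
      have := h28_val_int_eq_one A hp hA (q.den : ℤ) hden
      simpa using this
    obtain ⟨n', hn'⟩ := hn
    rw [hcast, map_div₀, hvd, div_one, hn']
    push_cast
    rw [map_mul]
    calc A.valuation (p : K) * A.valuation (n' : K)
        ≤ A.valuation (p : K) * 1 := by
          gcongr
          exact h28_val_int_le_one A n'
      _ = A.valuation (p : K) := mul_one _
  · exfalso
    have hvn : A.valuation (q.num : K) = 1 := h28_val_int_eq_one A hp hA _ hn
    rw [hcast, map_div₀, hvn] at hq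
    have : (1 : _) ≤ 1 / A.valuation (q.den : K) := by
      rw [le_div_iff₀ (zero_lt_iff.mpr hvd0), one_mul]
      exact hvd1
    exact absurd hq (not_lt.mpr this)

/-- An integer of valuation `≤ v(p) ^ 2` is divisible by `p ^ 2`. -/
lemma h28_sq_dvd_of_val_le [CharZero K] (hp : p.Prime) (hA : A.LiesOverPrime p) (m : ℤ)
    (hm : A.valuation (m : K) ≤ A.valuation (p : K) ^ 2) : (p : ℤ) ^ 2 ∣ m := by
  have hp0 : (p : K) ≠ 0 := by exact_mod_cast hp.ne_zero
  have hvp0 : 0 < A.valuation (p : K) := zero_lt_iff.mpr ((Valuation.ne_zero_iff _).mpr hp0)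
  have hvp1 := h28_val_p_lt_one A hA
  have hsq : A.valuation (p : K) ^ 2 < A.valuation (p : K) := by
    calc A.valuation (p : K) ^ 2 = A.valuation (p : K) * A.valuation (p : K) := sq _
      _ < A.valuation (p : K) * 1 := by
          exact mul_lt_mul_of_pos_left hvp1 hvp0
      _ = A.valuation (p : K) := mul_one _
  by_cases h1 : (p : ℤ) ∣ m
  · obtain ⟨m', rfl⟩ := h1
    by_cases h2 : (p : ℤ) ∣ m'
    · obtain ⟨m'', rfl⟩ := h2
      exact ⟨m'', by ring⟩
    · exfalso
      have hv : A.valuation (m' : K) = 1 := h28_val_int_eq_one A hp hA _ h2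
      push_cast at hm
      rw [map_mul, hv, mul_one] at hm
      exact absurd hsq (not_lt.mpr hm)
  · exfalso
    have hv : A.valuation (m : K) = 1 := h28_val_int_eq_one A hp hA _ h1
    rw [hv] at hm
    exact absurd (hsq.trans hvp1) (not_lt.mpr hm)

/-- The product of a multiset of non-integral elements is non-integral or `1`. -/
lemma h28_one_le_val_prod (s : Multiset K) (hs : ∀ ξ ∈ s, 1 < A.valuation ξ) :
    1 ≤ A.valuation s.prod := by
  induction s using Multiset.induction_on with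
  | empty => simp
  | cons a s ih =>
    rw [Multiset.prod_cons, map_mul]
    have h1 : 1 < A.valuation a := hs a (Multiset.mem_cons_self a s)
    have h2 := ih (fun ξ hξ => hs ξ (Multiset.mem_cons_of_mem hξ))
    calc (1 : _) = 1 * 1 := (one_mul _).symm
      _ ≤ A.valuation a * A.valuation s.prod := mul_le_mul' h1.le h2

/-- The product of a nonempty multiset of non-integral elements is non-integral. -/
lemma h28_one_lt_val_prod (s : Multiset K) (hs : ∀ ξ ∈ s, 1 < A.valuation ξ) (hne : s ≠ 0) :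
    1 < A.valuation s.prod := by
  obtain ⟨a, ha⟩ := Multiset.exists_mem_of_ne_zero hne
  obtain ⟨t, rfl⟩ := Multiset.exists_cons_of_mem ha
  rw [Multiset.prod_cons, map_mul]
  have h1 : 1 < A.valuation a := hs a (Multiset.mem_cons_self a t)
  have h2 := h28_one_le_val_prod A t (fun ξ hξ => hs ξ (Multiset.mem_cons_of_mem hξ))
  exact one_lt_mul_of_lt_of_le' h1 h2

end Val

section Core

lemma h28_isGalois : IsGalois ℚ (AlgebraicClosure ℚ) := by
  have h : IsAlgClosure ℚ (AlgebraicClosure ℚ) :=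
    (inferInstance : @IsAlgClosure ℚ (AlgebraicClosure ℚ) _ _ (AlgebraicClosure.instAlgebra ℚ) _)
  exact @IsAlgClosure.isGalois ℚ (AlgebraicClosure ℚ) _ _ _ h _

/-- The roots (with multiplicity) of an integer polynomial in `Qbar` are permuted by Galois. -/
lemma h28_roots_map (F : Polynomial ℤ) (σ : AlgebraicClosure ℚ ≃ₐ[ℚ] AlgebraicClosure ℚ) :
    (F.map (Int.castRingHom (AlgebraicClosure ℚ))).roots.map σ =
      (F.map (Int.castRingHom (AlgebraicClosure ℚ))).roots := by
  have h1 := Polynomial.roots_map_of_injective_of_card_eq_natDegree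
    (p := F.map (Int.castRingHom (AlgebraicClosure ℚ)))
    (f := (σ : AlgebraicClosure ℚ →+* AlgebraicClosure ℚ)) σ.injective
    IsAlgClosed.card_roots_eq_natDegree
  have h2 : (F.map (Int.castRingHom (AlgebraicClosure ℚ))).map
      (σ : AlgebraicClosure ℚ →+* AlgebraicClosure ℚ) =
      F.map (Int.castRingHom (AlgebraicClosure ℚ)) := by
    rw [Polynomial.map_map]
    congr 1
    exact RingHom.ext_int _ _
  rw [h2] at h1
  exact h1

/-- A Galois-stable sub-multiset of the roots has rational product. -/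
lemma h28_prod_rational (F : Polynomial ℤ) (T : AlgebraicClosure ℚ → Prop) [DecidablePred T]
    (hT : ∀ (σ : AlgebraicClosure ℚ ≃ₐ[ℚ] AlgebraicClosure ℚ) (ξ : AlgebraicClosure ℚ),
      T ξ → T (σ ξ)) :
    ∃ q : ℚ, (((F.map (Int.castRingHom (AlgebraicClosure ℚ))).roots.filter T).prod)⁻¹ =
      (q : AlgebraicClosure ℚ) := by
  set s := (F.map (Int.castRingHom (AlgebraicClosure ℚ))).roots with hs
  have hfix : ∀ σ : AlgebraicClosure ℚ ≃ₐ[ℚ] AlgebraicClosure ℚ,
      σ (s.filter T).prod = (s.filter T).prod := by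
    intro σ
    have hTiff : ∀ ξ, T (σ ξ) ↔ T ξ := by
      intro ξ
      refine ⟨fun h => ?_, hT σ ξ⟩
      have := hT σ⁻¹ (σ ξ) h
      simpa using this
    have h1 : (s.filter T).map σ = s.filter T := by
      have h2 := Multiset.filter_map (p := T) (f := (σ : AlgebraicClosure ℚ → AlgebraicClosure ℚ)) s
      have h3 : Multiset.filter (T ∘ (σ : AlgebraicClosure ℚ → AlgebraicClosure ℚ)) s
          = Multiset.filter T s :=
        Multiset.filter_congr (fun ξ _ => hTiff ξ)
      rw [h3] at h2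
      rw [← h2]
      congr 1
      exact h28_roots_map F σ
    calc σ (s.filter T).prod = ((s.filter T).map σ).prod := by
          rw [map_multiset_prod]
      _ = (s.filter T).prod := by rw [h1]
  have hgal := h28_isGalois
  obtain ⟨q, hq⟩ := (InfiniteGalois.mem_range_algebraMap_iff_fixed
    (k := ℚ) (K := AlgebraicClosure ℚ) (s.filter T).prod).mpr hfix
  refine ⟨q⁻¹, ?_⟩
  rw [← hq]
  simp

/-- **Claim 3, algebraic core.** Let `F ∈ ℤ[X]` be nonzero, `A` a valuation subring of `Qbar`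
over `p` such that no root of `F` lies in `A`, and let `T` be a Galois-stable predicate such
that `F` has a root satisfying `T` and a root not satisfying `T`.  Then `p² ∣ leadingCoeff F`. -/
theorem h28_core {p : ℕ} (hp : p.Prime) (A : ValuationSubring (AlgebraicClosure ℚ))
    (hA : A.LiesOverPrime p) (F : Polynomial ℤ) (hF : F ≠ 0)
    (hroot : ∀ ξ : AlgebraicClosure ℚ, aeval ξ F = 0 → ξ ∉ A)
    (T : AlgebraicClosure ℚ → Prop)
    (hT : ∀ (σ : AlgebraicClosure ℚ ≃ₐ[ℚ] AlgebraicClosure ℚ) (ξ : AlgebraicClosure ℚ),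
      T ξ → T (σ ξ))
    (h1 : ∃ ξ : AlgebraicClosure ℚ, aeval ξ F = 0 ∧ T ξ)
    (h2 : ∃ ξ : AlgebraicClosure ℚ, aeval ξ F = 0 ∧ ¬ T ξ) :
    (p : ℤ) ^ 2 ∣ F.leadingCoeff := by
  classical
  set f := F.map (Int.castRingHom (AlgebraicClosure ℚ)) with hf
  have hinj : Function.Injective (Int.castRingHom (AlgebraicClosure ℚ)) :=
    RingHom.injective_int _
  have hf0 : f ≠ 0 := (Polynomial.map_ne_zero_iff hinj).mpr hF
  have hlc : f.leadingCoeff = (F.leadingCoeff : AlgebraicClosure ℚ) := by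
    rw [hf, Polynomial.leadingCoeff_map_of_injective hinj]
    rfl
  have hmem : ∀ ξ, ξ ∈ f.roots ↔ aeval ξ F = 0 := by
    intro ξ
    rw [Polynomial.mem_roots hf0, Polynomial.IsRoot.def, hf, Polynomial.eval_map,
      Polynomial.aeval_def]
    rfl
  have hval : ∀ ξ ∈ f.roots, 1 < A.valuation ξ := by
    intro ξ hξ
    have := hroot ξ ((hmem ξ).mp hξ)
    rw [← A.valuation_le_one_iff] at this
    exact not_le.mp this
  -- evaluation at `0`
  have hev : (F.coeff 0 : AlgebraicClosure ℚ) = f.leadingCoeff * (f.roots.map (0 - ·)).prod := by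
    have := (IsAlgClosed.splits f).eval_eq_prod_roots 0
    rw [← this, hf, Polynomial.eval_map, Polynomial.eval₂_at_zero]
    rfl
  have hneg : (f.roots.map (0 - ·)).prod = (-1) ^ (Multiset.card f.roots) * f.roots.prod := by
    have : (f.roots.map (0 - ·)) = f.roots.map (fun ξ => -ξ) := by
      congr 1
      funext ξ
      simp
    rw [this, Multiset.prod_map_neg]
  have hsplit : f.roots = f.roots.filter T + f.roots.filter (fun ξ => ¬ T ξ) :=
    (Multiset.filter_add_not T f.roots).symm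
  set s₁ := f.roots.filter T with hs₁
  set s₂ := f.roots.filter (fun ξ => ¬ T ξ) with hs₂
  have hprod : f.roots.prod = s₁.prod * s₂.prod := by
    conv_lhs => rw [hsplit]
    rw [Multiset.prod_add]
  -- both classes are nonempty
  have hne₁ : s₁ ≠ 0 := by
    obtain ⟨ξ, hξ, hTξ⟩ := h1
    intro h0
    have : ξ ∈ s₁ := Multiset.mem_filter.mpr ⟨(hmem ξ).mpr hξ, hTξ⟩
    rw [h0] at this
    exact Multiset.notMem_zero _ this
  have hne₂ : s₂ ≠ 0 := by
    obtain ⟨ξ, hξ, hTξ⟩ := h2
    intro h0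
    have : ξ ∈ s₂ := Multiset.mem_filter.mpr ⟨(hmem ξ).mpr hξ, hTξ⟩
    rw [h0] at this
    exact Multiset.notMem_zero _ this
  have hv₁ : 1 < A.valuation s₁.prod :=
    h28_one_lt_val_prod A s₁ (fun ξ hξ => hval ξ (Multiset.mem_of_mem_filter hξ)) hne₁
  have hv₂ : 1 < A.valuation s₂.prod :=
    h28_one_lt_val_prod A s₂ (fun ξ hξ => hval ξ (Multiset.mem_of_mem_filter hξ)) hne₂
  -- rationality
  obtain ⟨q₁, hq₁⟩ := h28_prod_rational F T hT
  have hT' : ∀ (σ : AlgebraicClosure ℚ ≃ₐ[ℚ] AlgebraicClosure ℚ) (ξ : AlgebraicClosure ℚ),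
      ¬ T ξ → ¬ T (σ ξ) := by
    intro σ ξ hξ h
    apply hξ
    have := hT σ⁻¹ (σ ξ) h
    simpa using this
  obtain ⟨q₂, hq₂⟩ := h28_prod_rational F (fun ξ => ¬ T ξ) hT'
  rw [← hf] at hq₁ hq₂
  rw [← hs₁] at hq₁
  rw [← hs₂] at hq₂
  have hp₁0 : s₁.prod ≠ 0 := by
    intro h
    rw [h, map_zero] at hv₁
    exact absurd hv₁ (not_lt.mpr zero_le_one)
  have hp₂0 : s₂.prod ≠ 0 := by
    intro h
    rw [h, map_zero] at hv₂
    exact absurd hv₂ (not_lt.mpr zero_le_one)
  have hi₁ : A.valuation (s₁.prod)⁻¹ < 1 := by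
    rw [map_inv₀]
    exact inv_lt_one_of_one_lt₀ hv₁
  have hi₂ : A.valuation (s₂.prod)⁻¹ < 1 := by
    rw [map_inv₀]
    exact inv_lt_one_of_one_lt₀ hv₂
  have hb₁ : A.valuation (s₁.prod)⁻¹ ≤ A.valuation (p : AlgebraicClosure ℚ) := by
    rw [hq₁] at hi₁ ⊢
    exact h28_val_rat_le A hp hA q₁ hi₁
  have hb₂ : A.valuation (s₂.prod)⁻¹ ≤ A.valuation (p : AlgebraicClosure ℚ) := by
    rw [hq₂] at hi₂ ⊢
    exact h28_val_rat_le A hp hA q₂ hi₂
  -- the leading coefficient
  have hlc' : (F.leadingCoeff : AlgebraicClosure ℚ) =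
      (F.coeff 0 : AlgebraicClosure ℚ) * (-1) ^ (Multiset.card f.roots) *
        (s₁.prod)⁻¹ * (s₂.prod)⁻¹ := by
    rw [hev, hneg, hprod, hlc]
    have hsign : ((-1 : AlgebraicClosure ℚ) ^ (Multiset.card f.roots)) *
        ((-1) ^ (Multiset.card f.roots)) = 1 := by
      rw [← mul_pow]
      simp
    field_simp
    linear_combination (-(F.leadingCoeff : AlgebraicClosure ℚ)) * hsign
  apply h28_sq_dvd_of_val_le A hp hA
  rw [hlc', map_mul, map_mul, map_mul, map_pow, Valuation.map_neg, map_one, one_pow, mul_one, sq]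
  calc A.valuation (F.coeff 0 : AlgebraicClosure ℚ) * A.valuation (s₁.prod)⁻¹ *
        A.valuation (s₂.prod)⁻¹
      ≤ 1 * A.valuation (p : AlgebraicClosure ℚ) * A.valuation (p : AlgebraicClosure ℚ) := by
        gcongr
        exact h28_val_int_le_one A _
    _ = A.valuation (p : AlgebraicClosure ℚ) * A.valuation (p : AlgebraicClosure ℚ) := by
        rw [one_mul]

end Core

section Curve

open WeierstrassCurve WeierstrassCurve.Affine WeierstrassCurve.Affine.Point

/-- Over an algebraically closed field every abscissa carries a point of the curve. -/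
lemma h28_exists_y {K : Type*} [Field K] [IsAlgClosed K] (W : WeierstrassCurve.Affine K)
    (x : K) : ∃ y : K, W.Equation x y := by
  obtain ⟨y, hy⟩ := IsAlgClosed.exists_root
    (X ^ 2 + C (W.a₁ * x + W.a₃) * X - C (x ^ 3 + W.a₂ * x ^ 2 + W.a₄ * x + W.a₆) : K[X])
    (by
      have h : (X ^ 2 + C (W.a₁ * x + W.a₃) * X
          - C (x ^ 3 + W.a₂ * x ^ 2 + W.a₄ * x + W.a₆) : K[X]).degree = 2 := by
        compute_degree!
      rw [h]
      norm_num)
  refine ⟨y, (WeierstrassCurve.Affine.equation_iff x y).mpr ?_⟩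
  simp only [IsRoot.def, eval_sub, eval_add, eval_pow, eval_X, eval_mul, eval_C] at hy
  linear_combination hy

/-- **Claim 3** (generic Weierstrass curve over `ℚ`): if `F ∈ ℤ[X]` is nonzero with
`p² ∤ leadingCoeff F` and its roots in `Qbar` are exactly the abscissas of the nonzero
`p`-torsion points, and if `A` is a valuation subring over `p` such that NO nonzero
`p`-torsion point has an `A`-integral abscissa (`E[p]` lies in the kernel of reduction), then
there is no Galois-stable submodule `N` of `E[p]` with `N ≠ ⊥`, `N ≠ ⊤`. -/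
theorem h28_claim3 (W : WeierstrassCurve ℚ) (hΔ : W.Δ ≠ 0) {p : ℕ} (hp : p.Prime)
    (F : Polynomial ℤ) (hF0 : F ≠ 0) (hlc : ¬ ((p : ℤ) ^ 2 ∣ F.leadingCoeff))
    (hroot : ∀ (x y : AlgebraicClosure ℚ) (h : (W⁄(AlgebraicClosure ℚ)).toAffine.Nonsingular x y),
      (p • (Point.some x y h : (W⁄(AlgebraicClosure ℚ)).Point) = 0 ↔ aeval x F = 0))
    (A : ValuationSubring (AlgebraicClosure ℚ)) (hA : A.LiesOverPrime p)
    (hker : ∀ (x y : AlgebraicClosure ℚ) (h : (W⁄(AlgebraicClosure ℚ)).toAffine.Nonsingular x y),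
      p • (Point.some x y h : (W⁄(AlgebraicClosure ℚ)).Point) = 0 → x ∉ A)
    (N : Submodule (ZMod p) (Submodule.torsionBy ℤ (W⁄(AlgebraicClosure ℚ)).Point p))
    (hN : IsGaloisStable ℚ N) (h0 : N ≠ ⊥) (h1 : N ≠ ⊤) : False := by
  classical
  apply hlc
  -- torsion membership in `ℕ`-form
  have htor : ∀ P : Submodule.torsionBy ℤ (W⁄(AlgebraicClosure ℚ)).Point p,
      p • (P : (W⁄(AlgebraicClosure ℚ)).Point) = 0 := by
    intro P
    have := (Submodule.mem_torsionBy_iff _ _).mp P.2
    rwa [natCast_zsmul] at this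
  have hΔ' : (W⁄(AlgebraicClosure ℚ)).toAffine.Δ ≠ 0 := by
    change (W.map (algebraMap ℚ (AlgebraicClosure ℚ))).Δ ≠ 0
    rw [WeierstrassCurve.map_Δ]
    exact (_root_.map_ne_zero _).mpr hΔ
  refine h28_core hp A hA F hF0 ?_
    (fun ξ => ∃ P : Submodule.torsionBy ℤ (W⁄(AlgebraicClosure ℚ)).Point p, P ∈ N ∧
      ∃ (y : AlgebraicClosure ℚ) (h : (W⁄(AlgebraicClosure ℚ)).toAffine.Nonsingular ξ y),
        (P : (W⁄(AlgebraicClosure ℚ)).Point) = Point.some ξ y h) ?_ ?_ ?_
  · -- every root is the abscissa of a torsion point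
    intro ξ hξ
    obtain ⟨y, hy⟩ := h28_exists_y (W⁄(AlgebraicClosure ℚ)).toAffine ξ
    have hns := (equation_iff_nonsingular_of_Δ_ne_zero hΔ').mp hy
    exact hker ξ y hns ((hroot ξ y hns).mpr hξ)
  · -- Galois stability
    rintro σ ξ ⟨P, hPN, y, h, hP⟩
    have hmap := Point.map_some (W' := W) σ.toAlgHom h
    exact ⟨σ • P, hN σ P hPN, σ y, _, (congrArg (Point.map σ.toAlgHom) hP).trans hmap⟩
  · -- a root in the class
    obtain ⟨P, hPN, hP0⟩ := Submodule.exists_mem_ne_zero_of_ne_bot h0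
    have hP0' : (P : (W⁄(AlgebraicClosure ℚ)).Point) ≠ 0 := fun h => hP0 (Subtype.ext h)
    rcases hPv : (P : (W⁄(AlgebraicClosure ℚ)).Point) with _ | ⟨x, y, h⟩
    · exact absurd hPv hP0'
    · refine ⟨x, (hroot x y h).mp ?_, P, hPN, y, h, hPv⟩
      rw [← hPv]
      exact htor P
  · -- a root outside the class
    obtain ⟨Q, hQ⟩ : ∃ Q : Submodule.torsionBy ℤ (W⁄(AlgebraicClosure ℚ)).Point p, Q ∉ N := by
      by_contra hcon
      exact h1 (eq_top_iff.mpr (fun Q _ => by_contra fun hQ => hcon ⟨Q, hQ⟩))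
    have hQ0 : (Q : (W⁄(AlgebraicClosure ℚ)).Point) ≠ 0 := by
      intro h
      apply hQ
      have : Q = 0 := Subtype.ext h
      rw [this]
      exact N.zero_mem
    rcases hQv : (Q : (W⁄(AlgebraicClosure ℚ)).Point) with _ | ⟨x, y, h⟩
    · exact absurd hQv hQ0
    · refine ⟨x, (hroot x y h).mp ?_, ?_⟩
      · rw [← hQv]
        exact htor Q
      · rintro ⟨P, hPN, y', h', hP⟩
        rcases Y_eq_of_X_eq h'.1 h.1 rfl with hy | hy
        · -- `P = Q`
          apply hQ
          have : Q = P := by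
            apply Subtype.ext
            rw [hQv, hP]
            subst hy
            rfl
          rw [this]
          exact hPN
        · -- `P = -Q`
          apply hQ
          have : Q = -P := by
            apply Subtype.ext
            rw [Submodule.coe_neg, hQv, hP, Point.neg_some]
            subst hy
            congr 1
            exact (WeierstrassCurve.Affine.negY_negY _ _).symm
          rw [this]
          exact N.neg_mem hPN

/-- The same with the root criterion stated for `F.map (Int.castRingHom Qbar)`. -/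
theorem h28_claim3_map (W : WeierstrassCurve ℚ) (hΔ : W.Δ ≠ 0) {p : ℕ} (hp : p.Prime)
    (F : Polynomial ℤ) (hF0 : F ≠ 0) (hlc : ¬ ((p : ℤ) ^ 2 ∣ F.leadingCoeff))
    (hroot : ∀ (x y : AlgebraicClosure ℚ) (h : (W⁄(AlgebraicClosure ℚ)).toAffine.Nonsingular x y),
      (p • (Point.some x y h : (W⁄(AlgebraicClosure ℚ)).Point) = 0 ↔
        (F.map (Int.castRingHom (AlgebraicClosure ℚ))).eval x = 0))
    (A : ValuationSubring (AlgebraicClosure ℚ)) (hA : A.LiesOverPrime p)
    (hker : ∀ (x y : AlgebraicClosure ℚ) (h : (W⁄(AlgebraicClosure ℚ)).toAffine.Nonsingular x y),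
      p • (Point.some x y h : (W⁄(AlgebraicClosure ℚ)).Point) = 0 → x ∉ A)
    (N : Submodule (ZMod p) (Submodule.torsionBy ℤ (W⁄(AlgebraicClosure ℚ)).Point p))
    (hN : IsGaloisStable ℚ N) (h0 : N ≠ ⊥) (h1 : N ≠ ⊤) : False := by
  refine h28_claim3 W hΔ hp F hF0 hlc (fun x y h => ?_) A hA hker N hN h0 h1
  rw [hroot x y h, Polynomial.eval_map, Polynomial.aeval_def]
  rfl

/-- The discriminant of the Frey curve is `(abc)^(2p) / 2^8 ≠ 0`. -/
lemma h28_frey_Δ_ne_zero (P : FreyPackage) : P.freyCurve.Δ ≠ 0 := by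
  have hF : ((P.a : ℚ) ^ P.p + (P.b : ℚ) ^ P.p) = (P.c : ℚ) ^ P.p := by
    exact_mod_cast P.hFLT
  have hΔ : P.freyCurve.Δ =
      ((P.a : ℚ) ^ P.p * (P.b : ℚ) ^ P.p * (P.c : ℚ) ^ P.p) ^ 2 / 256 := by
    simp only [WeierstrassCurve.Δ, WeierstrassCurve.b₂, WeierstrassCurve.b₄,
      WeierstrassCurve.b₆, WeierstrassCurve.b₈, FreyPackage.freyCurve]
    rw [← hF]
    ring
  rw [hΔ]
  have ha : (P.a : ℚ) ≠ 0 := by exact_mod_cast P.ha0
  have hb : (P.b : ℚ) ≠ 0 := by exact_mod_cast P.hb0
  have hc : (P.c : ℚ) ≠ 0 := by exact_mod_cast P.hc0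
  positivity

/-- **Claim 3 for the Frey curve** (Frey model `y² + xy = x³ + a₂x² + a₄x`). -/
theorem h28_claim3_frey (P : FreyPackage)
    (F : Polynomial ℤ) (hF0 : F ≠ 0) (hlc : ¬ ((P.p : ℤ) ^ 2 ∣ F.leadingCoeff))
    (hroot : ∀ (x y : AlgebraicClosure ℚ)
      (h : (P.freyCurve⁄(AlgebraicClosure ℚ)).toAffine.Nonsingular x y),
      (P.p • (Point.some x y h : (P.freyCurve⁄(AlgebraicClosure ℚ)).Point) = 0 ↔
        aeval x F = 0))
    (A : ValuationSubring (AlgebraicClosure ℚ)) (hA : A.LiesOverPrime P.p)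
    (hker : ∀ (x y : AlgebraicClosure ℚ)
      (h : (P.freyCurve⁄(AlgebraicClosure ℚ)).toAffine.Nonsingular x y),
      P.p • (Point.some x y h : (P.freyCurve⁄(AlgebraicClosure ℚ)).Point) = 0 → x ∉ A)
    (N : Submodule (ZMod P.p)
      (Submodule.torsionBy ℤ (P.freyCurve⁄(AlgebraicClosure ℚ)).Point P.p))
    (hN : IsGaloisStable ℚ N) (h0 : N ≠ ⊥) (h1 : N ≠ ⊤) : False :=
  h28_claim3 P.freyCurve (h28_frey_Δ_ne_zero P) P.pp F hF0 hlc hroot A hA hker N hN h0 h1

end Curve

end Fermat.Agent.S13.Lp.Claim3
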